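/-
S05 helper file (helper8): unpacking the inertia subgroup.

For a valuation subring `A` of a field `L` (an algebra over a field `K`) and
`σ ∈ A.inertiaSubgroupIn K` we show: `σ` stabilises `A`, preserves the valuation of `A`,
moves elements of `A` only by elements of the maximal ideal, and fixes the base field.
We also record arithmetic facts for `A.LiesOverPrime q`.
-/
import Mathlib
import Fermat.Prelude.Def_FLTPrelim_Ramification

set_option autoImplicit false

open scoped Pointwise

namespace Fermat.Agent.S05.Inertia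

section General

variable {K L : Type*} [Field K] [Field L] [Algebra K L] {A : ValuationSubring L}

/-- Membership in `inertiaSubgroupIn`, unpacked. -/
theorem mem_inertiaSubgroupIn_iff {σ : L ≃ₐ[K] L} :
    σ ∈ A.inertiaSubgroupIn K ↔
      ∃ h : σ ∈ A.decompositionSubgroup K, (⟨σ, h⟩ : A.decompositionSubgroup K) ∈
        A.inertiaSubgroup K := by
  unfold ValuationSubring.inertiaSubgroupIn
  constructor
  · rintro ⟨τ, hτ, rfl⟩
    exact ⟨τ.2, hτ⟩
  · rintro ⟨h, hτ⟩
    exact ⟨⟨σ, h⟩, hτ, rfl⟩

/-- Elements of the inertia group lie in the decomposition group. -/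
theorem mem_decompositionSubgroup {σ : L ≃ₐ[K] L} (hσ : σ ∈ A.inertiaSubgroupIn K) :
    σ ∈ A.decompositionSubgroup K :=
  (mem_inertiaSubgroupIn_iff.1 hσ).1

/-- Elements of the inertia group stabilise `A`. -/
theorem smul_eq {σ : L ≃ₐ[K] L} (hσ : σ ∈ A.inertiaSubgroupIn K) : σ • A = A :=
  MulAction.mem_stabilizer_iff.1 (mem_decompositionSubgroup hσ)

/-- The inverse of an element of the inertia group is in the inertia group. -/
theorem inv_mem {σ : L ≃ₐ[K] L} (hσ : σ ∈ A.inertiaSubgroupIn K) :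
    σ⁻¹ ∈ A.inertiaSubgroupIn K :=
  Subgroup.inv_mem _ hσ

theorem apply_mem_of_mem_decomp {σ : L ≃ₐ[K] L} (hσ : σ ∈ A.decompositionSubgroup K) {w : L}
    (hw : w ∈ A) : σ w ∈ A := by
  have h1 : σ • w ∈ σ • A := ValuationSubring.smul_mem_pointwise_smul σ w A hw
  rw [MulAction.mem_stabilizer_iff.1 hσ] at h1
  exact h1

theorem apply_mem_iff_of_mem_decomp {σ : L ≃ₐ[K] L} (hσ : σ ∈ A.decompositionSubgroup K)
    {w : L} : σ w ∈ A ↔ w ∈ A := by
  refine ⟨fun h => ?_, apply_mem_of_mem_decomp hσ⟩
  have := apply_mem_of_mem_decomp (Subgroup.inv_mem _ hσ) h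
  simpa using this

/-- Elements of the decomposition group preserve the order relation of valuations. -/
theorem valuation_apply_le_iff_of_mem_decomp {σ : L ≃ₐ[K] L}
    (hσ : σ ∈ A.decompositionSubgroup K) (x y : L) :
    A.valuation (σ x) ≤ A.valuation (σ y) ↔ A.valuation x ≤ A.valuation y := by
  by_cases hy : y = 0
  · subst hy
    simp
  · have hσy : σ y ≠ 0 := by simpa using hy
    have e1 : A.valuation (σ x) ≤ A.valuation (σ y) ↔ σ x / σ y ∈ A := by
      rw [← A.valuation_le_one_iff, map_div₀, div_le_one₀]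
      exact (A.valuation.pos_iff).2 hσy
    have e2 : A.valuation x ≤ A.valuation y ↔ x / y ∈ A := by
      rw [← A.valuation_le_one_iff, map_div₀, div_le_one₀]
      exact (A.valuation.pos_iff).2 hy
    rw [e1, e2, ← map_div₀, apply_mem_iff_of_mem_decomp hσ]

theorem valuation_apply_lt_iff_of_mem_decomp {σ : L ≃ₐ[K] L}
    (hσ : σ ∈ A.decompositionSubgroup K) (x y : L) :
    A.valuation (σ x) < A.valuation (σ y) ↔ A.valuation x < A.valuation y := by
  rw [← not_le, ← not_le, valuation_apply_le_iff_of_mem_decomp hσ]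

/-- Every element of an algebraic extension is fixed by a positive power of a given
automorphism. -/
theorem exists_pow_apply_eq [Algebra.IsAlgebraic K L] (σ : L ≃ₐ[K] L) (w : L) :
    ∃ n : ℕ, 0 < n ∧ (σ ^ n) w = w := by
  have hfin : ((minpoly K w).rootSet L).Finite := Polynomial.rootSet_finite _ _
  have hmem : ∀ k : ℕ, (σ ^ k) w ∈ (minpoly K w).rootSet L := by
    intro k
    rw [Polynomial.mem_rootSet]
    refine ⟨minpoly.ne_zero (Algebra.IsIntegral.isIntegral w), ?_⟩
    have h0 : Polynomial.aeval w (minpoly K w) = 0 := minpoly.aeval K w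
    have := congrArg (σ ^ k) h0
    rw [map_zero] at this
    rw [← this]
    exact (Polynomial.aeval_algHom_apply ((σ ^ k : L ≃ₐ[K] L) : L →ₐ[K] L) w _)
  have hninj : ¬ Function.Injective (fun k : ℕ => (σ ^ k) w) := by
    intro hinj
    exact (Set.infinite_of_injective_forall_mem hinj hmem) hfin
  rw [Function.Injective] at hninj
  push Not at hninj
  obtain ⟨i, j, hij, hne⟩ := hninj
  have main : ∀ i j : ℕ, i < j → (σ ^ i) w = (σ ^ j) w → ∃ n : ℕ, 0 < n ∧ (σ ^ n) w = w := by
    intro i j hlt hij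
    refine ⟨j - i, Nat.sub_pos_of_lt hlt, ?_⟩
    have h3 : (σ ^ i) ((σ ^ (j - i)) w) = (σ ^ i) w := by
      have : (σ ^ j) w = (σ ^ i) ((σ ^ (j - i)) w) := by
        have hj' : j = i + (j - i) := by omega
        conv_lhs => rw [hj', pow_add]
        rfl
      rw [← this]
      exact hij.symm
    exact (σ ^ i).injective h3
  rcases lt_or_gt_of_ne hne with hlt | hlt
  · exact main i j hlt hij
  · exact main j i hlt hij.symm

/-- For an algebraic extension, elements of the decomposition group preserve the valuation. -/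
theorem valuation_apply_eq_of_mem_decomp [Algebra.IsAlgebraic K L] {σ : L ≃ₐ[K] L}
    (hσ : σ ∈ A.decompositionSubgroup K) (w : L) : A.valuation (σ w) = A.valuation w := by
  obtain ⟨n, hn, hfix⟩ := exists_pow_apply_eq σ w
  have hpow : ∀ k : ℕ, (σ ^ (k + 1)) w = σ ((σ ^ k) w) := by
    intro k
    rw [pow_succ']
    rfl
  have h0 : (σ ^ 0) w = w := by simp
  rcases lt_trichotomy (A.valuation (σ w)) (A.valuation w) with h | h | h
  · exfalso
    have key : ∀ k : ℕ, A.valuation ((σ ^ (k + 1)) w) < A.valuation ((σ ^ k) w) := by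
      intro k
      induction k with
      | zero => rw [hpow 0, h0]; exact h
      | succ k ih =>
        rw [hpow (k + 1), hpow k, valuation_apply_lt_iff_of_mem_decomp hσ, ← hpow k]
        exact ih
    have hanti : StrictAnti (fun k : ℕ => A.valuation ((σ ^ k) w)) :=
      strictAnti_nat_of_succ_lt key
    have := hanti hn
    simp only [hfix, h0] at this
    exact lt_irrefl _ this
  · exact h
  · exfalso
    have key : ∀ k : ℕ, A.valuation ((σ ^ k) w) < A.valuation ((σ ^ (k + 1)) w) := by
      intro k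
      induction k with
      | zero => rw [hpow 0, h0]; exact h
      | succ k ih =>
        rw [hpow (k + 1), hpow k, valuation_apply_lt_iff_of_mem_decomp hσ, ← hpow k]
        exact ih
    have hmono : StrictMono (fun k : ℕ => A.valuation ((σ ^ k) w)) :=
      strictMono_nat_of_lt_succ key
    have := hmono hn
    simp only [hfix, h0] at this
    exact lt_irrefl _ this

/-- `σ` maps `A` into `A`. -/
theorem apply_mem {σ : L ≃ₐ[K] L} (hσ : σ ∈ A.inertiaSubgroupIn K) {w : L} (hw : w ∈ A) :
    σ w ∈ A :=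
  apply_mem_of_mem_decomp (mem_decompositionSubgroup hσ) hw

/-- `σ w ∈ A ↔ w ∈ A`. -/
theorem apply_mem_iff {σ : L ≃ₐ[K] L} (hσ : σ ∈ A.inertiaSubgroupIn K) {w : L} :
    σ w ∈ A ↔ w ∈ A :=
  apply_mem_iff_of_mem_decomp (mem_decompositionSubgroup hσ)

/-- `σ` preserves units of `A` (valuation one), as membership of the inverse. -/
theorem apply_inv_mem_iff {σ : L ≃ₐ[K] L} (hσ : σ ∈ A.inertiaSubgroupIn K) {w : L} :
    (σ w)⁻¹ ∈ A ↔ w⁻¹ ∈ A := by
  rw [← map_inv₀, apply_mem_iff hσ]

/-- `σ` preserves the valuation attached to `A`: comparison form. -/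
theorem valuation_apply_le_iff {σ : L ≃ₐ[K] L} (hσ : σ ∈ A.inertiaSubgroupIn K) (x y : L) :
    A.valuation (σ x) ≤ A.valuation (σ y) ↔ A.valuation x ≤ A.valuation y :=
  valuation_apply_le_iff_of_mem_decomp (mem_decompositionSubgroup hσ) x y

theorem valuation_apply_lt_iff {σ : L ≃ₐ[K] L} (hσ : σ ∈ A.inertiaSubgroupIn K) (x y : L) :
    A.valuation (σ x) < A.valuation (σ y) ↔ A.valuation x < A.valuation y :=
  valuation_apply_lt_iff_of_mem_decomp (mem_decompositionSubgroup hσ) x y

/-- For an algebraic extension, elements of the inertia group preserve the valuation. -/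
theorem valuation_apply_eq [Algebra.IsAlgebraic K L] {σ : L ≃ₐ[K] L}
    (hσ : σ ∈ A.inertiaSubgroupIn K) (w : L) : A.valuation (σ w) = A.valuation w :=
  valuation_apply_eq_of_mem_decomp (mem_decompositionSubgroup hσ) w

/-- `σ` preserves `v ≤ 1`. -/
theorem valuation_apply_le_one_iff {σ : L ≃ₐ[K] L} (hσ : σ ∈ A.inertiaSubgroupIn K) (x : L) :
    A.valuation (σ x) ≤ 1 ↔ A.valuation x ≤ 1 := by
  rw [A.valuation_le_one_iff, A.valuation_le_one_iff, apply_mem_iff hσ]

/-- `σ` preserves `v < 1`. -/
theorem valuation_apply_lt_one_iff {σ : L ≃ₐ[K] L} (hσ : σ ∈ A.inertiaSubgroupIn K) (x : L) :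
    A.valuation (σ x) < 1 ↔ A.valuation x < 1 := by
  have := valuation_apply_lt_iff hσ x 1
  simpa using this

/-- `σ` preserves `v = 1`. -/
theorem valuation_apply_eq_one_iff {σ : L ≃ₐ[K] L} (hσ : σ ∈ A.inertiaSubgroupIn K) (x : L) :
    A.valuation (σ x) = 1 ↔ A.valuation x = 1 := by
  rw [le_antisymm_iff, le_antisymm_iff, valuation_apply_le_one_iff hσ]
  have := valuation_apply_le_iff hσ 1 x
  simp only [map_one] at this
  rw [this]

/-- `σ` preserves the maximal ideal of `A`. -/
theorem apply_mem_nonunits_iff {σ : L ≃ₐ[K] L} (hσ : σ ∈ A.inertiaSubgroupIn K) {w : L} :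
    σ w ∈ A.nonunits ↔ w ∈ A.nonunits := by
  rw [A.mem_nonunits_iff, A.mem_nonunits_iff] -- valuation_lt_one
  exact valuation_apply_lt_one_iff hσ w

/-- KEY FACT: an element of the inertia group moves elements of `A` by elements of the
maximal ideal. -/
theorem apply_sub_mem_nonunits {σ : L ≃ₐ[K] L} (hσ : σ ∈ A.inertiaSubgroupIn K) {w : L}
    (hw : w ∈ A) : σ w - w ∈ A.nonunits := by
  obtain ⟨hd, hi⟩ := mem_inertiaSubgroupIn_iff.1 hσ
  set τ : A.decompositionSubgroup K := ⟨σ, hd⟩ with hτ
  have hker : MulSemiringAction.toRingAut (A.decompositionSubgroup K)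
      (IsLocalRing.ResidueField A) τ = 1 := hi
  have h1 : τ • IsLocalRing.residue A ⟨w, hw⟩ = IsLocalRing.residue A ⟨w, hw⟩ := by
    have := congrArg (fun f : RingAut (IsLocalRing.ResidueField A) =>
      f (IsLocalRing.residue A ⟨w, hw⟩)) hker
    simpa using this
  rw [← IsLocalRing.ResidueField.residue_smul] at h1
  have h2 : IsLocalRing.residue A (τ • (⟨w, hw⟩ : A) - ⟨w, hw⟩) = 0 := by
    rw [map_sub, h1, sub_self]
  rw [IsLocalRing.residue_eq_zero_iff] at h2
  have h3 : ((τ • (⟨w, hw⟩ : A) - ⟨w, hw⟩ : A) : L) ∈ A.nonunits := by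
    rw [ValuationSubring.mem_nonunits_iff_exists_mem_maximalIdeal]
    exact ⟨_, h2⟩
  have h4 : ((τ • (⟨w, hw⟩ : A) - ⟨w, hw⟩ : A) : L) = σ w - w := by
    push_cast
    rfl
  rwa [h4] at h3

/-- valuation form of the key fact. -/
theorem valuation_apply_sub_lt_one {σ : L ≃ₐ[K] L} (hσ : σ ∈ A.inertiaSubgroupIn K) {w : L}
    (hw : A.valuation w ≤ 1) : A.valuation (σ w - w) < 1 := by
  rw [← A.mem_nonunits_iff]
  exact apply_sub_mem_nonunits hσ ((A.valuation_le_one_iff w).1 hw)

/-- EXACT statement requested in `lemmas` row 77 (S05, architect helper5). -/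
theorem sub_mem {L : Type*} [Field L] {k : Type*} [Field k] [Algebra k L] (A : ValuationSubring L)
    {σ : L ≃ₐ[k] L} (hσ : σ ∈ A.inertiaSubgroupIn k) :
    ∀ x, A.valuation x ≤ 1 → A.valuation (σ x - x) < 1 :=
  fun _ hx => valuation_apply_sub_lt_one hσ hx

/-- `σ` fixes the base field. -/
theorem apply_algebraMap (σ : L ≃ₐ[K] L) (a : K) : σ (algebraMap K L a) = algebraMap K L a :=
  σ.commutes a

/-- Multiplicative form: if `v(u) = 1` then `σ u = u * (1 + ε)` with `v(ε) < 1`. -/
theorem exists_eps_of_unit {σ : L ≃ₐ[K] L} (hσ : σ ∈ A.inertiaSubgroupIn K) {u : L}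
    (hu : A.valuation u = 1) : ∃ ε : L, A.valuation ε < 1 ∧ σ u = u * (1 + ε) := by
  have hu0 : u ≠ 0 := by
    rintro rfl
    simp at hu
  refine ⟨(σ u - u) / u, ?_, by field_simp; ring⟩
  rw [map_div₀, hu, div_one]
  exact valuation_apply_sub_lt_one hσ hu.le

/-- Multiplicative form for elements of the shape `a * u` with `a` in the base field and
`u` a unit of `A`: `σ x = x * (1 + ε)` with `v(ε) < 1`. -/
theorem exists_eps_of_base_mul_unit {σ : L ≃ₐ[K] L} (hσ : σ ∈ A.inertiaSubgroupIn K) (a : K)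
    {u : L} (hu : A.valuation u = 1) :
    ∃ ε : L, A.valuation ε < 1 ∧ σ (algebraMap K L a * u) = algebraMap K L a * u * (1 + ε) := by
  obtain ⟨ε, hε, h⟩ := exists_eps_of_unit hσ hu
  exact ⟨ε, hε, by rw [map_mul, apply_algebraMap, h, mul_assoc]⟩

/-- General multiplicative form: if `x = a * u` with `a` fixed by `σ` and `v(u) = 1`. -/
theorem exists_eps_of_fixed_mul_unit {σ : L ≃ₐ[K] L} (hσ : σ ∈ A.inertiaSubgroupIn K) {a u : L}
    (ha : σ a = a) (hu : A.valuation u = 1) :
    ∃ ε : L, A.valuation ε < 1 ∧ σ (a * u) = a * u * (1 + ε) := by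
  obtain ⟨ε, hε, h⟩ := exists_eps_of_unit hσ hu
  exact ⟨ε, hε, by rw [map_mul, ha, h, mul_assoc]⟩

end General

section Arithmetic

variable {L : Type*} [Field L] {A : ValuationSubring L}

/-- Integers lie in every valuation subring. -/
theorem intCast_mem' (A : ValuationSubring L) (n : ℤ) : (n : L) ∈ A :=
  _root_.intCast_mem A n

theorem natCast_mem' (A : ValuationSubring L) (n : ℕ) : (n : L) ∈ A :=
  _root_.natCast_mem A n

theorem valuation_intCast_le_one (A : ValuationSubring L) (n : ℤ) : A.valuation (n : L) ≤ 1 :=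
  (A.valuation_le_one_iff _).2 (intCast_mem' A n)

/-- If `A` lies over `q` then `v(q) < 1`. -/
theorem valuation_prime_lt_one {q : ℕ} (hA : A.LiesOverPrime q) : A.valuation (q : L) < 1 :=
  (A.mem_nonunits_iff).1 hA

/-- If `A` lies over the prime `q` and `q ∣ n` then `v(n) < 1`. -/
theorem valuation_intCast_lt_one_of_dvd {q : ℕ} (hA : A.LiesOverPrime q) {n : ℤ}
    (hn : (q : ℤ) ∣ n) : A.valuation (n : L) < 1 := by
  obtain ⟨m, rfl⟩ := hn
  push_cast
  rw [map_mul]
  calc A.valuation (q : L) * A.valuation (m : L) ≤ A.valuation (q : L) * 1 := by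
        gcongr
        exact valuation_intCast_le_one A m
    _ < 1 := by rw [mul_one]; exact valuation_prime_lt_one hA

/-- If `A` lies over the prime `q` and `q ∤ n` then `n` is a unit of `A`: `v(n) = 1`. -/
theorem valuation_intCast_eq_one_of_not_dvd {q : ℕ} (hq : q.Prime) (hA : A.LiesOverPrime q)
    {n : ℤ} (hn : ¬ (q : ℤ) ∣ n) : A.valuation (n : L) = 1 := by
  have hcop : IsCoprime (q : ℤ) n := by
    rw [Int.isCoprime_iff_gcd_eq_one]
    have := (Nat.Prime.coprime_iff_not_dvd hq).2 (fun h => hn (by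
      have := Int.natCast_dvd_natCast.2 h
      exact (Int.dvd_natAbs.1 this)))
    simpa [Int.gcd] using this
  obtain ⟨a, b, hab⟩ := hcop
  refine le_antisymm (valuation_intCast_le_one A n) ?_
  by_contra hlt
  rw [not_le] at hlt
  have h1 : A.valuation ((a : L) * (q : L) + (b : L) * (n : L)) < 1 := by
    refine lt_of_le_of_lt (A.valuation.map_add _ _) (max_lt ?_ ?_)
    · rw [map_mul]
      calc A.valuation (a : L) * A.valuation (q : L) ≤ 1 * A.valuation (q : L) := by
            gcongr
            exact valuation_intCast_le_one A a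
        _ < 1 := by rw [one_mul]; exact valuation_prime_lt_one hA
    · rw [map_mul]
      calc A.valuation (b : L) * A.valuation (n : L) ≤ 1 * A.valuation (n : L) := by
            gcongr
            exact valuation_intCast_le_one A b
        _ < 1 := by rw [one_mul]; exact hlt
  have h2 : ((a : L) * (q : L) + (b : L) * (n : L)) = 1 := by
    have := congrArg (fun z : ℤ => (z : L)) hab
    push_cast at this
    exact this
  rw [h2, map_one] at h1
  exact lt_irrefl _ h1

/-- Characterisation: for `A` over the prime `q`, `v(n) = 1 ↔ q ∤ n`. -/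
theorem valuation_intCast_eq_one_iff {q : ℕ} (hq : q.Prime) (hA : A.LiesOverPrime q) (n : ℤ) :
    A.valuation (n : L) = 1 ↔ ¬ (q : ℤ) ∣ n := by
  constructor
  · intro h hd
    exact (ne_of_lt (valuation_intCast_lt_one_of_dvd hA hd)) h
  · exact valuation_intCast_eq_one_of_not_dvd hq hA

/-- For `A` over the prime `q`, `v(n) < 1 ↔ q ∣ n`. -/
theorem valuation_intCast_lt_one_iff {q : ℕ} (hq : q.Prime) (hA : A.LiesOverPrime q) (n : ℤ) :
    A.valuation (n : L) < 1 ↔ (q : ℤ) ∣ n := by
  constructor
  · intro h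
    by_contra hd
    exact (ne_of_lt h) (valuation_intCast_eq_one_of_not_dvd hq hA hd)
  · exact valuation_intCast_lt_one_of_dvd hA

/-- A prime different from `q` is a unit of `A`. -/
theorem valuation_natCast_prime_eq_one {q p : ℕ} (hq : q.Prime) (hp : p.Prime) (hqp : q ≠ p)
    (hA : A.LiesOverPrime q) : A.valuation (p : L) = 1 := by
  have := valuation_intCast_eq_one_of_not_dvd (L := L) hq hA (n := (p : ℤ)) (by
    intro h
    have h' : q ∣ p := Int.natCast_dvd_natCast.1 h
    exact hqp ((Nat.prime_dvd_prime_iff_eq hq hp).1 h'))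
  simpa using this

/-- If `L` has characteristic zero, rational numbers whose denominator is prime to `q` are in
`A`; phrased for a quotient of integer casts. -/
theorem valuation_intCast_div_le_one {q : ℕ} (hq : q.Prime) (hA : A.LiesOverPrime q) (m n : ℤ)
    (hn : ¬ (q : ℤ) ∣ n) : A.valuation ((m : L) / (n : L)) ≤ 1 := by
  rw [map_div₀, valuation_intCast_eq_one_of_not_dvd hq hA hn, div_one]
  exact valuation_intCast_le_one A m

end Arithmetic

end Fermat.Agent.S05.Inertia
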