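import Mathlib
import Fermat.Prelude.Def_FLTPrelim_FreyPackage

/-!
# Elementary arithmetic of a Frey package relative to a prime `q` and a valuation subring

* `cases`: a prime `q` divides at most one of `a`, `b`, `c`.
* `val_intCast_eq_one`, `val_natCast_eq_one`: integers prime to `q` are units of a valuation
  subring `A` in which `q` is a nonunit.
* `val_intCast_lt_one`, `val_natCast_lt_one`: multiples of `q` lie in the maximal ideal.
-/

namespace Fermat.Agent.S05.FreyArith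

/-- A prime cannot divide two integers whose gcd is one. -/
theorem not_dvd_both_of_gcd_eq_one {x y : ℤ} (h : gcd x y = 1) {q : ℕ} (hq : q.Prime)
    (hx : (q : ℤ) ∣ x) (hy : (q : ℤ) ∣ y) : False := by
  have h1 : (q : ℤ) ∣ gcd x y := dvd_gcd hx hy
  rw [h] at h1
  have h2 : (q : ℤ) ∣ 1 := h1
  have h3 : (q : ℕ) ∣ 1 := by exact_mod_cast h2
  exact hq.one_lt.ne' (Nat.dvd_one.mp h3)

/-- A prime `q` divides at most one of `a`, `b`, `c`. -/
theorem cases (P : FreyPackage) {q : ℕ} (hq : q.Prime) :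
    (¬ (q : ℤ) ∣ P.b ∧ ¬ (q : ℤ) ∣ P.c) ∨ (¬ (q : ℤ) ∣ P.a ∧ ¬ (q : ℤ) ∣ P.c) ∨
      (¬ (q : ℤ) ∣ P.a ∧ ¬ (q : ℤ) ∣ P.b) := by
  by_cases ha : (q : ℤ) ∣ P.a
  · left
    exact ⟨fun hb => not_dvd_both_of_gcd_eq_one P.hgcdab hq ha hb,
      fun hc => not_dvd_both_of_gcd_eq_one P.hgcdac hq ha hc⟩
  · right
    by_cases hb : (q : ℤ) ∣ P.b
    · left
      exact ⟨ha, fun hc => not_dvd_both_of_gcd_eq_one P.hgcdbc hq hb hc⟩
    · right
      exact ⟨ha, hb⟩

/-- If `q ∣ a` then `q ∤ b` and `q ∤ c`. -/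
theorem not_dvd_b_c_of_dvd_a (P : FreyPackage) {q : ℕ} (hq : q.Prime) (h : (q : ℤ) ∣ P.a) :
    ¬ (q : ℤ) ∣ P.b ∧ ¬ (q : ℤ) ∣ P.c :=
  ⟨fun hb => not_dvd_both_of_gcd_eq_one P.hgcdab hq h hb,
    fun hc => not_dvd_both_of_gcd_eq_one P.hgcdac hq h hc⟩

/-- If `q ∣ b` then `q ∤ a` and `q ∤ c`. -/
theorem not_dvd_a_c_of_dvd_b (P : FreyPackage) {q : ℕ} (hq : q.Prime) (h : (q : ℤ) ∣ P.b) :
    ¬ (q : ℤ) ∣ P.a ∧ ¬ (q : ℤ) ∣ P.c :=
  ⟨fun ha => not_dvd_both_of_gcd_eq_one P.hgcdab hq ha h,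
    fun hc => not_dvd_both_of_gcd_eq_one P.hgcdbc hq h hc⟩

/-- If `q ∣ c` then `q ∤ a` and `q ∤ b`. -/
theorem not_dvd_a_b_of_dvd_c (P : FreyPackage) {q : ℕ} (hq : q.Prime) (h : (q : ℤ) ∣ P.c) :
    ¬ (q : ℤ) ∣ P.a ∧ ¬ (q : ℤ) ∣ P.b :=
  ⟨fun ha => not_dvd_both_of_gcd_eq_one P.hgcdac hq ha h,
    fun hb => not_dvd_both_of_gcd_eq_one P.hgcdbc hq hb h⟩

section Valuation

variable {L : Type*} [Field L] (A : ValuationSubring L)

/-- Integers lie in every valuation subring, so have valuation at most one. -/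
theorem val_intCast_le_one (n : ℤ) : A.valuation (n : L) ≤ 1 :=
  (A.valuation_le_one_iff _).mpr (intCast_mem A n)

/-- Naturals lie in every valuation subring, so have valuation at most one. -/
theorem val_natCast_le_one (n : ℕ) : A.valuation (n : L) ≤ 1 :=
  (A.valuation_le_one_iff _).mpr (natCast_mem A n)

/-- Multiples of `q` lie in the maximal ideal of `A` when `q` does. -/
theorem val_intCast_lt_one {q : ℕ} (hA : (q : L) ∈ A.nonunits) {n : ℤ} (hn : (q : ℤ) ∣ n) :
    A.valuation (n : L) < 1 := by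
  obtain ⟨k, rfl⟩ := hn
  have hq : A.valuation (q : L) < 1 := (A.mem_nonunits_iff).mp hA
  have hk : A.valuation (k : L) ≤ 1 := val_intCast_le_one A k
  push_cast
  rw [map_mul]
  exact mul_lt_of_lt_of_le_one hq hk

/-- Integers prime to `q` are units of `A` when `q` is a nonunit of `A`. -/
theorem val_intCast_eq_one {q : ℕ} (hq : q.Prime) (hA : (q : L) ∈ A.nonunits) {n : ℤ}
    (hn : ¬ (q : ℤ) ∣ n) : A.valuation (n : L) = 1 := by
  have hle : A.valuation (n : L) ≤ 1 := val_intCast_le_one A n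
  rcases lt_or_eq_of_le hle with hlt | heq
  · exfalso
    have hqv : A.valuation (q : L) < 1 := (A.mem_nonunits_iff).mp hA
    have hqp : Prime (q : ℤ) := Nat.prime_iff_prime_int.mp hq
    have hcop : IsCoprime (q : ℤ) n := (Prime.coprime_iff_not_dvd hqp).mpr hn
    obtain ⟨u, w, huw⟩ := hcop
    have h1 : ((u : L) * (q : L) + (w : L) * (n : L)) = 1 := by
      have := congrArg (fun z : ℤ => (z : L)) huw
      simpa using this
    have hu : A.valuation (u : L) ≤ 1 := val_intCast_le_one A u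
    have hw : A.valuation (w : L) ≤ 1 := val_intCast_le_one A w
    have hA1 : A.valuation ((u : L) * (q : L)) < 1 := by
      rw [map_mul]
      exact mul_lt_of_le_one_of_lt hu hqv
    have hA2 : A.valuation ((w : L) * (n : L)) < 1 := by
      rw [map_mul]
      exact mul_lt_of_le_one_of_lt hw hlt
    have hsum : A.valuation ((u : L) * (q : L) + (w : L) * (n : L)) < 1 :=
      Valuation.map_add_lt _ hA1 hA2
    rw [h1, map_one] at hsum
    exact lt_irrefl _ hsum
  · exact heq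

/-- Naturals prime to `q` are units of `A` when `q` is a nonunit of `A`. -/
theorem val_natCast_eq_one {q : ℕ} (hq : q.Prime) (hA : (q : L) ∈ A.nonunits) {n : ℕ}
    (hn : ¬ q ∣ n) : A.valuation (n : L) = 1 := by
  have h : ¬ (q : ℤ) ∣ (n : ℤ) := fun h => hn (by exact_mod_cast h)
  have := val_intCast_eq_one A hq hA h
  simpa using this

/-- Natural multiples of `q` lie in the maximal ideal of `A` when `q` does. -/
theorem val_natCast_lt_one {q : ℕ} (hA : (q : L) ∈ A.nonunits) {n : ℕ} (hn : q ∣ n) :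
    A.valuation (n : L) < 1 := by
  have h : (q : ℤ) ∣ (n : ℤ) := by exact_mod_cast hn
  have := val_intCast_lt_one A hA h
  simpa using this

/-- Powers of integers prime to `q` are units of `A`. -/
theorem val_intCast_pow_eq_one {q : ℕ} (hq : q.Prime) (hA : (q : L) ∈ A.nonunits) {n : ℤ}
    (hn : ¬ (q : ℤ) ∣ n) (k : ℕ) : A.valuation ((n : L) ^ k) = 1 := by
  rw [map_pow, val_intCast_eq_one A hq hA hn, one_pow]

/-- Powers of naturals prime to `q` are units of `A`. -/
theorem val_natCast_pow_eq_one {q : ℕ} (hq : q.Prime) (hA : (q : L) ∈ A.nonunits) {n : ℕ}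
    (hn : ¬ q ∣ n) (k : ℕ) : A.valuation ((n : L) ^ k) = 1 := by
  rw [map_pow, val_natCast_eq_one A hq hA hn, one_pow]

/-- Positive powers of multiples of `q` lie in the maximal ideal. -/
theorem val_intCast_pow_lt_one {q : ℕ} (hA : (q : L) ∈ A.nonunits) {n : ℤ}
    (hn : (q : ℤ) ∣ n) {k : ℕ} (hk : k ≠ 0) : A.valuation ((n : L) ^ k) < 1 := by
  rw [map_pow]
  exact pow_lt_one' (val_intCast_lt_one A hA hn) hk

/-- The valuation of `q` itself is `< 1`. -/
theorem val_prime_lt_one {q : ℕ} (hA : (q : L) ∈ A.nonunits) : A.valuation (q : L) < 1 :=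
  (A.mem_nonunits_iff).mp hA

/-- An integer has valuation one iff it is prime to `q`. -/
theorem val_intCast_eq_one_iff {q : ℕ} (hq : q.Prime) (hA : (q : L) ∈ A.nonunits) {n : ℤ} :
    A.valuation (n : L) = 1 ↔ ¬ (q : ℤ) ∣ n := by
  constructor
  · intro h hd
    exact (val_intCast_lt_one A hA hd).ne h
  · exact val_intCast_eq_one A hq hA

/-- An integer has valuation `< 1` iff it is a multiple of `q`. -/
theorem val_intCast_lt_one_iff {q : ℕ} (hq : q.Prime) (hA : (q : L) ∈ A.nonunits) {n : ℤ} :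
    A.valuation (n : L) < 1 ↔ (q : ℤ) ∣ n := by
  constructor
  · intro h
    by_contra hd
    exact h.ne (val_intCast_eq_one A hq hA hd)
  · exact val_intCast_lt_one A hA

/-- Integers prime to `q` are nonzero in `L`. -/
theorem intCast_ne_zero_of_not_dvd {q : ℕ} (hq : q.Prime) (hA : (q : L) ∈ A.nonunits) {n : ℤ}
    (hn : ¬ (q : ℤ) ∣ n) : (n : L) ≠ 0 := by
  intro h
  have := val_intCast_eq_one A hq hA hn
  rw [h, map_zero] at this
  exact zero_ne_one this

section RatAlgebra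

variable [Algebra ℚ L]

/-- Casting an integer through `ℚ` does not change its valuation. -/
theorem val_algebraMap_intCast (n : ℤ) :
    A.valuation (algebraMap ℚ L (n : ℚ)) = A.valuation (n : L) := by
  rw [map_intCast]

/-- Casting a natural through `ℚ` does not change its valuation. -/
theorem val_algebraMap_natCast (n : ℕ) :
    A.valuation (algebraMap ℚ L (n : ℚ)) = A.valuation (n : L) := by
  rw [map_natCast]

theorem val_algebraMap_intCast_eq_one {q : ℕ} (hq : q.Prime) (hA : (q : L) ∈ A.nonunits)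
    {n : ℤ} (hn : ¬ (q : ℤ) ∣ n) : A.valuation (algebraMap ℚ L (n : ℚ)) = 1 := by
  rw [val_algebraMap_intCast, val_intCast_eq_one A hq hA hn]

theorem val_algebraMap_intCast_lt_one {q : ℕ} (hA : (q : L) ∈ A.nonunits)
    {n : ℤ} (hn : (q : ℤ) ∣ n) : A.valuation (algebraMap ℚ L (n : ℚ)) < 1 := by
  rw [val_algebraMap_intCast]
  exact val_intCast_lt_one A hA hn

theorem val_algebraMap_natCast_eq_one {q : ℕ} (hq : q.Prime) (hA : (q : L) ∈ A.nonunits)
    {n : ℕ} (hn : ¬ q ∣ n) : A.valuation (algebraMap ℚ L (n : ℚ)) = 1 := by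
  rw [val_algebraMap_natCast, val_natCast_eq_one A hq hA hn]

end RatAlgebra

end Valuation

end Fermat.Agent.S05.FreyArith
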