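import Mathlib.AlgebraicGeometry.EllipticCurve.Affine.Point

/-!
# S05 helper: the short model `y² = x³ + a₂x² + a₄x` and its x-only addition formulas
-/

set_option autoImplicit false

namespace Fermat.Agent.S05

open WeierstrassCurve WeierstrassCurve.Affine

variable {K : Type*} [Field K]

/-- The short model `y² = x³ + a₂ x² + a₄ x`. -/
def shortW (a₂ a₄ : K) : WeierstrassCurve K := ⟨0, a₂, 0, a₄, 0⟩

@[simp] lemma shortW_a₁ (a₂ a₄ : K) : (shortW a₂ a₄).a₁ = 0 := rfl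
@[simp] lemma shortW_a₂ (a₂ a₄ : K) : (shortW a₂ a₄).a₂ = a₂ := rfl
@[simp] lemma shortW_a₃ (a₂ a₄ : K) : (shortW a₂ a₄).a₃ = 0 := rfl
@[simp] lemma shortW_a₄ (a₂ a₄ : K) : (shortW a₂ a₄).a₄ = a₄ := rfl
@[simp] lemma shortW_a₆ (a₂ a₄ : K) : (shortW a₂ a₄).a₆ = 0 := rfl

lemma shortW_equation_iff (a₂ a₄ x y : K) :
    (shortW a₂ a₄).toAffine.Equation x y ↔ y ^ 2 = x ^ 3 + a₂ * x ^ 2 + a₄ * x := by
  rw [Affine.equation_iff]; simp

lemma shortW_negY (a₂ a₄ x y : K) : (shortW a₂ a₄).toAffine.negY x y = -y := by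
  simp [Affine.negY]

/-- x-coordinate of a point (junk value `0` at the point at infinity). -/
def xc {a₂ a₄ : K} : (shortW a₂ a₄).toAffine.Point → K
  | .zero => 0
  | .some x _ _ => x

/-- y-coordinate of a point (junk value `0` at the point at infinity). -/
def yc {a₂ a₄ : K} : (shortW a₂ a₄).toAffine.Point → K
  | .zero => 0
  | .some _ y _ => y

@[simp] lemma xc_some {a₂ a₄ x y : K} (h : (shortW a₂ a₄).toAffine.Nonsingular x y) :
    xc (Point.some x y h) = x := rfl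
@[simp] lemma yc_some {a₂ a₄ x y : K} (h : (shortW a₂ a₄).toAffine.Nonsingular x y) :
    yc (Point.some x y h) = y := rfl
@[simp] lemma xc_zero {a₂ a₄ : K} : xc (0 : (shortW a₂ a₄).toAffine.Point) = 0 := rfl
@[simp] lemma yc_zero {a₂ a₄ : K} : yc (0 : (shortW a₂ a₄).toAffine.Point) = 0 := rfl

lemma xc_neg {a₂ a₄ : K} (P : (shortW a₂ a₄).toAffine.Point) : xc (-P) = xc P := by
  cases P with
  | zero => rfl
  | some x y h => rfl

lemma yc_neg {a₂ a₄ : K} (P : (shortW a₂ a₄).toAffine.Point) : yc (-P) = -yc P := by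
  cases P with
  | zero => exact neg_zero.symm
  | some x y h =>
    rw [Point.neg_some]
    simp

lemma equation_xc_yc {a₂ a₄ : K} {P : (shortW a₂ a₄).toAffine.Point} (hP : P ≠ 0) :
    yc P ^ 2 = xc P ^ 3 + a₂ * xc P ^ 2 + a₄ * xc P := by
  cases P with
  | zero => exact absurd rfl hP
  | some x y h => exact (shortW_equation_iff a₂ a₄ x y).mp h.1

variable [DecidableEq K]

omit [DecidableEq K] in
lemma neg_some_shortW {a₂ a₄ x y : K} (h : (shortW a₂ a₄).toAffine.Nonsingular x y) :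
    ∃ h' : (shortW a₂ a₄).toAffine.Nonsingular x (-y), -Point.some x y h = Point.some x (-y) h' := by
  have h' := (nonsingular_neg (W' := (shortW a₂ a₄).toAffine) x y).mpr h
  rw [shortW_negY] at h'
  refine ⟨h', ?_⟩
  rw [Point.neg_some]; congr 1; exact shortW_negY ..

/-- x-only addition formulas, `x₁ ≠ x₂`. -/
theorem exists_add_sub {a₂ a₄ x₁ y₁ x₂ y₂ : K}
    (h₁ : (shortW a₂ a₄).toAffine.Nonsingular x₁ y₁)
    (h₂ : (shortW a₂ a₄).toAffine.Nonsingular x₂ y₂) (hx : x₁ ≠ x₂) :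
    ∃ (xp yp xm ym : K) (hp : (shortW a₂ a₄).toAffine.Nonsingular xp yp)
      (hm : (shortW a₂ a₄).toAffine.Nonsingular xm ym),
      Point.some x₁ y₁ h₁ + Point.some x₂ y₂ h₂ = Point.some xp yp hp ∧
      Point.some x₁ y₁ h₁ - Point.some x₂ y₂ h₂ = Point.some xm ym hm ∧
      (xp + xm) * (x₁ - x₂) ^ 2 = 2 * ((x₁ + x₂) * (x₁ * x₂ + a₄) + 2 * a₂ * x₁ * x₂) ∧
      xp * xm * (x₁ - x₂) ^ 2 = (x₁ * x₂ - a₄) ^ 2 := by
  have hd : x₁ - x₂ ≠ 0 := sub_ne_zero.mpr hx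
  have e₁ := (shortW_equation_iff a₂ a₄ x₁ y₁).mp h₁.1
  have e₂ := (shortW_equation_iff a₂ a₄ x₂ y₂).mp h₂.1
  obtain ⟨h₂', hneg⟩ := neg_some_shortW h₂
  have hadd := Point.add_of_X_ne (h₁ := h₁) (h₂ := h₂) hx
  have hsub : Point.some x₁ y₁ h₁ - Point.some x₂ y₂ h₂ =
      Point.some _ _ (nonsingular_add h₁ h₂' fun hxy => hx hxy.left) := by
    rw [sub_eq_add_neg, hneg]; exact Point.add_of_X_ne (h₁ := h₁) (h₂ := h₂') hx
  refine ⟨_, _, _, _, _, _, hadd, hsub, ?_, ?_⟩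
  · rw [slope_of_X_ne hx, slope_of_X_ne hx]
    simp only [addX, shortW_a₁, shortW_a₂]
    field_simp
    linear_combination (2 : K) * e₁ + 2 * e₂
  · rw [slope_of_X_ne hx, slope_of_X_ne hx]
    simp only [addX, shortW_a₁, shortW_a₂]
    field_simp
    linear_combination
      ((y₁ ^ 2 - y₂ ^ 2 + (x₁ ^ 3 + a₂ * x₁ ^ 2 + a₄ * x₁) - (x₂ ^ 3 + a₂ * x₂ ^ 2 + a₄ * x₂))
        - 2 * (a₂ + x₁ + x₂) * (x₁ - x₂) ^ 2) * e₁
      + (-(y₁ ^ 2 - y₂ ^ 2 + (x₁ ^ 3 + a₂ * x₁ ^ 2 + a₄ * x₁) - (x₂ ^ 3 + a₂ * x₂ ^ 2 + a₄ * x₂))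
        - 2 * (a₂ + x₁ + x₂) * (x₁ - x₂) ^ 2) * e₂

/-- x-only duplication formula. -/
theorem exists_dbl {a₂ a₄ x y : K} (h2 : (2 : K) ≠ 0)
    (h : (shortW a₂ a₄).toAffine.Nonsingular x y) (hy : y ≠ 0) :
    ∃ (x' y' : K) (h' : (shortW a₂ a₄).toAffine.Nonsingular x' y'),
      Point.some x y h + Point.some x y h = Point.some x' y' h' ∧
      x' * (4 * y ^ 2) = (x ^ 2 - a₄) ^ 2 := by
  have e := (shortW_equation_iff a₂ a₄ x y).mp h.1
  have hne : y ≠ (shortW a₂ a₄).toAffine.negY x y := by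
    rw [shortW_negY]
    intro hyy
    apply hy
    have : (2 : K) * y = 0 := by linear_combination hyy
    rcases mul_eq_zero.mp this with h | h
    · exact absurd h h2
    · exact h
  refine ⟨_, _, _, Point.add_self_of_Y_ne hne, ?_⟩
  rw [slope_of_Y_ne rfl hne, shortW_negY]
  simp only [addX, shortW_a₁, shortW_a₂, shortW_a₄]
  have h2y : y - -y = 2 * y := by ring
  rw [h2y]
  field_simp
  linear_combination (-(16 : K) * (2 * x + a₂)) * e

/-- point-level version of `exists_add_sub`. -/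
theorem xc_add_sub {a₂ a₄ : K} {P Q : (shortW a₂ a₄).toAffine.Point} (hP : P ≠ 0) (hQ : Q ≠ 0)
    (hx : xc P ≠ xc Q) :
    P + Q ≠ 0 ∧ P - Q ≠ 0 ∧
      (xc (P + Q) + xc (P - Q)) * (xc P - xc Q) ^ 2 =
        2 * ((xc P + xc Q) * (xc P * xc Q + a₄) + 2 * a₂ * xc P * xc Q) ∧
      xc (P + Q) * xc (P - Q) * (xc P - xc Q) ^ 2 = (xc P * xc Q - a₄) ^ 2 := by
  cases P with
  | zero => exact absurd rfl hP
  | some x₁ y₁ h₁ =>
    cases Q with
    | zero => exact absurd rfl hQ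
    | some x₂ y₂ h₂ =>
      obtain ⟨xp, yp, xm, ym, hp, hm, e1, e2, e3, e4⟩ := exists_add_sub h₁ h₂ hx
      rw [e1, e2]
      exact ⟨Point.some_ne_zero _, Point.some_ne_zero _, e3, e4⟩

/-- point-level version of `exists_dbl`. -/
theorem xc_add_self {a₂ a₄ : K} (h2 : (2 : K) ≠ 0) {P : (shortW a₂ a₄).toAffine.Point}
    (hP : P ≠ 0) (hy : yc P ≠ 0) :
    P + P ≠ 0 ∧ xc (P + P) * (4 * yc P ^ 2) = (xc P ^ 2 - a₄) ^ 2 := by
  cases P with
  | zero => exact absurd rfl hP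
  | some x y h =>
    obtain ⟨x', y', h', e1, e2⟩ := exists_dbl h2 h hy
    rw [e1]
    exact ⟨Point.some_ne_zero _, e2⟩

end Fermat.Agent.S05
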