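import Mathlib.RingTheory.Valuation.Basic
import Fermat.Agent.S05.XOnly

/-!
# S05 helper: two integral points congruent modulo the maximal ideal, with nonsingular reduction,
differ by a point with non-integral x-coordinate (or by zero).
-/

set_option autoImplicit false

namespace Fermat.Agent.S05.ClosePoints

open WeierstrassCurve WeierstrassCurve.Affine Fermat.Agent.S05

variable {K : Type*} [Field K] [DecidableEq K] {Γ₀ : Type*} [LinearOrderedCommGroupWithZero Γ₀]
  (v : Valuation K Γ₀)

omit [DecidableEq K] in
lemma one_lt_sq_sub {l c : K} (hl : 1 < v l) (hc : v c ≤ 1) : 1 < v (l ^ 2 - c) := by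
  have h1 : 1 < v (l ^ 2) := by
    rw [map_pow]
    exact one_lt_pow₀ hl two_ne_zero
  have h2 : v c < v (l ^ 2) := lt_of_le_of_lt hc h1
  rw [Valuation.map_sub_eq_of_lt_left v h2]
  exact h1

omit [DecidableEq K] in
lemma one_lt_div {n d : K} (hn : v n = 1) (hd : v d < 1) (hd0 : d ≠ 0) : 1 < v (n / d) := by
  rw [map_div₀, hn, one_div]
  have hpos : 0 < v d := (Valuation.pos_iff v).mpr hd0
  exact (one_lt_inv₀ hpos).mpr hd

set_option linter.unusedVariables false in
theorem main {a₂ a₄ : K} (h2 : v (2 : K) = 1) (ha₂ : v a₂ ≤ 1) (ha₄ : v a₄ ≤ 1)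
    {P P' : (shortW a₂ a₄).toAffine.Point} (hP : P ≠ 0) (hP' : P' ≠ 0)
    (hx : v (xc P) ≤ 1) (hy : v (yc P) ≤ 1)
    (hx' : v (xc P' - xc P) < 1) (hy' : v (yc P' - yc P) < 1)
    (hns : v (yc P) = 1 ∨ v (3 * xc P ^ 2 + 2 * a₂ * xc P + a₄) = 1) :
    P' - P = 0 ∨ 1 < v (xc (P' - P)) := by
  cases P with
  | zero => exact absurd rfl hP
  | some x y h =>
  cases P' with
  | zero => exact absurd rfl hP'
  | some x' y' h' =>
  simp only [xc_some, yc_some] at hx hy hx' hy' hns
  have e := (shortW_equation_iff a₂ a₄ x y).mp h.1
  have e' := (shortW_equation_iff a₂ a₄ x' y').mp h'.1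
  obtain ⟨hneg, hnegeq⟩ := neg_some_shortW h
  have hvx' : v x' ≤ 1 := by
    have : x' = (x' - x) + x := by ring
    rw [this]
    exact Valuation.map_add_le v hx'.le hx
  have h2ne : (2 : K) ≠ 0 := by
    intro h0
    rw [h0, map_zero] at h2
    exact zero_ne_one h2
  by_cases hxx : x' = x
  · -- same x-coordinate
    subst hxx
    by_cases hyz : y' = y
    · left
      subst hyz
      exact sub_self _
    · right
      have hyy : (y' - y) * (y' + y) = 0 := by linear_combination e' - e
      have hy'eq : y = -y' := by
        rcases mul_eq_zero.mp hyy with hyy | hyy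
        · exact absurd (sub_eq_zero.mp hyy) hyz
        · linear_combination hyy
      -- v y < 1
      have hvy : v y' < 1 := by
        have : y' - y = 2 * y' := by rw [hy'eq]; ring
        rw [this, map_mul, h2, one_mul] at hy'
        exact hy'
      have hvy0 : v y < 1 := by rw [hy'eq, Valuation.map_neg]; exact hvy
      have hf' : v (3 * x' ^ 2 + 2 * a₂ * x' + a₄) = 1 := by
        rcases hns with hns | hns
        · exact absurd hns hvy0.ne
        · exact hns
      have hy'0 : y' ≠ 0 := by
        intro h0
        apply hyz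
        rw [hy'eq, h0, neg_zero]
      have hne : y' ≠ (shortW a₂ a₄).toAffine.negY x' y' := by
        rw [shortW_negY, ← hy'eq]
        exact hyz
      have hPP : Point.some x' y' h' - Point.some x' y h = Point.some x' y' h' + Point.some x' y' h' := by
        rw [sub_eq_add_neg, hnegeq]
        congr 2
        exact hy'eq.symm ▸ (neg_neg y')
      rw [hPP, Point.add_self_of_Y_ne hne]
      simp only [xc_some]
      rw [slope_of_Y_ne rfl hne, shortW_negY]
      simp only [addX, shortW_a₁, shortW_a₂, shortW_a₄]
      have h2y : y' - -y' = 2 * y' := by ring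
      rw [h2y]
      have hl : 1 < v ((3 * x' ^ 2 + 2 * a₂ * x' + a₄ - 0 * y') / (2 * y')) := by
        apply one_lt_div v
        · rw [zero_mul, sub_zero]; exact hf'
        · rw [map_mul, h2, one_mul]; exact hvy
        · exact mul_ne_zero h2ne hy'0
      set l := (3 * x' ^ 2 + 2 * a₂ * x' + a₄ - 0 * y') / (2 * y') with hl_def
      have : l ^ 2 + 0 * l - a₂ - x' - x' = l ^ 2 - (a₂ + x' + x') := by ring
      rw [this]
      apply one_lt_sq_sub v hl
      exact Valuation.map_add_le v (Valuation.map_add_le v ha₂ hvx') hvx'
  · right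
    have hxx' : x' - x ≠ 0 := sub_ne_zero.mpr hxx
    have hsub : Point.some x' y' h' - Point.some x y h =
        Point.some _ _ (nonsingular_add h' hneg fun hxy => hxx hxy.left) := by
      rw [sub_eq_add_neg, hnegeq]; exact Point.add_of_X_ne (h₁ := h') (h₂ := hneg) hxx
    rw [hsub]
    simp only [xc_some]
    rw [slope_of_X_ne hxx]
    simp only [addX, shortW_a₁, shortW_a₂]
    have hl : 1 < v ((y' - -y) / (x' - x)) := by
      by_cases hvy : v y = 1
      · apply one_lt_div v _ hx' hxx'
        have : y' - -y = 2 * y + (y' - y) := by ring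
        rw [this]
        have h2y : v (2 * y) = 1 := by rw [map_mul, h2, one_mul, hvy]
        rw [Valuation.map_add_eq_of_lt_left v (by rw [h2y]; exact hy'), h2y]
      · have hf' : v (3 * x ^ 2 + 2 * a₂ * x + a₄) = 1 := by
          rcases hns with hns | hns
          · exact absurd hns hvy
          · exact hns
        -- h = x'^2 + x' x + x^2 + a₂ (x' + x) + a₄
        set hh := x' ^ 2 + x' * x + x ^ 2 + a₂ * (x' + x) + a₄ with hh_def
        have hprod : (y' + y) * (y' - y) = (x' - x) * hh := by
          rw [hh_def]; linear_combination e' - e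
        have hhv : v hh = 1 := by
          have hdiff : hh = (3 * x ^ 2 + 2 * a₂ * x + a₄) + (x' - x) * (x' + 2 * x + a₂) := by
            rw [hh_def]; ring
          rw [hdiff]
          have hsmall : v ((x' - x) * (x' + 2 * x + a₂)) < 1 := by
            rw [map_mul]
            have hle : v (x' + 2 * x + a₂) ≤ 1 := by
              apply Valuation.map_add_le v _ ha₂
              apply Valuation.map_add_le v hvx'
              rw [map_mul, h2, one_mul]; exact hx
            calc v (x' - x) * v (x' + 2 * x + a₂) ≤ v (x' - x) * 1 :=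
                  mul_le_mul_of_nonneg_left hle zero_le
              _ = v (x' - x) := mul_one _
              _ < 1 := hx'
          rw [Valuation.map_add_eq_of_lt_left v (by rw [hf']; exact hsmall), hf']
        have hh0 : hh ≠ 0 := by
          intro h0
          rw [h0, map_zero] at hhv
          exact zero_ne_one hhv
        have hyy' : y' - y ≠ 0 := by
          intro h0
          rw [h0, mul_zero] at hprod
          exact (mul_ne_zero hxx' hh0) hprod.symm
        have hleq : (y' - -y) / (x' - x) = hh / (y' - y) := by
          rw [div_eq_div_iff hxx' hyy']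
          linear_combination hprod
        rw [hleq]
        exact one_lt_div v hhv hy' hyy'
    set l := (y' - -y) / (x' - x) with hl_def
    have : l ^ 2 + 0 * l - a₂ - x' - x = l ^ 2 - (a₂ + x' + x) := by ring
    rw [this]
    apply one_lt_sq_sub v hl
    exact Valuation.map_add_le v (Valuation.map_add_le v ha₂ hvx') hx

end Fermat.Agent.S05.ClosePoints
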