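import Mathlib

/-!
# S05: abstract ordered-group bookkeeping for the folding law

An abstract additive group `G`, a function `V : G → Γ₀` into a linearly ordered commutative group
with zero satisfying the "folding law"; conclusion: `m < V T` and `V T ^ p ∈ m ^ (2ℤ)`.
-/

set_option autoImplicit false

namespace Fermat.Agent.S05.CruxAbstract

variable {Γ₀ : Type*} [LinearOrderedCommGroupWithZero Γ₀]

/-- `g ~ g'` iff `g = g'^{±1} * m^(2k)` for some integer `k`. -/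
def Rel (m g g' : Γ₀) : Prop := ∃ k : ℤ, g = g' * m ^ (2 * k) ∨ g = g'⁻¹ * m ^ (2 * k)

variable {m : Γ₀}

theorem Rel.refl (g : Γ₀) : Rel m g g := ⟨0, Or.inl (by simp)⟩

theorem Rel.of_eq {g g' : Γ₀} (h : g = g') : Rel m g g' := h ▸ Rel.refl _

theorem Rel.symm (hm : m ≠ 0) {g g' : Γ₀} (h : Rel m g g') : Rel m g' g := by
  have hM : ∀ k : ℤ, m ^ (2 * k) ≠ 0 := fun k => zpow_ne_zero _ hm
  obtain ⟨k, h | h⟩ := h
  · refine ⟨-k, Or.inl ?_⟩
    subst h
    rw [mul_neg, zpow_neg, mul_assoc, mul_inv_cancel₀ (hM k), mul_one]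
  · refine ⟨k, Or.inr ?_⟩
    subst h
    rw [mul_inv, inv_inv, mul_assoc, inv_mul_cancel₀ (hM k), mul_one]

theorem Rel.trans (hm : m ≠ 0) {g g' g'' : Γ₀} (h : Rel m g g') (h' : Rel m g' g'') :
    Rel m g g'' := by
  have hM : ∀ k : ℤ, m ^ (2 * k) ≠ 0 := fun k => zpow_ne_zero _ hm
  obtain ⟨k, h | h⟩ := h <;> obtain ⟨l, h' | h'⟩ := h' <;> subst h <;> subst h'
  · exact ⟨l + k, Or.inl (by rw [mul_add, zpow_add₀ hm, mul_assoc])⟩
  · exact ⟨l + k, Or.inr (by rw [mul_add, zpow_add₀ hm, mul_assoc])⟩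
  · refine ⟨k - l, Or.inr ?_⟩
    rw [mul_sub, sub_eq_add_neg, zpow_add₀ hm, zpow_neg, mul_inv]
    ac_rfl
  · refine ⟨k - l, Or.inl ?_⟩
    rw [mul_sub, sub_eq_add_neg, zpow_add₀ hm, zpow_neg, mul_inv, inv_inv]
    ac_rfl

/-- `m² / s ~ s`. -/
theorem rel_sq_div (s : Γ₀) : Rel m (m ^ 2 / s) s :=
  ⟨1, Or.inr (by rw [mul_one, zpow_two, pow_two, div_eq_mul_inv, mul_comm])⟩

theorem rel_max (s : Γ₀) : Rel m (max s (m ^ 2 / s)) s := by
  rcases max_choice s (m ^ 2 / s) with h | h <;> rw [h]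
  · exact Rel.refl _
  · exact rel_sq_div s

theorem rel_inv (g : Γ₀) : Rel m g⁻¹ g := ⟨0, Or.inr (by simp)⟩

theorem rel_min (a b : Γ₀) : Rel m (min (a / b) (b / a)) (a / b) := by
  rcases min_choice (a / b) (b / a) with h | h <;> rw [h]
  · exact Rel.refl _
  · rw [← inv_div]
    exact rel_inv _

theorem rel_mul_div {g g' : Γ₀} (u : Γ₀) (h : Rel m g g') :
    (Rel m (g * u) (g' * u) ∧ Rel m (g / u) (g' / u)) ∨
      (Rel m (g * u) (g' / u) ∧ Rel m (g / u) (g' * u)) := by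
  obtain ⟨k, h | h⟩ := h <;> subst h
  · left
    exact ⟨⟨k, Or.inl (by ac_rfl)⟩, ⟨k, Or.inl (by rw [div_eq_mul_inv, div_eq_mul_inv]; ac_rfl)⟩⟩
  · right
    refine ⟨⟨k, Or.inr ?_⟩, ⟨k, Or.inr ?_⟩⟩
    · rw [inv_div, div_eq_mul_inv]; ac_rfl
    · rw [mul_inv, div_eq_mul_inv, mul_right_comm]

/-- `m ^ (2k)` is never in `[m, 1)`. -/
theorem zpow_two_mul_not_mem (hm0 : m ≠ 0) (hm1 : m < 1) (k : ℤ) (h1 : m ≤ m ^ (2 * k))
    (h2 : m ^ (2 * k) < 1) : False := by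
  have hm_pos : 0 < m := zero_lt_iff.mpr hm0
  have hanti := zpow_right_strictAnti₀ hm_pos hm1
  rcases le_or_gt (2 * k) 0 with hk | hk
  · have : m ^ (0 : ℤ) ≤ m ^ (2 * k) := hanti.antitone hk
    rw [zpow_zero] at this
    exact absurd h2 (not_lt.mpr this)
  · have hk' : (1 : ℤ) < 2 * k := by omega
    have : m ^ (2 * k) < m ^ (1 : ℤ) := hanti hk'
    rw [zpow_one] at this
    exact absurd h1 (not_le.mpr this)

theorem main {G : Type*} [AddCommGroup G] {Γ₀ : Type*} [LinearOrderedCommGroupWithZero Γ₀]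
    (V : G → Γ₀) (m : Γ₀) (hm0 : m ≠ 0) (hm1 : m < 1)
    (hVrange : ∀ P, m ≤ V P ∧ V P ≤ 1) (hVneg : ∀ P, V (-P) = V P)
    {p : ℕ} (hp : p.Prime) (hp2 : p ≠ 2) {T : G} (hT : T ≠ 0) (hpT : p • T = 0) (hVT : V T < 1)
    (hdbl : V (2 • T) = max (V T ^ 2) (m ^ 2 / V T ^ 2))
    (hlaw : ∀ j : ℕ, 2 ≤ j → j + 2 ≤ p →
      (V ((j + 1) • T) = max (V (j • T) * V T) (m ^ 2 / (V (j • T) * V T)) ∧
        V ((j - 1) • T) = min (V (j • T) / V T) (V T / V (j • T))) ∨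
      (V ((j + 1) • T) = min (V (j • T) / V T) (V T / V (j • T)) ∧
        V ((j - 1) • T) = max (V (j • T) * V T) (m ^ 2 / (V (j • T) * V T)))) :
    m < V T ∧ ∃ k : ℤ, V T ^ p = m ^ (2 * k) := by
  have _hT := hT
  have hm_pos : 0 < m := zero_lt_iff.mpr hm0
  have ht0 : V T ≠ 0 := (lt_of_lt_of_le hm_pos (hVrange T).1).ne'
  -- key induction: `V (i • T) ~ (V T) ^ i` for `1 ≤ i ≤ p - 1`
  have key : ∀ j : ℕ, j + 3 ≤ p →
      Rel m (V ((j + 1) • T)) (V T ^ (j + 1)) ∧ Rel m (V ((j + 2) • T)) (V T ^ (j + 2)) := by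
    intro j
    induction j with
    | zero =>
      intro _
      refine ⟨Rel.of_eq (by simp), ?_⟩
      rw [zero_add, hdbl]
      exact rel_max _
    | succ j ih =>
      intro hj
      obtain ⟨_, C2⟩ := ih (by omega)
      obtain ⟨C1, _⟩ := ih (by omega)
      refine ⟨C2, ?_⟩
      have hl := hlaw (j + 2) (by omega) (by omega)
      have e : j + 2 - 1 = j + 1 := by omega
      rw [e] at hl
      have e1 : V T ^ (j + 2) * V T = V T ^ (j + 3) := (pow_succ (V T) (j + 2)).symm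
      have e2 : V T ^ (j + 2) / V T = V T ^ (j + 1) := by
        rw [pow_succ (V T) (j + 1), mul_div_assoc, div_self ht0, mul_one]
      have RelX := rel_max (m := m) (V ((j + 2) • T) * V T)
      have RelY := rel_min (m := m) (V ((j + 2) • T)) (V T)
      show Rel m (V ((j + 2 + 1) • T)) (V T ^ (j + 3))
      rcases rel_mul_div (V T) C2 with ⟨hX, hY⟩ | ⟨hX, hY⟩
      · rw [e1] at hX
        rw [e2] at hY
        rcases hl with ⟨h1, _⟩ | ⟨h1, h2⟩
        · rw [h1]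
          exact RelX.trans hm0 hX
        · -- V(j+3) = Y ~ t^(j+1) ~ V(j+1) = X ~ t^(j+3)
          rw [h1]
          have hYr : Rel m (min (V ((j + 2) • T) / V T) (V T / V ((j + 2) • T)))
              (V T ^ (j + 1)) := RelY.trans hm0 hY
          have hXr : Rel m (V ((j + 1) • T)) (V T ^ (j + 3)) := by
            rw [h2]; exact RelX.trans hm0 hX
          exact (hYr.trans hm0 (C1.symm hm0)).trans hm0 hXr
      · rw [e2] at hX
        rw [e1] at hY
        rcases hl with ⟨h1, h2⟩ | ⟨h1, _⟩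
        · -- V(j+3) = X ~ t^(j+1) ~ V(j+1) = Y ~ t^(j+3)
          rw [h1]
          have hXr : Rel m (max (V ((j + 2) • T) * V T) (m ^ 2 / (V ((j + 2) • T) * V T)))
              (V T ^ (j + 1)) := RelX.trans hm0 hX
          have hYr : Rel m (V ((j + 1) • T)) (V T ^ (j + 3)) := by
            rw [h2]; exact RelY.trans hm0 hY
          exact (hXr.trans hm0 (C1.symm hm0)).trans hm0 hYr
        · rw [h1]
          exact RelY.trans hm0 hY
  -- write `p = 2 b + 3`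
  obtain ⟨a, ha⟩ : ∃ a, p = 2 * a + 1 := by
    rcases hp.eq_two_or_odd' with h | h
    · exact absurd h hp2
    · exact h
  have ha1 : 1 ≤ a := by
    have := hp.two_le
    omega
  obtain ⟨b, rfl⟩ : ∃ b, a = b + 1 := ⟨a - 1, by omega⟩
  subst ha
  obtain ⟨Cb1, Cb2⟩ := key b (by omega)
  have hsum : (b + 2) • T = -((b + 1) • T) := by
    apply eq_neg_of_add_eq_zero_left
    rw [← add_smul]
    have : b + 2 + (b + 1) = 2 * (b + 1) + 1 := by ring
    rw [this]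
    exact hpT
  have hVeq : V ((b + 2) • T) = V ((b + 1) • T) := by rw [hsum, hVneg]
  rw [hVeq] at Cb2
  have hrel : Rel m (V T ^ (b + 2)) (V T ^ (b + 1)) := (Cb2.symm hm0).trans hm0 Cb1
  have hpow0 : V T ^ (b + 1) ≠ 0 := pow_ne_zero _ ht0
  have hex : ∃ k : ℤ, V T ^ (2 * (b + 1) + 1) = m ^ (2 * k) := by
    obtain ⟨k, h | h⟩ := hrel
    · exfalso
      rw [pow_succ (V T) (b + 1)] at h
      have ht : V T = m ^ (2 * k) := mul_left_cancel₀ hpow0 h
      exact zpow_two_mul_not_mem hm0 hm1 k (ht ▸ (hVrange T).1) (ht ▸ hVT)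
    · refine ⟨k, ?_⟩
      have h3 : V T ^ (2 * (b + 1) + 1) = V T ^ (b + 2) * V T ^ (b + 1) := by
        rw [← pow_add]
        congr 1
        ring
      rw [h3, h, mul_right_comm, inv_mul_cancel₀ hpow0, one_mul]
  refine ⟨lt_of_le_of_ne (hVrange T).1 ?_, hex⟩
  intro hmt
  obtain ⟨k, hk⟩ := hex
  rw [← hmt, ← zpow_natCast] at hk
  have hinj := zpow_right_injective₀ hm_pos hm1.ne
  have hk' : ((2 * (b + 1) + 1 : ℕ) : ℤ) = 2 * k := hinj hk
  push_cast at hk'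
  omega

end Fermat.Agent.S05.CruxAbstract
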