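import Fermat.Agent.S05.VLaw
import Fermat.Agent.S05.CruxAbstract

/-!
# S05 helper: a `p`-torsion point reducing to the node has `ord x(T)` in `(2 ord α / p) ℤ`
-/

set_option autoImplicit false

namespace Fermat.Agent.S05.CruxPoint

open WeierstrassCurve WeierstrassCurve.Affine Fermat.Agent.S05.VLaw Fermat.Agent.S05.VLawRaw

variable {K : Type*} [Field K] [DecidableEq K]
  {Γ₀ : Type*} [LinearOrderedCommGroupWithZero Γ₀] (v : Valuation K Γ₀)

omit [DecidableEq K] in
/-- points with the same x-coordinate are equal or opposite. -/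
lemma eq_or_eq_neg_of_xc_eq {a₂ a₄ : K} {P Q : (shortW a₂ a₄).toAffine.Point} (hP : P ≠ 0)
    (hQ : Q ≠ 0) (h : xc P = xc Q) : P = Q ∨ P = -Q := by
  cases P with
  | zero => exact absurd rfl hP
  | some x₁ y₁ h₁ =>
    cases Q with
    | zero => exact absurd rfl hQ
    | some x₂ y₂ h₂ =>
      simp only [xc_some] at h
      exact Point.X_eq_iff.mp h

/-- a point with vanishing y-coordinate is 2-torsion. -/
lemma add_self_eq_zero_of_yc_eq_zero {a₂ a₄ : K} {P : (shortW a₂ a₄).toAffine.Point}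
    (h : yc P = 0) : P + P = 0 := by
  cases P with
  | zero => rfl
  | some x y hxy =>
    simp only [yc_some] at h
    subst h
    apply Point.add_of_Y_eq rfl
    rw [shortW_negY, neg_zero]

omit [DecidableEq K] in
lemma yc_eq_zero_of_xc_eq_zero {a₂ a₄ : K} {P : (shortW a₂ a₄).toAffine.Point} (hP : P ≠ 0)
    (h : xc P = 0) : yc P = 0 := by
  have := equation_xc_yc hP
  rw [h] at this
  have h0 : yc P ^ 2 = 0 := by rw [this]; ring
  exact pow_eq_zero_iff (two_ne_zero) |>.mp h0

/-- group theory: multiples of a point of odd prime order. -/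
lemma nsmul_facts {G : Type*} [AddCommGroup G] {p : ℕ} (hp : p.Prime) (hp2 : p ≠ 2) {T : G}
    (hT : T ≠ 0) (hpT : p • T = 0) {j : ℕ} (hj1 : 1 ≤ j) (hjp : j < p) :
    j • T ≠ 0 ∧ (j • T) + (j • T) ≠ 0 ∧ (2 ≤ j → j + 2 ≤ p → j • T ≠ T ∧ j • T ≠ -T) := by
  have hord : addOrderOf T = p := by
    have : Fact p.Prime := ⟨hp⟩
    exact addOrderOf_eq_prime hpT hT
  have key : ∀ n : ℕ, n • T = 0 ↔ p ∣ n := fun n => by
    rw [← hord]; exact (addOrderOf_dvd_iff_nsmul_eq_zero).symm
  have hodd : Odd p := hp.odd_of_ne_two hp2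
  refine ⟨?_, ?_, ?_⟩
  · rw [Ne, key]
    intro hd
    exact absurd (Nat.le_of_dvd (by omega) hd) (by omega)
  · rw [← two_nsmul, ← mul_nsmul', Ne, key]
    intro hd
    have : p ∣ j := by
      rcases (Nat.Prime.dvd_mul hp).mp hd with h | h
      · have := Nat.le_of_dvd (by norm_num) h
        have := hp.two_le
        omega
      · exact h
    exact absurd (Nat.le_of_dvd (by omega) this) (by omega)
  · intro h2j hj2
    constructor
    · intro h
      have : (j - 1) • T = 0 := by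
        have hj : j = (j - 1) + 1 := by omega
        rw [hj, succ_nsmul] at h
        simpa using h
      rw [key] at this
      exact absurd (Nat.le_of_dvd (by omega) this) (by omega)
    · intro h
      have : (j + 1) • T = 0 := by
        rw [succ_nsmul, h]; simp
      rw [key] at this
      exact absurd (Nat.le_of_dvd (by omega) this) (by omega)

theorem main {α β : K} (hα0 : α ≠ 0) (hα : v α < 1) (hβ : v β = 1) (h2 : v (2 : K) = 1)
    {p : ℕ} (hp : p.Prime) (hp2 : p ≠ 2)
    {T : (shortW (β - α) (-(α * β))).toAffine.Point} (hT : T ≠ 0) (hpT : p • T = 0)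
    (hT1 : v (xc T) < 1) :
    v α < v (xc T) ∧ ∃ k : ℤ, v (xc T) ^ p = v α ^ (2 * k) := by
  have hvα0 : v α ≠ 0 := (Valuation.ne_zero_iff v).mpr hα0
  have hp1 : 1 < p := hp.one_lt
  -- T is not 2-torsion
  have f1 := nsmul_facts hp hp2 hT hpT (j := 1) le_rfl hp1
  rw [one_nsmul] at f1
  have hyT : yc T ≠ 0 := fun h => f1.2.1 (add_self_eq_zero_of_yc_eq_zero h)
  have hxT : xc T ≠ 0 := fun h => hyT (yc_eq_zero_of_xc_eq_zero hT h)
  have hVT : Vc v α T = max (v α) (v (xc T)) := by
    rw [Vc_of_ne_zero v α hT, clamp_of_lt_one hT1.le]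
  have hVT1 : Vc v α T < 1 := by
    rw [hVT]; exact max_lt hα hT1
  have hdbl : Vc v α (2 • T) = max (Vc v α T ^ 2) (v α ^ 2 / Vc v α T ^ 2) := by
    rw [two_nsmul]
    exact add_self v hα0 hα hβ h2 hT hxT hyT hT1
  have hlaw : ∀ j : ℕ, 2 ≤ j → j + 2 ≤ p →
      (Vc v α ((j + 1) • T) = max (Vc v α (j • T) * Vc v α T)
          (v α ^ 2 / (Vc v α (j • T) * Vc v α T)) ∧
        Vc v α ((j - 1) • T) = min (Vc v α (j • T) / Vc v α T) (Vc v α T / Vc v α (j • T))) ∨
      (Vc v α ((j + 1) • T) = min (Vc v α (j • T) / Vc v α T) (Vc v α T / Vc v α (j • T)) ∧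
        Vc v α ((j - 1) • T) = max (Vc v α (j • T) * Vc v α T)
          (v α ^ 2 / (Vc v α (j • T) * Vc v α T))) := by
    intro j hj2 hjp
    obtain ⟨hjT, hjT2, hjne⟩ := nsmul_facts hp hp2 hT hpT (j := j) (by omega) (by omega)
    obtain ⟨hne1, hne2⟩ := hjne hj2 hjp
    have hyj : yc (j • T) ≠ 0 := fun h => hjT2 (add_self_eq_zero_of_yc_eq_zero h)
    have hxj : xc (j • T) ≠ 0 := fun h => hyj (yc_eq_zero_of_xc_eq_zero hjT h)
    have hxne : xc (j • T) ≠ xc T := by
      intro h
      rcases eq_or_eq_neg_of_xc_eq hjT hT h with h | h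
      · exact hne1 h
      · exact hne2 h
    have e1 : (j + 1) • T = j • T + T := succ_nsmul T j
    have e2 : (j - 1) • T = j • T - T := by
      have hj : j = (j - 1) + 1 := by omega
      conv_rhs => rw [hj, succ_nsmul]
      simp
    rw [e1, e2]
    exact add_sub v hα0 hα hβ h2 hjT hT hxj hxT hxne hT1
  obtain ⟨hm, k, hk⟩ := CruxAbstract.main (Vc v α) (v α) hvα0 hα (fun P => Vc_range v hα.le P)
    (fun P => Vc_neg v α P) hp hp2 hT hpT hVT1 hdbl hlaw
  rw [hVT] at hm hk
  have hlt : v α < v (xc T) := by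
    rcases le_or_gt (v (xc T)) (v α) with h | h
    · rw [max_eq_left h] at hm
      exact absurd hm (lt_irrefl _)
    · exact h
  rw [max_eq_right hlt.le] at hk
  exact ⟨hlt, k, hk⟩

end Fermat.Agent.S05.CruxPoint
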