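import Mathlib.RingTheory.Valuation.Basic
import Fermat.Agent.S05.XOnly

/-!
# S05 helper: two points with "multiplicatively close" coordinates on a nodal short model
-/

set_option autoImplicit false

namespace Fermat.Agent.S05.NodeFinal

open WeierstrassCurve WeierstrassCurve.Affine Fermat.Agent.S05

variable {K : Type*} [Field K] [DecidableEq K] {Γ₀ : Type*} [LinearOrderedCommGroupWithZero Γ₀]
  (v : Valuation K Γ₀)

theorem main {a₂ a₄ : K} (h2 : v (2 : K) = 1) (ha₂ : v a₂ ≤ 1)
    {P P' : (shortW a₂ a₄).toAffine.Point} (hP : P ≠ 0) (hP' : P' ≠ 0)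
    (hx0 : xc P ≠ 0) (hy0 : yc P ≠ 0) (hxy : v (yc P) = v (xc P)) (hx1 : v (xc P) ≤ 1)
    {ε ε' : K} (hε : v ε < 1) (hε' : v ε' < 1)
    (hx' : xc P' = xc P * (1 + ε)) (hy' : yc P' = yc P * (1 + ε')) :
    P' - P = 0 ∨ 1 < v (xc (P' - P)) := by
  cases P with
  | zero => exact absurd rfl hP
  | some x y h =>
  cases P' with
  | zero => exact absurd rfl hP'
  | some x' y' h' =>
  simp only [xc_some, yc_some] at hx0 hy0 hxy hx1 hx' hy'
  have h2ε' : v (2 + ε') = 1 := by
    rw [← h2]
    exact Valuation.map_add_eq_of_lt_left v (by rw [h2]; exact hε')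
  by_cases hxx : x' = x
  · left
    have e := (shortW_equation_iff a₂ a₄ x y).mp h.1
    have e' := (shortW_equation_iff a₂ a₄ x' y').mp h'.1
    rw [hxx] at e'
    have hsq : (y' - y) * (y' + y) = 0 := by linear_combination e' - e
    rcases mul_eq_zero.mp hsq with hyy | hyy
    · have hyy' : y' = y := sub_eq_zero.mp hyy
      subst hxx
      subst hyy'
      exact sub_self _
    · exfalso
      have h3 : y * (2 + ε') = 0 := by
        rw [hy'] at hyy
        linear_combination hyy
      rcases mul_eq_zero.mp h3 with h4 | h4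
      · exact hy0 h4
      · rw [h4, map_zero] at h2ε'
        exact zero_ne_one h2ε'
  · right
    obtain ⟨h'', hneg⟩ := neg_some_shortW h
    rw [sub_eq_add_neg, hneg, Point.add_of_X_ne (h₁ := h') (h₂ := h'') hxx, xc_some,
      slope_of_X_ne hxx]
    simp only [addX, shortW_a₁, shortW_a₂]
    have hεne : ε ≠ 0 := by
      rintro rfl
      apply hxx
      rw [hx']
      ring
    have hvε0 : v ε ≠ 0 := (Valuation.ne_zero_iff v).mpr hεne
    have hvx0 : v x ≠ 0 := (Valuation.ne_zero_iff v).mpr hx0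
    have h1ε : v (1 + ε) = 1 := Valuation.map_one_add_of_lt v hε
    have hvx' : v x' ≤ 1 := by
      rw [hx', map_mul, h1ε, mul_one]
      exact hx1
    set ℓ := (y' - -y) / (x' - x) with hℓ
    have hℓeq : ℓ = y * (2 + ε') / (x * ε) := by
      rw [hℓ, hx', hy']
      congr 1 <;> ring
    have hvℓ : v ℓ = (v ε)⁻¹ := by
      rw [hℓeq, map_div₀, map_mul, map_mul, h2ε', mul_one, hxy, div_mul_cancel_left₀ hvx0]
    have hℓ1 : 1 < v ℓ := by
      rw [hvℓ]
      exact (one_lt_inv₀ (zero_lt_iff.mpr hvε0)).mpr hε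
    have hℓ2 : 1 < v (ℓ ^ 2) := by
      rw [map_pow, pow_two]
      exact one_lt_mul'' hℓ1 hℓ1
    have hrest : v (-(a₂ + x' + x)) ≤ 1 := by
      rw [Valuation.map_neg]
      exact Valuation.map_add_le v (Valuation.map_add_le v ha₂ hvx') hx1
    have heq : ℓ ^ 2 + 0 * ℓ - a₂ - x' - x = ℓ ^ 2 + -(a₂ + x' + x) := by ring
    rw [heq, Valuation.map_add_eq_of_lt_left v (lt_of_le_of_lt hrest hℓ2)]
    exact hℓ2

end Fermat.Agent.S05.NodeFinal
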