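import Fermat.Agent.S05.NoTorsionE1V
import Fermat.Agent.S05.ClosePoints
import Fermat.Agent.S05.NodeFinal
import Fermat.Agent.S05.CruxPoint

/-!
# S05 helper: the local theorem — an "inertia-like" field endomorphism fixes the `p`-torsion points
of `y² = x (x - α) (x + β)`.
-/

set_option autoImplicit false

namespace Fermat.Agent.S05.LocalMain

open WeierstrassCurve WeierstrassCurve.Affine

variable {K : Type*} [Field K] [DecidableEq K]
  {Γ₀ : Type*} [LinearOrderedCommGroupWithZero Γ₀] (v : Valuation K Γ₀)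

omit [DecidableEq K] in
/-- if exactly one of three integral elements is a non-unit, the second elementary symmetric
function is a unit. -/
lemma sym2_unit {u₁ u₂ u₃ : K} (h₁ : v u₁ < 1) (h₂ : v u₂ = 1) (h₃ : v u₃ = 1) :
    v (u₂ * u₃ + u₁ * u₃ + u₁ * u₂) = 1 := by
  have e : u₂ * u₃ + u₁ * u₃ + u₁ * u₂ = u₂ * u₃ + u₁ * (u₃ + u₂) := by ring
  rw [e]
  have h23 : v (u₂ * u₃) = 1 := by rw [map_mul, h₂, h₃, one_mul]
  have hsum : v (u₃ + u₂) ≤ 1 := le_trans (v.map_add _ _) (max_le h₃.le h₂.le)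
  have hsmall : v (u₁ * (u₃ + u₂)) < 1 := by
    rw [map_mul]
    calc v u₁ * v (u₃ + u₂) ≤ v u₁ * 1 := mul_le_mul' le_rfl hsum
      _ = v u₁ := mul_one _
      _ < 1 := h₁
  rw [Valuation.map_add_eq_of_lt_left v (by rw [h23]; exact hsmall), h23]

omit [DecidableEq K] in
lemma val_sub_eq_of_lt {a b : K} (h : v b < v a) : v (a - b) = v a := by
  rw [sub_eq_add_neg]
  exact Valuation.map_add_eq_of_lt_left v (by rwa [Valuation.map_neg])

omit [DecidableEq K] in
lemma val_add_eq_of_lt {a b : K} (h : v b < v a) : v (a + b) = v a :=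
  Valuation.map_add_eq_of_lt_left v h

omit [DecidableEq K] in
/-- nonsingular reduction criterion for `y² = x (x - α) (x + β)`. -/
lemma nonsing_red {α β x y : K} (hβ : v β = 1) (hαβ : v (α + β) = 1) (hα1 : v α ≤ 1)
    (hx : v x ≤ 1) (hy : v y ≤ 1) (hE : y ^ 2 = x * (x - α) * (x + β))
    (h : v α = 1 ∨ v x = 1) :
    v y = 1 ∨ v (3 * x ^ 2 + 2 * (β - α) * x + -(α * β)) = 1 := by
  by_cases hy1 : v y = 1
  · exact Or.inl hy1
  right
  have hylt : v y < 1 := lt_of_le_of_ne hy hy1
  have e : 3 * x ^ 2 + 2 * (β - α) * x + -(α * β) =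
      (x - α) * (x + β) + x * (x + β) + x * (x - α) := by ring
  rw [e]
  have hu₂ : v (x - α) ≤ 1 := le_trans (v.map_sub _ _) (max_le hx hα1)
  have hu₃ : v (x + β) ≤ 1 := le_trans (v.map_add _ _) (max_le hx hβ.le)
  have hprod : v x * v (x - α) * v (x + β) < 1 := by
    have : v (y ^ 2) < 1 := by
      rw [map_pow]
      calc v y ^ 2 = v y * v y := sq _
        _ ≤ v y * 1 := mul_le_mul' le_rfl hy
        _ = v y := mul_one _
        _ < 1 := hylt
    rwa [hE, map_mul, map_mul] at this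
  -- at least one factor is a non-unit
  have hsome : v x < 1 ∨ v (x - α) < 1 ∨ v (x + β) < 1 := by
    by_contra hcon
    push Not at hcon
    obtain ⟨c1, c2, c3⟩ := hcon
    have e1 : v x = 1 := le_antisymm hx c1
    have e2 : v (x - α) = 1 := le_antisymm hu₂ c2
    have e3 : v (x + β) = 1 := le_antisymm hu₃ c3
    rw [e1, e2, e3] at hprod
    simp at hprod
  rcases hsome with h1 | h1 | h1
  · -- x small: then α must be a unit
    rcases h with hα | hx1
    · have e2 : v (x - α) = 1 := by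
        have : v (x - α) = v (α - x) := by rw [← Valuation.map_neg]; congr 1; ring
        rw [this, val_sub_eq_of_lt v (by rw [hα]; exact h1), hα]
      have e3 : v (x + β) = 1 := by
        rw [add_comm, val_add_eq_of_lt v (by rw [hβ]; exact h1), hβ]
      exact sym2_unit v h1 e2 e3
    · exact absurd hx1 (ne_of_lt h1)
  · -- x - α small
    have ex : x = (x - α) + α := by ring
    have e3' : x + β = (x - α) + (α + β) := by ring
    have e3 : v (x + β) = 1 := by
      rw [e3', add_comm, val_add_eq_of_lt v (by rw [hαβ]; exact h1), hαβ]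
    have e1 : v x = 1 := by
      rcases h with hα | hx1
      · rw [ex, add_comm, val_add_eq_of_lt v (by rw [hα]; exact h1), hα]
      · exact hx1
    have := sym2_unit v h1 e1 e3
    have e' : (x - α) * (x + β) + x * (x + β) + x * (x - α) =
        x * (x + β) + (x - α) * (x + β) + (x - α) * x := by ring
    rw [e']; exact this
  · -- x + β small
    have e1' : x = (x + β) - β := by ring
    have e1 : v x = 1 := by
      have : v x = v (β - (x + β)) := by
        rw [← Valuation.map_neg]; congr 1; ring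
      rw [this, val_sub_eq_of_lt v (by rw [hβ]; exact h1), hβ]
    have e2 : v (x - α) = 1 := by
      have : v (x - α) = v ((α + β) - (x + β)) := by
        rw [← Valuation.map_neg]; congr 1; ring
      rw [this, val_sub_eq_of_lt v (by rw [hαβ]; exact h1), hαβ]
    have := sym2_unit v h1 e1 e2
    have e' : (x - α) * (x + β) + x * (x + β) + x * (x - α) =
        x * (x - α) + (x + β) * (x - α) + (x + β) * x := by ring
    rw [e']; exact this

theorem main (σ : K →+* K) (hσI : ∀ x, v x ≤ 1 → v (σ x - x) < 1)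
    {a₂ a₄ α β a0 : K} (ha₂ : a₂ = β - α) (ha₄ : a₄ = -(α * β))
    (hσa0 : σ a0 = a0)
    (h2 : v (2 : K) = 1) {p : ℕ} (hp : p.Prime) (hp2 : p ≠ 2) (hpv : v (p : K) = 1)
    (hβ : v β = 1) (hαβ : v (α + β) = 1)
    (hα : v α = 1 ∨ (α = a0 ^ p ∧ v α < 1 ∧ α ≠ 0))
    {T T' : (shortW a₂ a₄).toAffine.Point} (hpT : p • T = 0) (hpT' : p • T' = 0)
    (hTT' : (T = 0 ∧ T' = 0) ∨
      (T ≠ 0 ∧ T' ≠ 0 ∧ xc T' = σ (xc T) ∧ yc T' = σ (yc T))) :
    T' = T := by
  subst ha₂ ha₄
  rcases hTT' with ⟨h, h'⟩ | ⟨hT, hT', hx', hy'⟩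
  · rw [h, h']
  have h2K : (2 : K) ≠ 0 := by
    intro h
    rw [h, map_zero] at h2
    exact zero_ne_one h2
  have hα1 : v α ≤ 1 := by
    rcases hα with h | ⟨-, h, -⟩
    · exact h.le
    · exact h.le
  have ha₂v : v (β - α) ≤ 1 := le_trans (v.map_sub _ _) (max_le hβ.le hα1)
  have ha₄v : v (-(α * β)) ≤ 1 := by
    rw [Valuation.map_neg, map_mul, hβ, mul_one]; exact hα1
  have hxi : v (xc T) ≤ 1 := NoTorsionE1V.xc_integral v h2K ha₂v ha₄v hp hp2 hpv hT hpT
  have hyi : v (yc T) ≤ 1 := NoTorsionE1V.yc_integral v h2K ha₂v ha₄v hp hp2 hpv hT hpT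
  have hE : yc T ^ 2 = xc T * (xc T - α) * (xc T + β) := by
    rw [equation_xc_yc hT]; ring
  have hS : p • (T' - T) = 0 := by rw [nsmul_sub, hpT, hpT', sub_zero]
  suffices hclaim : T' - T = 0 ∨ 1 < v (xc (T' - T)) by
    rcases hclaim with h | h
    · exact sub_eq_zero.mp h
    · by_contra hne
      have hne' : T' - T ≠ 0 := fun h0 => hne (sub_eq_zero.mp h0)
      have := NoTorsionE1V.xc_integral v h2K ha₂v ha₄v hp hp2 hpv hne' hS
      exact absurd h (not_lt.mpr this)
  by_cases hgood : v α = 1 ∨ v (xc T) = 1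
  · -- nonsingular reduction
    have hns := nonsing_red v hβ hαβ hα1 hxi hyi hE hgood
    refine ClosePoints.main v h2 ha₂v ha₄v hT hT' hxi hyi ?_ ?_ hns
    · rw [hx']; exact hσI _ hxi
    · rw [hy']; exact hσI _ hyi
  · -- reduction to the node
    push Not at hgood
    obtain ⟨hαne, hxne⟩ := hgood
    have hxlt : v (xc T) < 1 := lt_of_le_of_ne hxi hxne
    rcases hα with h | ⟨hαa0, hαlt, hα0⟩
    · exact absurd h hαne
    obtain ⟨hlt, k, hk⟩ := CruxPoint.main v hα0 hαlt hβ h2 hp hp2 hT hpT hxlt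
    have hvα0 : v α ≠ 0 := (Valuation.ne_zero_iff v).mpr hα0
    have ha00 : a0 ≠ 0 := by
      intro h
      rw [h, zero_pow hp.ne_zero] at hαa0
      exact hα0 hαa0
    have hva0 : v a0 ≠ 0 := (Valuation.ne_zero_iff v).mpr ha00
    have hvx0 : v (xc T) ≠ 0 := ne_of_gt (lt_trans (zero_lt_iff.mpr hvα0) hlt)
    have hx0 : xc T ≠ 0 := (Valuation.ne_zero_iff v).mp hvx0
    -- v x = v (a0 ^ (2k))
    have hvx : v (xc T) = v a0 ^ (2 * k) := by
      have h1 : v (xc T) ^ p = (v a0 ^ (2 * k)) ^ p := by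
        rw [hk, hαa0, map_pow, ← zpow_natCast (v a0 ^ (2 * k)), ← zpow_mul, ← zpow_natCast (v a0),
          ← zpow_mul, mul_comm]
      exact (pow_left_inj₀ zero_le zero_le hp.ne_zero).mp h1
    -- v y = v x
    have hvy : v (yc T) = v (xc T) := by
      have h1 : v (yc T) ^ 2 = v (xc T) ^ 2 := by
        rw [← map_pow, hE, map_mul, map_mul, val_sub_eq_of_lt v hlt,
          show xc T + β = β + xc T by ring, val_add_eq_of_lt v (by rw [hβ]; exact hxlt), hβ,
          mul_one, sq]
      exact (pow_left_inj₀ zero_le zero_le two_ne_zero).mp h1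
    have hy0 : yc T ≠ 0 := (Valuation.ne_zero_iff v).mp (by rw [hvy]; exact hvx0)
    set c : K := a0 ^ (2 * k) with hc
    have hc0 : c ≠ 0 := zpow_ne_zero _ ha00
    have hvc : v c = v (xc T) := by rw [hc, map_zpow₀, hvx]
    have hσc : σ c = c := by rw [hc, map_zpow₀, hσa0]
    -- generic unit trick
    have unit_trick : ∀ z : K, v z = v c → ∃ ε : K, v ε < 1 ∧ σ z = z * (1 + ε) := by
      intro z hz
      have hz0 : z ≠ 0 := (Valuation.ne_zero_iff v).mp (by rw [hz, hvc]; exact hvx0)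
      set w : K := z / c with hw
      have hw0 : w ≠ 0 := div_ne_zero hz0 hc0
      have hvw : v w = 1 := by
        rw [hw, map_div₀, hz, div_self ((Valuation.ne_zero_iff v).mpr hc0)]
      have hzw : z = c * w := by rw [hw]; field_simp
      refine ⟨(σ w - w) / w, ?_, ?_⟩
      · rw [map_div₀, hvw, div_one]; exact hσI w hvw.le
      · rw [hzw, map_mul, hσc]; field_simp; ring
    obtain ⟨ε, hε, hσx⟩ := unit_trick (xc T) hvc.symm
    obtain ⟨ε', hε', hσy⟩ := unit_trick (yc T) (by rw [hvy, hvc])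
    exact NodeFinal.main v h2 ha₂v hT hT' hx0 hy0 hvy hxi hε hε' (by rw [hx', hσx])
      (by rw [hy', hσy])

end Fermat.Agent.S05.LocalMain
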