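/-
S05 helper (piece L7): an admissible change of variables `C` of Weierstrass curves over a field
induces an injective additive group homomorphism on Mathlib's groups of nonsingular points
`(C • W).Point →+ W.Point`, `(x, y) ↦ (u²x + r, u³y + u²sx + t)`.
-/
import Mathlib.AlgebraicGeometry.EllipticCurve.Affine.Point
import Mathlib.AlgebraicGeometry.EllipticCurve.VariableChange
import Mathlib.Tactic
import Fermat.Agent.S05.XOnly

set_option autoImplicit false

namespace Fermat.Agent.S05.VarChange

open WeierstrassCurve WeierstrassCurve.Affine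

section general

variable {F : Type*} [Field F] (W : WeierstrassCurve F) (C : WeierstrassCurve.VariableChange F)

/-- The `x`-coordinate of the image of `(x, y)` under the change of variables. -/
def fx (x : F) : F := (C.u : F) ^ 2 * x + C.r

/-- The `y`-coordinate of the image of `(x, y)` under the change of variables. -/
def fy (x y : F) : F := (C.u : F) ^ 3 * y + (C.u : F) ^ 2 * C.s * x + C.t

lemma fx_injective : Function.Injective (fx C) := by
  intro x x' h
  have hu : (C.u : F) ≠ 0 := C.u.ne_zero
  unfold fx at h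
  have : (C.u : F) ^ 2 * (x - x') = 0 := by linear_combination h
  rcases mul_eq_zero.1 this with h | h
  · exact absurd h (pow_ne_zero _ hu)
  · exact sub_eq_zero.1 h

lemma fy_injective (x : F) : Function.Injective (fy C x) := by
  intro y y' h
  have hu : (C.u : F) ≠ 0 := C.u.ne_zero
  unfold fy at h
  have : (C.u : F) ^ 3 * (y - y') = 0 := by linear_combination h
  rcases mul_eq_zero.1 this with h | h
  · exact absurd h (pow_ne_zero _ hu)
  · exact sub_eq_zero.1 h

lemma equation_iff (x y : F) :
    (C • W).toAffine.Equation x y ↔ W.toAffine.Equation (fx C x) (fy C x y) := by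
  have hu : (C.u : F) ≠ 0 := C.u.ne_zero
  simp only [Affine.equation_iff, variableChange_a₁, variableChange_a₂, variableChange_a₃,
    variableChange_a₄, variableChange_a₆, Units.val_inv_eq_inv_val, fx, fy]
  constructor
  · intro h
    field_simp at h
    linear_combination h
  · intro h
    field_simp
    linear_combination h

lemma negY_eq (x y : F) :
    W.toAffine.negY (fx C x) (fy C x y) = fy C x ((C • W).toAffine.negY x y) := by
  have hu : (C.u : F) ≠ 0 := C.u.ne_zero
  simp only [Affine.negY, variableChange_a₁, variableChange_a₃, Units.val_inv_eq_inv_val, fx, fy]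
  field_simp
  ring

lemma addX_eq (x₁ x₂ ℓ : F) :
    W.toAffine.addX (fx C x₁) (fx C x₂) ((C.u : F) * ℓ + C.s) =
      fx C ((C • W).toAffine.addX x₁ x₂ ℓ) := by
  have hu : (C.u : F) ≠ 0 := C.u.ne_zero
  simp only [Affine.addX, variableChange_a₁, variableChange_a₂, Units.val_inv_eq_inv_val, fx]
  field_simp
  ring

lemma addY_eq (x₁ x₂ y₁ ℓ : F) :
    W.toAffine.addY (fx C x₁) (fx C x₂) (fy C x₁ y₁) ((C.u : F) * ℓ + C.s) =
      fy C ((C • W).toAffine.addX x₁ x₂ ℓ) ((C • W).toAffine.addY x₁ x₂ y₁ ℓ) := by
  have hu : (C.u : F) ≠ 0 := C.u.ne_zero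
  simp only [Affine.addY, Affine.negAddY, Affine.negY, Affine.addX, variableChange_a₁,
    variableChange_a₂, variableChange_a₃, Units.val_inv_eq_inv_val, fx, fy]
  field_simp
  ring

lemma nonsingular_iff (x y : F) :
    (C • W).toAffine.Nonsingular x y ↔ W.toAffine.Nonsingular (fx C x) (fy C x y) := by
  have hu : (C.u : F) ≠ 0 := C.u.ne_zero
  rw [Affine.nonsingular_iff', Affine.nonsingular_iff', ← equation_iff, equation_iff']
  refine and_congr_right fun _ => ?_
  -- the partial derivatives transform by an invertible triangular matrix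
  have hY : 2 * fy C x y + W.a₁ * fx C x + W.a₃ =
      (C.u : F) ^ 3 * (2 * y + (C • W).a₁ * x + (C • W).a₃) := by
    simp only [variableChange_a₁, variableChange_a₃, Units.val_inv_eq_inv_val, fx, fy]
    field_simp
    ring
  have hX : W.a₁ * fy C x y - (3 * fx C x ^ 2 + 2 * W.a₂ * fx C x + W.a₄) =
      (C.u : F) ^ 4 * ((C • W).a₁ * y - (3 * x ^ 2 + 2 * (C • W).a₂ * x + (C • W).a₄))
        - C.s * ((C.u : F) ^ 3 * (2 * y + (C • W).a₁ * x + (C • W).a₃)) := by
    simp only [variableChange_a₁, variableChange_a₂, variableChange_a₃, variableChange_a₄,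
      Units.val_inv_eq_inv_val, fx, fy]
    field_simp
    ring
  rw [hX, hY]
  set A := (C • W).a₁ * y - (3 * x ^ 2 + 2 * (C • W).a₂ * x + (C • W).a₄) with hA
  set B := 2 * y + (C • W).a₁ * x + (C • W).a₃ with hB
  have hu3 : (C.u : F) ^ 3 ≠ 0 := pow_ne_zero _ hu
  have hu4 : (C.u : F) ^ 4 ≠ 0 := pow_ne_zero _ hu
  constructor
  · rintro (h | h)
    · by_cases hB0 : B = 0
      · left
        rw [hB0, mul_zero, mul_zero, sub_zero]
        exact mul_ne_zero hu4 h
      · right
        exact mul_ne_zero hu3 hB0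
    · right
      exact mul_ne_zero hu3 h
  · rintro (h | h)
    · by_cases hB0 : B = 0
      · left
        rw [hB0, mul_zero, mul_zero, sub_zero] at h
        exact right_ne_zero_of_mul h
      · right
        exact hB0
    · right
      exact right_ne_zero_of_mul h

section slope

variable [DecidableEq F]

lemma slope_eq {x₁ x₂ y₁ y₂ : F} (h₁ : (C • W).toAffine.Equation x₁ y₁)
    (h₂ : (C • W).toAffine.Equation x₂ y₂)
    (hxy : ¬(x₁ = x₂ ∧ y₁ = (C • W).toAffine.negY x₂ y₂)) :
    W.toAffine.slope (fx C x₁) (fx C x₂) (fy C x₁ y₁) (fy C x₂ y₂) =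
      (C.u : F) * (C • W).toAffine.slope x₁ x₂ y₁ y₂ + C.s := by
  have hu : (C.u : F) ≠ 0 := C.u.ne_zero
  by_cases hx : x₁ = x₂
  · have hy : y₁ ≠ (C • W).toAffine.negY x₂ y₂ := fun h => hxy ⟨hx, h⟩
    have hyy : y₁ = y₂ := Y_eq_of_Y_ne h₁ h₂ hx hy
    subst hx
    subst hyy
    have hy' : fy C x₁ y₁ ≠ W.toAffine.negY (fx C x₁) (fy C x₁ y₁) := by
      rw [negY_eq]
      exact fun h => hy (fy_injective C x₁ h)
    rw [slope_of_Y_ne rfl hy', slope_of_Y_ne rfl hy]
    have hd' : fy C x₁ y₁ - W.toAffine.negY (fx C x₁) (fy C x₁ y₁) ≠ 0 := sub_ne_zero.2 hy'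
    have hd : y₁ - (C • W).toAffine.negY x₁ y₁ ≠ 0 := sub_ne_zero.2 hy
    rw [div_eq_iff hd']
    have key : fy C x₁ y₁ - W.toAffine.negY (fx C x₁) (fy C x₁ y₁) =
        (C.u : F) ^ 3 * (y₁ - (C • W).toAffine.negY x₁ y₁) := by
      rw [negY_eq]
      simp only [fy]
      ring
    rw [key]
    have key2 : (3 * fx C x₁ ^ 2 + 2 * W.a₂ * fx C x₁ + W.a₄ - W.a₁ * fy C x₁ y₁) =
        (C.u : F) ^ 4 * (3 * x₁ ^ 2 + 2 * (C • W).a₂ * x₁ + (C • W).a₄ - (C • W).a₁ * y₁)
          + C.s * ((C.u : F) ^ 3 * (y₁ - (C • W).toAffine.negY x₁ y₁)) := by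
      simp only [Affine.negY, variableChange_a₁, variableChange_a₂, variableChange_a₃,
        variableChange_a₄, Units.val_inv_eq_inv_val, fx, fy]
      field_simp
      ring
    rw [key2]
    field_simp
  · have hx' : fx C x₁ ≠ fx C x₂ := fun h => hx (fx_injective C h)
    rw [slope_of_X_ne hx', slope_of_X_ne hx]
    have hd : x₁ - x₂ ≠ 0 := sub_ne_zero.2 hx
    have hd' : fx C x₁ - fx C x₂ ≠ 0 := sub_ne_zero.2 hx'
    rw [div_eq_iff hd']
    simp only [fx, fy]
    field_simp
    ring

end slope

section point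

/-- The map on nonsingular points induced by the change of variables. -/
def pointMap : (C • W).toAffine.Point → W.toAffine.Point
  | .zero => .zero
  | .some x y h => .some (fx C x) (fy C x y) ((nonsingular_iff W C x y).1 h)

@[simp] lemma pointMap_zero : pointMap W C 0 = 0 := rfl

lemma pointMap_some {x y : F} (h : (C • W).toAffine.Nonsingular x y) :
    pointMap W C (Point.some x y h) =
      Point.some (fx C x) (fy C x y) ((nonsingular_iff W C x y).1 h) := rfl

lemma some_eq_some {W' : Affine F} {x y x' y' : F} (h : W'.Nonsingular x y)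
    (h' : W'.Nonsingular x' y') (hx : x = x') (hy : y = y') :
    Point.some x y h = Point.some x' y' h' := by
  subst hx
  subst hy
  rfl

lemma pointMap_injective : Function.Injective (pointMap W C) := by
  intro P Q hPQ
  cases P with
  | zero =>
    cases Q with
    | zero => rfl
    | some x y h => exact absurd hPQ.symm (Point.some_ne_zero _)
  | some x y h =>
    cases Q with
    | zero => exact absurd hPQ (Point.some_ne_zero _)
    | some x' y' h' =>
      rw [pointMap_some, pointMap_some, Point.some.injEq] at hPQ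
      have hx : x = x' := fx_injective C hPQ.1
      subst hx
      have hy : y = y' := fy_injective C x hPQ.2
      subst hy
      rfl

variable [DecidableEq F]

lemma pointMap_add (P Q : (C • W).toAffine.Point) :
    pointMap W C (P + Q) = pointMap W C P + pointMap W C Q := by
  cases P with
  | zero =>
    change pointMap W C (0 + Q) = 0 + pointMap W C Q
    rw [zero_add, zero_add]
  | some x₁ y₁ h₁ =>
    cases Q with
    | zero =>
      change pointMap W C (Point.some x₁ y₁ h₁ + 0) = pointMap W C (Point.some x₁ y₁ h₁) + 0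
      rw [add_zero, add_zero]
    | some x₂ y₂ h₂ =>
      by_cases hxy : x₁ = x₂ ∧ y₁ = (C • W).toAffine.negY x₂ y₂
      · rw [Point.add_of_Y_eq hxy.1 hxy.2, pointMap_some, pointMap_some, pointMap_zero]
        refine (Point.add_of_Y_eq ?_ ?_).symm
        · rw [hxy.1]
        · rw [negY_eq, ← hxy.2, hxy.1]
      · have hxy' : ¬(fx C x₁ = fx C x₂ ∧
            fy C x₁ y₁ = W.toAffine.negY (fx C x₂) (fy C x₂ y₂)) := by
          rintro ⟨hx, hy⟩
          have hx' : x₁ = x₂ := fx_injective C hx
          refine hxy ⟨hx', ?_⟩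
          rw [negY_eq, ← hx'] at hy
          rw [← hx']
          exact fy_injective C x₁ hy
        rw [Point.add_some hxy, pointMap_some, pointMap_some, pointMap_some, Point.add_some hxy']
        have hs := slope_eq W C h₁.1 h₂.1 hxy
        refine some_eq_some _ _ ?_ ?_
        · rw [hs, addX_eq]
        · rw [hs, addY_eq]

/-- The additive group homomorphism on nonsingular points induced by the change of variables. -/
def pointHom : (C • W).toAffine.Point →+ W.toAffine.Point where
  toFun := pointMap W C
  map_zero' := rfl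
  map_add' := pointMap_add W C

@[simp] lemma pointHom_apply (P : (C • W).toAffine.Point) : pointHom W C P = pointMap W C P := rfl

lemma pointHom_injective : Function.Injective (pointHom W C) := pointMap_injective W C

end point

end general

section frey

variable {F : Type*} [Field F] [DecidableEq F]

/-- Auxiliary form of `exists_pointHom` with free coefficients of the short model. -/
theorem exists_pointHom_aux (W : WeierstrassCurve F) (A₂ A₄ ρ : F) (u : Fˣ) (hu : (u : F) = 2)
    (hW : W = (⟨u, ρ, 1, 0⟩ : WeierstrassCurve.VariableChange F) • shortW A₂ A₄) :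
    ∃ ψ : W.toAffine.Point →+ (shortW A₂ A₄).toAffine.Point,
      Function.Injective ψ ∧
      ∀ (x y : F) (h : W.toAffine.Nonsingular x y),
        ψ (Point.some x y h) ≠ 0 ∧ xc (ψ (Point.some x y h)) = 4 * x + ρ ∧
          yc (ψ (Point.some x y h)) = 8 * y + 4 * x := by
  subst hW
  refine ⟨pointHom _ _, pointHom_injective _ _, fun x y h => ⟨?_, ?_, ?_⟩⟩
  · rw [pointHom_apply, pointMap_some]
    exact Point.some_ne_zero _
  · rw [pointHom_apply, pointMap_some, xc_some]
    simp only [fx, hu]
    ring
  · rw [pointHom_apply, pointMap_some, yc_some]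
    simp only [fy, hu]
    ring

/-- (L7) The change of variables `(x, y) ↦ (4x + ρ, 8y + 4x)` from a curve
`y² + xy = x³ + a₂x² + a₄x` to the short model, as an injective group homomorphism on points. -/
theorem exists_pointHom (W : WeierstrassCurve F) (h₁ : W.a₁ = 1) (h₃ : W.a₃ = 0)
    (h₆ : W.a₆ = 0) (h2 : (2 : F) ≠ 0) (ρ : F)
    (hρ : -ρ ^ 3 + (4 * W.a₂ + 1) * ρ ^ 2 - 16 * W.a₄ * ρ = 0) :
    ∃ ψ : W.toAffine.Point →+ (shortW (4 * W.a₂ + 1 - 3 * ρ)
        (16 * W.a₄ - 2 * ρ * (4 * W.a₂ + 1) + 3 * ρ ^ 2)).toAffine.Point,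
      Function.Injective ψ ∧
      ∀ (x y : F) (h : W.toAffine.Nonsingular x y),
        ψ (Point.some x y h) ≠ 0 ∧ xc (ψ (Point.some x y h)) = 4 * x + ρ ∧
          yc (ψ (Point.some x y h)) = 8 * y + 4 * x := by
  refine exists_pointHom_aux W _ _ ρ (Units.mk0 2 h2) rfl ?_
  ext
  · simp only [variableChange_a₁, shortW_a₁, Units.val_inv_eq_inv_val, Units.val_mk0, h₁]
    field_simp
    ring
  · simp only [variableChange_a₂, shortW_a₁, shortW_a₂, Units.val_inv_eq_inv_val, Units.val_mk0]
    field_simp
    ring
  · simp only [variableChange_a₃, shortW_a₁, shortW_a₃, Units.val_inv_eq_inv_val, Units.val_mk0, h₃]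
    ring
  · simp only [variableChange_a₄, shortW_a₁, shortW_a₂, shortW_a₃, shortW_a₄,
      Units.val_inv_eq_inv_val, Units.val_mk0]
    field_simp
    ring
  · simp only [variableChange_a₆, shortW_a₁, shortW_a₂, shortW_a₃, shortW_a₄, shortW_a₆,
      Units.val_inv_eq_inv_val, Units.val_mk0, h₆]
    field_simp
    linear_combination hρ

end frey

end Fermat.Agent.S05.VarChange
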