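import Mathlib

/-!
# S05, piece "Crux" (L5): the ordered-group induction

Abstract bookkeeping behind the node case of the inertia argument.  `Γ` is any linearly ordered
additive commutative group (the value group, written additively), `μ > 0`, and
`fold μ s = min s (2μ - s)`.

For a sequence `v : ℕ → Γ` (think `v j = V (j • T)`, `V` the clamped valuation of the
`x`-coordinate) with `v 0 = 0`, `0 ≤ v j ≤ μ` and the "multiset law"
`{v (j+1), v (j-1)} = {fold μ (v j + v 1), |v j - v 1|}` for all `j ≥ 1`, we show that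
`v j ≡ ± j • v 1` modulo `2μ ℤ` for all `j`; in particular `v p = 0` forces `p • v 1 ∈ 2μ ℤ`.
-/

namespace Fermat.Agent.S05.Crux

variable {Γ : Type*} [AddCommGroup Γ] [LinearOrder Γ] [IsOrderedAddMonoid Γ]

/-- `fold μ s = min s (2μ - s)`: reflection of `[0, 2μ]` onto `[0, μ]`. -/
def fold (μ s : Γ) : Γ := min s (2 • μ - s)

/-- `x ≡ ± s` modulo `2μ ℤ`. -/
def Cong (μ s x : Γ) : Prop := ∃ k : ℤ, x = s - k • (2 • μ) ∨ x = -(s - k • (2 • μ))

/-- The unordered-pair law `{a, b} = {c, d}`. -/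
def PairEq (a b c d : Γ) : Prop := (a = c ∧ b = d) ∨ (a = d ∧ b = c)

omit [AddCommGroup Γ] [LinearOrder Γ] [IsOrderedAddMonoid Γ] in
theorem pairEq_of_multiset_eq {a b c d : Γ} (h : ({a, b} : Multiset Γ) = {c, d}) :
    PairEq a b c d := by
  have h' : (a ::ₘ {b} : Multiset Γ) = c ::ₘ {d} := h
  rw [Multiset.cons_eq_cons] at h'
  rcases h' with ⟨rfl, h2⟩ | ⟨hne, cs, h1, h2⟩
  · left
    exact ⟨rfl, by simpa using h2⟩
  · right
    have hb : b ∈ ({b} : Multiset Γ) := Multiset.mem_singleton_self b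
    have hd : d ∈ ({d} : Multiset Γ) := Multiset.mem_singleton_self d
    rw [h1] at hb
    rw [h2] at hd
    rcases Multiset.mem_cons.1 hb with hbc | hbcs
    · rcases Multiset.mem_cons.1 hd with hda | hdcs
      · exact ⟨hda.symm, hbc⟩
      · have hcard : Multiset.card ({b} : Multiset Γ) = Multiset.card (c ::ₘ cs) := by rw [h1]
        simp only [Multiset.card_singleton, Multiset.card_cons] at hcard
        have : cs = 0 := Multiset.card_eq_zero.1 (by omega)
        simp [this] at hdcs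
    · have hcard : Multiset.card ({b} : Multiset Γ) = Multiset.card (c ::ₘ cs) := by rw [h1]
      simp only [Multiset.card_singleton, Multiset.card_cons] at hcard
      have : cs = 0 := Multiset.card_eq_zero.1 (by omega)
      simp [this] at hbcs

theorem fold_nonneg {μ s : Γ} (h0 : 0 ≤ s) (h1 : s ≤ 2 • μ) : 0 ≤ fold μ s :=
  le_min h0 (sub_nonneg.2 h1)

theorem fold_le {μ s : Γ} : fold μ s ≤ μ := by
  unfold fold
  rcases le_total s μ with h | h
  · exact (min_le_left _ _).trans h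
  · refine (min_le_right _ _).trans ?_
    rw [two_nsmul]
    rw [sub_le_iff_le_add]
    exact add_le_add_right h μ

theorem abs_sub_le_of_mem {μ x c : Γ} (hx0 : 0 ≤ x) (hx : x ≤ μ) (hc0 : 0 ≤ c) (hc : c ≤ μ) :
    |x - c| ≤ μ := by
  rw [abs_le]
  constructor
  · have : -μ ≤ -c := neg_le_neg hc
    calc -μ ≤ -c := this
      _ = 0 - c := by rw [zero_sub]
      _ ≤ x - c := sub_le_sub_right hx0 c
  · calc x - c ≤ x - 0 := sub_le_sub_left hc0 x
      _ = x := sub_zero x
      _ ≤ μ := hx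

/-- If `|n • d| ≤ μ < d` then `n = 0`. -/
theorem zsmul_small {μ d : Γ} (hμd : μ < d) (hμ : 0 ≤ μ) (n : ℤ) (h1 : n • d ≤ μ)
    (h2 : -μ ≤ n • d) : n = 0 := by
  have hd : 0 < d := lt_of_le_of_lt hμ hμd
  by_contra hn
  rcases lt_or_gt_of_ne hn with hneg | hpos
  · have h3 : n • d ≤ (-1 : ℤ) • d := (zsmul_le_zsmul_iff_left hd).mpr (by omega)
    rw [neg_one_zsmul] at h3
    have h4 : -μ ≤ -d := h2.trans h3
    exact absurd (neg_le_neg_iff.1 h4) (not_le.2 hμd)
  · have h3 : (1 : ℤ) • d ≤ n • d := (zsmul_le_zsmul_iff_left hd).mpr (by omega)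
    rw [one_zsmul] at h3
    exact absurd (h3.trans h1) (not_le.2 hμd)

/-- If `0 ≤ n • d ≤ d` with `d > 0` then `n = 0` or `n = 1`. -/
theorem zsmul_unit_interval {d : Γ} (hd : 0 < d) (n : ℤ) (h1 : 0 ≤ n • d) (h2 : n • d ≤ d) :
    n = 0 ∨ n = 1 := by
  by_contra hn
  rw [not_or] at hn
  rcases lt_or_ge n 0 with hneg | hpos
  · have h3 : n • d ≤ (-1 : ℤ) • d := (zsmul_le_zsmul_iff_left hd).mpr (by omega)
    rw [neg_one_zsmul] at h3
    have : (0 : Γ) ≤ -d := h1.trans h3
    exact absurd (neg_nonneg.1 this) (not_le.2 hd)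
  · have hn2 : 2 ≤ n := by omega
    have h3 : (2 : ℤ) • d ≤ n • d := (zsmul_le_zsmul_iff_left hd).mpr hn2
    rw [two_zsmul] at h3
    have h4 : d + d ≤ d := h3.trans h2
    have h5 : d + d ≤ d + 0 := by rwa [add_zero]
    exact absurd (le_of_add_le_add_left h5) (not_le.2 hd)

theorem two_nsmul_gt {μ : Γ} (hμ : 0 < μ) : μ < 2 • μ := by
  rw [two_nsmul]
  exact lt_add_of_pos_left μ hμ

/-- Uniqueness of the representative of `± s` modulo `2μ ℤ` in `[0, μ]`. -/
theorem Cong.unique {μ s x y : Γ} (hμ : 0 < μ) (hx : Cong μ s x) (hy : Cong μ s y)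
    (hx0 : 0 ≤ x) (hxμ : x ≤ μ) (hy0 : 0 ≤ y) (hyμ : y ≤ μ) : x = y := by
  obtain ⟨k, hk⟩ := hx
  obtain ⟨l, hl⟩ := hy
  have hμd := two_nsmul_gt hμ
  have hd : (0 : Γ) < 2 • μ := hμ.trans hμd
  have habs := abs_le.1 (abs_sub_le_of_mem hx0 hxμ hy0 hyμ)
  have habs' := abs_le.1 (abs_sub_le_of_mem hy0 hyμ hx0 hxμ)
  -- the same-sign case
  have same : ∀ n : ℤ, x - y = n • (2 • μ) → x = y := by
    intro n hn
    have h0 := zsmul_small hμd hμ.le n (hn ▸ habs.2) (hn ▸ habs.1)
    rw [h0, zero_zsmul] at hn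
    exact sub_eq_zero.1 hn
  -- the opposite-sign case
  have opp : ∀ n : ℤ, x + y = n • (2 • μ) → x = y := by
    intro n hn
    have hsum0 : 0 ≤ x + y := add_nonneg hx0 hy0
    have hsumd : x + y ≤ 2 • μ := by
      rw [two_nsmul]; exact add_le_add hxμ hyμ
    rcases zsmul_unit_interval hd n (hn ▸ hsum0) (hn ▸ hsumd) with h0 | h1
    · rw [h0, zero_zsmul] at hn
      have hx' : x = 0 := by
        refine le_antisymm ?_ hx0
        calc x = x + 0 := (add_zero x).symm
          _ ≤ x + y := by gcongr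
          _ = 0 := hn
      have hy' : y = 0 := by rw [hx', zero_add] at hn; exact hn
      rw [hx', hy']
    · rw [h1, one_zsmul, two_nsmul] at hn
      have hx' : x = μ := by
        refine le_antisymm hxμ ?_
        by_contra hlt
        rw [not_le] at hlt
        have : x + y < μ + μ := add_lt_add_of_lt_of_le hlt hyμ
        exact absurd hn this.ne
      have hy' : y = μ := by
        rw [hx'] at hn; exact add_left_cancel hn
      rw [hx', hy']
  rcases hk with hk | hk <;> rcases hl with hl | hl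
  · exact same (l - k) (by rw [hk, hl]; module)
  · exact opp (l - k) (by rw [hk, hl]; module)
  · exact opp (k - l) (by rw [hk, hl]; module)
  · exact same (k - l) (by rw [hk, hl]; module)

/-- The inductive step on congruence classes. -/
theorem Cong.step {μ s x c : Γ} (hx : Cong μ s x) :
    (Cong μ (s + c) (fold μ (x + c)) ∧ Cong μ (s - c) |x - c|) ∨
      (Cong μ (s - c) (fold μ (x + c)) ∧ Cong μ (s + c) |x - c|) := by
  obtain ⟨k, hk | hk⟩ := hx
  · left
    constructor
    · unfold fold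
      rcases min_choice (x + c) (2 • μ - (x + c)) with h | h <;> rw [h]
      · exact ⟨k, Or.inl (by rw [hk]; module)⟩
      · exact ⟨k + 1, Or.inr (by rw [hk]; module)⟩
    · rcases abs_choice (x - c) with h | h <;> rw [h]
      · exact ⟨k, Or.inl (by rw [hk]; module)⟩
      · exact ⟨k, Or.inr (by rw [hk]; module)⟩
  · right
    constructor
    · unfold fold
      rcases min_choice (x + c) (2 • μ - (x + c)) with h | h <;> rw [h]
      · exact ⟨k, Or.inr (by rw [hk]; module)⟩
      · exact ⟨k - 1, Or.inl (by rw [hk]; module)⟩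
    · rcases abs_choice (x - c) with h | h <;> rw [h]
      · exact ⟨k, Or.inr (by rw [hk]; module)⟩
      · exact ⟨k, Or.inl (by rw [hk]; module)⟩

/-- **Crux, sequence form.** -/
theorem cong_of_law {μ : Γ} (hμ : 0 < μ) (v : ℕ → Γ) (h0 : v 0 = 0)
    (hrange : ∀ j, 0 ≤ v j ∧ v j ≤ μ)
    (hlaw : ∀ j, 1 ≤ j → PairEq (v (j + 1)) (v (j - 1)) (fold μ (v j + v 1)) |v j - v 1|) :
    ∀ j : ℕ, Cong μ (j • v 1) (v j) := by
  have hc0 := (hrange 1).1
  have hcμ := (hrange 1).2
  have key : ∀ j : ℕ, Cong μ (j • v 1) (v j) ∧ Cong μ ((j + 1) • v 1) (v (j + 1)) := by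
    intro j
    induction j with
    | zero =>
      refine ⟨⟨0, Or.inl (by rw [h0]; module)⟩, ⟨0, Or.inl (by module)⟩⟩
    | succ j ih =>
      refine ⟨ih.2, ?_⟩
      have hx := ih.2
      have hxr := hrange (j + 1)
      have hfold0 : 0 ≤ fold μ (v (j + 1) + v 1) :=
        fold_nonneg (add_nonneg hxr.1 hc0) (by rw [two_nsmul]; exact add_le_add hxr.2 hcμ)
      have hfoldμ : fold μ (v (j + 1) + v 1) ≤ μ := fold_le
      have habs0 : 0 ≤ |v (j + 1) - v 1| := abs_nonneg _
      have habsμ : |v (j + 1) - v 1| ≤ μ := abs_sub_le_of_mem hxr.1 hxr.2 hc0 hcμ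
      have hs1 : (j + 1) • v 1 + v 1 = (j + 1 + 1) • v 1 := by module
      have hs2 : (j + 1) • v 1 - v 1 = j • v 1 := by module
      have hl := hlaw (j + 1) (by omega)
      rw [Nat.add_sub_cancel] at hl
      rcases Cong.step (c := v 1) hx with ⟨hA, hB⟩ | ⟨hA, hB⟩
      · rw [hs1] at hA
        rw [hs2] at hB
        rcases hl with ⟨e1, _⟩ | ⟨e1, e2⟩
        · rw [e1]; exact hA
        · -- `v j` equals the fold, which is then also the abs
          have : fold μ (v (j + 1) + v 1) = |v (j + 1) - v 1| := by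
            rw [← e2]
            exact Cong.unique hμ ih.1 hB (hrange j).1 (hrange j).2 habs0 habsμ
          rw [e1, ← this]; exact hA
      · rw [hs2] at hA
        rw [hs1] at hB
        rcases hl with ⟨e1, e2⟩ | ⟨e1, _⟩
        · have : |v (j + 1) - v 1| = fold μ (v (j + 1) + v 1) := by
            rw [← e2]
            exact Cong.unique hμ ih.1 hA (hrange j).1 (hrange j).2 hfold0 hfoldμ
          rw [e1, ← this]; exact hB
        · rw [e1]; exact hB
  exact fun j => (key j).1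

/-- **Crux, sequence form, conclusion.** If moreover `v p = 0` then `p • v 1 ∈ 2μ ℤ`. -/
theorem exists_zsmul_eq_of_law {μ : Γ} (hμ : 0 < μ) (v : ℕ → Γ) (h0 : v 0 = 0)
    (hrange : ∀ j, 0 ≤ v j ∧ v j ≤ μ)
    (hlaw : ∀ j, 1 ≤ j → PairEq (v (j + 1)) (v (j - 1)) (fold μ (v j + v 1)) |v j - v 1|)
    (p : ℕ) (hp : v p = 0) : ∃ k : ℤ, p • v 1 = k • (2 • μ) := by
  obtain ⟨k, hk | hk⟩ := cong_of_law hμ v h0 hrange hlaw p
  · exact ⟨k, by rw [hp] at hk; exact (sub_eq_zero.1 hk.symm)⟩
  · refine ⟨k, ?_⟩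
    rw [hp] at hk
    have : p • v 1 - k • (2 • μ) = 0 := neg_eq_zero.1 hk.symm
    exact sub_eq_zero.1 this

/-- **Crux, group form.** `V : G → Γ` a function on an abelian group with values in `[0, μ]`,
`V 0 = 0`, satisfying the multiset law along the multiples of `T`; if `p • T = 0` then
`p • V T ∈ 2μ ℤ`. -/
theorem exists_zsmul_eq_of_group_law {G : Type*} [AddCommGroup G] {μ : Γ} (hμ : 0 < μ)
    (V : G → Γ) (hV0 : V 0 = 0) (hrange : ∀ P, 0 ≤ V P ∧ V P ≤ μ) (T : G)
    (hlaw : ∀ j : ℕ, 1 ≤ j →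
      PairEq (V (j • T + T)) (V (j • T - T)) (fold μ (V (j • T) + V T)) |V (j • T) - V T|)
    (p : ℕ) (hp : p • T = 0) : ∃ k : ℤ, p • V T = k • (2 • μ) := by
  have h := exists_zsmul_eq_of_law hμ (fun j => V (j • T)) (by simp [hV0])
    (fun j => hrange _) ?_ p (by simp [hp, hV0])
  · simpa using h
  · intro j hj
    have e1 : (j + 1) • T = j • T + T := succ_nsmul T j
    have e2 : (j - 1) • T = j • T - T := by
      obtain ⟨i, rfl⟩ : ∃ i, j = i + 1 := ⟨j - 1, by omega⟩
      rw [Nat.add_sub_cancel, succ_nsmul, add_sub_cancel_right]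
    simp only [one_nsmul, e1, e2]
    exact hlaw j hj

/-- Dividing the conclusion by `p` when `μ = p • ν`: ordered groups are torsion-free. -/
theorem eq_zsmul_of_nsmul_eq {c ν : Γ} {p : ℕ} (hp : p ≠ 0) {k : ℤ}
    (h : p • c = k • (2 • (p • ν))) : c = k • (2 • ν) := by
  have h2 : p • (c - k • (2 • ν)) = 0 := by
    rw [smul_sub, h]
    have : p • k • (2 • ν) = k • (2 • (p • ν)) := by module
    rw [this, sub_self]
  have h3 : c - k • (2 • ν) = 0 := by
    rcases lt_trichotomy (c - k • (2 • ν)) 0 with hlt | heq | hgt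
    · have := nsmul_neg_iff hp |>.2 hlt
      exact absurd h2 this.ne
    · exact heq
    · have := nsmul_pos hgt hp
      exact absurd h2 this.ne'
  exact sub_eq_zero.1 h3

end Fermat.Agent.S05.Crux
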