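import Mathlib
import Fermat.Agent.S05.XOnly

/-!
# S05 (L2): points of the short model with non-integral `x` carry no `p`-torsion

`A` is a valuation subring of the field `K`, `a₂ a₄ ∈ A`, `p` an odd prime which is a unit of `A`.
If `T` is a point of `y² = x³ + a₂x² + a₄x` with `p • T = 0`, then `x(T) ∈ A`.

Proof: put `ξ(P) = 1/x(P)`.  For `t = ξ(T)` in the maximal ideal one shows by induction
`ξ(jT) ≡ j² t  mod t² A` (`1 ≤ j ≤ p-1`), from the x-only addition/duplication formulas.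
With `p = 2m+1`, `(m+1)T = -(mT)` gives `(m+1)² t ≡ m² t`, i.e. `p t ∈ t² A`, so `p ∈ t A`.
-/

set_option autoImplicit false

namespace Fermat.Agent.S05.NoTorsionE1

open WeierstrassCurve WeierstrassCurve.Affine Fermat.Agent.S05

variable {K : Type*} [Field K] (A : ValuationSubring K)

/-! ### valuation-subring bookkeeping -/

lemma mul_mem_nonunits_left {a t : K} (ha : a ∈ A) (ht : t ∈ A.nonunits) : a * t ∈ A.nonunits := by
  rw [ValuationSubring.mem_nonunits_iff] at ht ⊢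
  rw [map_mul]
  have h1 : A.valuation a ≤ 1 := (A.valuation_le_one_iff a).mpr ha
  exact Right.mul_lt_one_of_le_of_lt h1 ht

lemma mul_mem_nonunits_right {a t : K} (ht : t ∈ A.nonunits) (ha : a ∈ A) : t * a ∈ A.nonunits := by
  rw [mul_comm]; exact mul_mem_nonunits_left A ha ht

lemma nonunits_mem {t : K} (ht : t ∈ A.nonunits) : t ∈ A := A.nonunits_subset ht

/-- `1 - u` is a unit of `A` for `u` in the maximal ideal. -/
lemma one_sub_unit {u : K} (hu : u ∈ A.nonunits) : ∃ w ∈ A, (1 - u) * w = 1 := by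
  rw [ValuationSubring.mem_nonunits_iff] at hu
  have hv : A.valuation (1 - u) = 1 := Valuation.map_one_sub_of_lt _ hu
  have h0 : 1 - u ≠ 0 := by
    intro h0
    rw [h0, map_zero] at hv
    exact zero_ne_one hv
  refine ⟨(1 - u)⁻¹, ?_, mul_inv_cancel₀ h0⟩
  rw [← A.valuation_le_one_iff, map_inv₀, hv, inv_one]

lemma two_mem : (2 : K) ∈ A := by
  have : ((2 : ℕ) : K) ∈ A := natCast_mem A 2
  exact_mod_cast this

lemma three_mem : (3 : K) ∈ A := by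
  have : ((3 : ℕ) : K) ∈ A := natCast_mem A 3
  exact_mod_cast this

lemma four_mem : (4 : K) ∈ A := by
  have : ((4 : ℕ) : K) ∈ A := natCast_mem A 4
  exact_mod_cast this

/-! ### the two algebraic steps -/

/-- duplication step in the variable `t = 1/x`. -/
lemma dup_step {a₂ a₄ t x' : K} (ha₂ : a₂ ∈ A) (ha₄ : a₄ ∈ A) (ht : t ∈ A.nonunits)
    (h : x' * (4 * t * (1 + a₂ * t + a₄ * t ^ 2)) = (1 - a₄ * t ^ 2) ^ 2) :
    x' ≠ 0 ∧ ∃ c ∈ A, x'⁻¹ = 4 * t + t ^ 2 * c := by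
  have htA := nonunits_mem A ht
  have hu : a₄ * t ^ 2 ∈ A.nonunits :=
    mul_mem_nonunits_left A ha₄ (by rw [pow_two]; exact mul_mem_nonunits_left A htA ht)
  obtain ⟨w, hwA, hw⟩ := one_sub_unit A hu
  have hu0 : (1 - a₄ * t ^ 2) ≠ 0 := left_ne_zero_of_mul_eq_one hw
  have hx' : x' ≠ 0 := by
    rintro rfl
    rw [zero_mul] at h
    exact pow_ne_zero 2 hu0 h.symm
  refine ⟨hx', 4 * (a₂ + 3 * a₄ * t - a₄ ^ 2 * t ^ 3) * w ^ 2, ?_, ?_⟩
  · refine A.mul_mem _ _ (A.mul_mem _ _ (four_mem A) ?_) (pow_mem hwA 2)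
    refine sub_mem (A.add_mem _ _ ha₂ (A.mul_mem _ _ (A.mul_mem _ _ (three_mem A) ha₄) htA)) ?_
    exact A.mul_mem _ _ (pow_mem ha₄ 2) (pow_mem htA 3)
  · apply inv_eq_of_mul_eq_one_right
    linear_combination (w ^ 2) * h +
      (((1 - a₄ * t ^ 2) * w + 1) * (1 - x' * 4 * t)) * hw

/-- addition step in the variables `s = 1/x₁`, `t = 1/x₂`. -/
lemma add_step {a₂ a₄ s t x₃ x₄ : K} (ha₂ : a₂ ∈ A) (ha₄ : a₄ ∈ A) (hs : s ∈ A.nonunits)
    (ht : t ∈ A.nonunits)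
    (h₁ : (x₃ + x₄) * (t - s) ^ 2 = 2 * ((s + t) * (1 + a₄ * s * t) + 2 * a₂ * s * t))
    (h₂ : x₃ * x₄ * (t - s) ^ 2 = (1 - a₄ * s * t) ^ 2) :
    x₃ ≠ 0 ∧ x₄ ≠ 0 ∧ ∃ c ∈ A, x₃⁻¹ + x₄⁻¹ = 2 * (s + t) + s * t * c := by
  have hsA := nonunits_mem A hs
  have htA := nonunits_mem A ht
  have hu : a₄ * s * t ∈ A.nonunits := by
    rw [mul_assoc]
    exact mul_mem_nonunits_left A ha₄ (mul_mem_nonunits_left A hsA ht)
  obtain ⟨w, hwA, hw⟩ := one_sub_unit A hu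
  have hu0 : (1 - a₄ * s * t) ≠ 0 := left_ne_zero_of_mul_eq_one hw
  have hne : x₃ * x₄ * (t - s) ^ 2 ≠ 0 := by rw [h₂]; exact pow_ne_zero 2 hu0
  have hx₃ : x₃ ≠ 0 := fun h => hne (by rw [h]; ring)
  have hx₄ : x₄ ≠ 0 := fun h => hne (by rw [h]; ring)
  have hts : (t - s) ^ 2 ≠ 0 := fun h => hne (by rw [h]; ring)
  refine ⟨hx₃, hx₄,
    (2 * (s + t) * (3 * a₄ - a₄ ^ 2 * s * t) + 4 * a₂) * w ^ 2, ?_, ?_⟩
  · refine A.mul_mem _ _ (A.add_mem _ _ ?_ (A.mul_mem _ _ (four_mem A) ha₂)) (pow_mem hwA 2)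
    refine A.mul_mem _ _ (A.mul_mem _ _ (two_mem A) (A.add_mem _ _ hsA htA)) ?_
    refine sub_mem (A.mul_mem _ _ (three_mem A) ha₄) ?_
    exact A.mul_mem _ _ (A.mul_mem _ _ (pow_mem ha₄ 2) hsA) htA
  · have key : (x₃ + x₄) * (1 - a₄ * s * t) ^ 2 =
        x₃ * x₄ * (2 * ((s + t) * (1 + a₄ * s * t) + 2 * a₂ * s * t)) := by
      apply mul_left_cancel₀ hts
      linear_combination (1 - a₄ * s * t) ^ 2 * h₁ -
        (2 * ((s + t) * (1 + a₄ * s * t) + 2 * a₂ * s * t)) * h₂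
    -- multiply `key` by `w²`
    have hR : x₃ + x₄ = x₃ * x₄ *
        (2 * (s + t) + s * t * ((2 * (s + t) * (3 * a₄ - a₄ ^ 2 * s * t) + 4 * a₂) * w ^ 2)) := by
      linear_combination (w ^ 2) * key -
        ((x₃ + x₄ - x₃ * x₄ * 2 * (s + t)) * ((1 - a₄ * s * t) * w + 1)) * hw
    have i3 : x₃ * x₃⁻¹ = 1 := mul_inv_cancel₀ hx₃
    have i4 : x₄ * x₄⁻¹ = 1 := mul_inv_cancel₀ hx₄
    apply mul_left_cancel₀ (mul_ne_zero hx₃ hx₄)
    rw [← hR]
    linear_combination x₄ * i3 + x₃ * i4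

/-- duplication step, in the `x`-coordinate. -/
lemma dup_step_x {a₂ a₄ x y x' : K} (ha₂ : a₂ ∈ A) (ha₄ : a₄ ∈ A) (hx : x ∉ A)
    (e1 : x' * (4 * y ^ 2) = (x ^ 2 - a₄) ^ 2)
    (e2 : y ^ 2 = x ^ 3 + a₂ * x ^ 2 + a₄ * x) :
    x' ≠ 0 ∧ ∃ c ∈ A, x'⁻¹ = 4 * x⁻¹ + x⁻¹ ^ 2 * c := by
  have hx0 : x ≠ 0 := fun h => hx (h ▸ A.zero_mem)
  have ht : x⁻¹ ∈ A.nonunits := A.inv_mem_nonunits_iff.mpr (Or.inr hx)
  refine dup_step A ha₂ ha₄ ht ?_
  field_simp
  linear_combination e1 - 4 * x' * e2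

/-- addition step, in the `x`-coordinates. -/
lemma add_step_x {a₂ a₄ x₁ x₂ x₃ x₄ : K} (ha₂ : a₂ ∈ A) (ha₄ : a₄ ∈ A)
    (hx₁ : x₁ ≠ 0) (hs : x₁⁻¹ ∈ A.nonunits) (hx₂ : x₂ ≠ 0) (ht : x₂⁻¹ ∈ A.nonunits)
    (h₁ : (x₃ + x₄) * (x₁ - x₂) ^ 2 = 2 * ((x₁ + x₂) * (x₁ * x₂ + a₄) + 2 * a₂ * x₁ * x₂))
    (h₂ : x₃ * x₄ * (x₁ - x₂) ^ 2 = (x₁ * x₂ - a₄) ^ 2) :
    x₃ ≠ 0 ∧ x₄ ≠ 0 ∧ ∃ c ∈ A, x₃⁻¹ + x₄⁻¹ = 2 * (x₁⁻¹ + x₂⁻¹) + x₁⁻¹ * x₂⁻¹ * c := by
  refine add_step A ha₂ ha₄ hs ht ?_ ?_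
  · field_simp
    linear_combination h₁
  · field_simp
    linear_combination h₂

/-! ### points -/

section points

variable [DecidableEq K] {a₂ a₄ : K}

omit [DecidableEq K] in
lemma eq_or_eq_neg_of_xc_eq {P Q : (shortW a₂ a₄).toAffine.Point} (hP : P ≠ 0) (hQ : Q ≠ 0)
    (h : xc P = xc Q) : P = Q ∨ P = -Q := by
  cases P with
  | zero => exact absurd rfl hP
  | some x₁ y₁ h₁ =>
    cases Q with
    | zero => exact absurd rfl hQ
    | some x₂ y₂ h₂ =>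
      simp only [xc_some] at h
      subst h
      rcases Y_eq_of_X_eq h₁.1 h₂.1 rfl with hy | hy
      · left; subst hy; rfl
      · right; rw [Point.neg_some]; subst hy; rfl

omit [DecidableEq K] in
lemma neg_eq_self_of_yc_eq_zero {P : (shortW a₂ a₄).toAffine.Point} (hy : yc P = 0) :
    -P = P := by
  cases P with
  | zero => rfl
  | some x y h =>
    simp only [yc_some] at hy
    subst hy
    rw [Point.neg_some]
    simp only [Point.some.injEq, true_and]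
    rw [shortW_negY, neg_zero]

/-- **(L2)** A point of prime order `p` (odd, unit in `A`) on `y² = x³ + a₂x² + a₄x`, `a₂ a₄ ∈ A`,
has integral `x`-coordinate. -/
theorem xc_mem_of_prime_nsmul_eq_zero (ha₂ : a₂ ∈ A) (ha₄ : a₄ ∈ A) (h2 : (2 : K) ≠ 0)
    {p : ℕ} (hp : p.Prime) (hp2 : p ≠ 2) (hpA : (p : K) ∉ A.nonunits)
    {T : (shortW a₂ a₄).toAffine.Point} (hT : p • T = 0) : xc T ∈ A := by
  by_contra hx
  have hT0 : T ≠ 0 := by
    rintro rfl
    exact hx (by rw [xc_zero]; exact A.zero_mem)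
  have : Fact p.Prime := ⟨hp⟩
  have hord : addOrderOf T = p := addOrderOf_eq_prime hT hT0
  have hxT : xc T ≠ 0 := fun h => hx (h ▸ A.zero_mem)
  have htm : (xc T)⁻¹ ∈ A.nonunits := A.inv_mem_nonunits_iff.mpr (Or.inr hx)
  have htA : (xc T)⁻¹ ∈ A := nonunits_mem A htm
  have hp3 : 3 ≤ p := by
    have := hp.two_le
    omega
  -- multiples `k • T`, `0 < k < p`, are nonzero
  have hne : ∀ k : ℕ, 0 < k → k < p → k • T ≠ 0 := by
    intro k hk0 hkp hk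
    have hdvd : p ∣ k := hord ▸ addOrderOf_dvd_of_nsmul_eq_zero hk
    exact absurd (Nat.le_of_dvd hk0 hdvd) (by omega)
  -- the congruence `ξ(jT) ≡ j² t mod t²`
  have claim : ∀ j : ℕ,
      (1 ≤ j → j ≤ p - 1 → xc (j • T) ≠ 0 ∧
        ∃ c ∈ A, (xc (j • T))⁻¹ = (j : K) ^ 2 * (xc T)⁻¹ + (xc T)⁻¹ ^ 2 * c) ∧
      (j + 1 ≤ p - 1 → xc ((j + 1) • T) ≠ 0 ∧
        ∃ c ∈ A, (xc ((j + 1) • T))⁻¹ = ((j + 1 : ℕ) : K) ^ 2 * (xc T)⁻¹ + (xc T)⁻¹ ^ 2 * c) := by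
    intro j
    induction j with
    | zero =>
      refine ⟨fun h => absurd h (by omega), fun _ => ?_⟩
      rw [zero_add, one_smul]
      exact ⟨hxT, 0, A.zero_mem, by simp⟩
    | succ j ih =>
      refine ⟨fun _ h => ih.2 h, fun hj => ?_⟩
      rcases Nat.eq_zero_or_pos j with rfl | hjpos
      · -- duplication
        have hy : yc T ≠ 0 := by
          intro hy
          have h1 : -T = T := neg_eq_self_of_yc_eq_zero hy
          have h2T : 2 • T = 0 := by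
            rw [two_smul]
            nth_rewrite 1 [← h1]
            exact neg_add_cancel T
          exact hne 2 (by omega) (by omega) h2T
        obtain ⟨-, e1⟩ := xc_add_self h2 hT0 hy
        have e2 := equation_xc_yc hT0
        have hTT : (0 + 1 + 1) • T = T + T := by rw [zero_add, one_add_one_eq_two, two_smul]
        rw [hTT]
        obtain ⟨hx', c, hc, hcx⟩ := dup_step_x A ha₂ ha₄ hx e1 e2
        refine ⟨hx', c, hc, ?_⟩
        rw [hcx]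
        push_cast
        ring
      · -- addition
        have hj1 : j + 1 ≤ p - 1 := by omega
        obtain ⟨hxj1, c₁, hc₁, hcx₁⟩ := ih.2 hj1
        obtain ⟨hxj, c₀, hc₀, hcx₀⟩ := ih.1 hjpos (by omega)
        have hP0 : (j + 1) • T ≠ 0 := hne (j + 1) (by omega) (by omega)
        have hsm : (xc ((j + 1) • T))⁻¹ ∈ A.nonunits := by
          rw [hcx₁]
          have : ((j + 1 : ℕ) : K) ^ 2 * (xc T)⁻¹ + (xc T)⁻¹ ^ 2 * c₁ =
              (((j + 1 : ℕ) : K) ^ 2 + (xc T)⁻¹ * c₁) * (xc T)⁻¹ := by ring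
          rw [this]
          refine mul_mem_nonunits_left A ?_ htm
          exact A.add_mem _ _ (pow_mem (natCast_mem A _) 2) (A.mul_mem _ _ htA hc₁)
        have hxne : xc ((j + 1) • T) ≠ xc T := by
          intro hEq
          rcases eq_or_eq_neg_of_xc_eq hP0 hT0 hEq with h | h
          · -- (j+1) T = T → j T = 0
            have : j • T = 0 := by
              have h' : j • T + T = T := by rw [← succ_nsmul]; exact h
              simpa using h'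
            exact hne j hjpos (by omega) this
          · -- (j+1) T = -T → (j+2) T = 0
            have : (j + 1 + 1) • T = 0 := by
              rw [succ_nsmul T (j + 1), h]; exact neg_add_cancel T
            exact hne (j + 1 + 1) (by omega) (by omega) this
        obtain ⟨-, -, e1, e2⟩ := xc_add_sub hP0 hT0 hxne
        have hadd : (j + 1) • T + T = (j + 1 + 1) • T := (succ_nsmul T (j + 1)).symm
        have hsub : (j + 1) • T - T = j • T := by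
          rw [succ_nsmul]; abel
        rw [hadd, hsub] at e1 e2
        obtain ⟨hx₃, -, c, hc, hcx⟩ := add_step_x A ha₂ ha₄ hxj1 hsm hxT htm e1 e2
        refine ⟨hx₃, 2 * c₁ + ((((j + 1 : ℕ) : K) ^ 2 + (xc T)⁻¹ * c₁)) * c - c₀,
          ?_, ?_⟩
        · refine sub_mem (A.add_mem _ _ (A.mul_mem _ _ (two_mem A) hc₁) ?_) hc₀
          refine A.mul_mem _ _ ?_ hc
          exact A.add_mem _ _ (pow_mem (natCast_mem A _) 2) (A.mul_mem _ _ htA hc₁)
        · have : (xc ((j + 1 + 1) • T))⁻¹ =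
              2 * ((xc ((j + 1) • T))⁻¹ + (xc T)⁻¹) +
                (xc ((j + 1) • T))⁻¹ * (xc T)⁻¹ * c - (xc (j • T))⁻¹ := by
            rw [← hcx]; ring
          rw [this, hcx₁, hcx₀]
          push_cast
          ring
  -- conclusion: `p = 2m+1`, `(m+1) T = -(m T)`
  obtain ⟨m, hm⟩ : ∃ m, p = 2 * m + 1 := by
    rcases hp.eq_two_or_odd' with h | h
    · exact absurd h hp2
    · exact h
  have hm1 : 1 ≤ m := by omega
  obtain ⟨-, c₀, hc₀, hcx₀⟩ := (claim m).1 hm1 (by omega)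
  obtain ⟨-, c₁, hc₁, hcx₁⟩ := (claim m).2 (by omega)
  have hneg : (m + 1) • T = -(m • T) := by
    rw [eq_neg_iff_add_eq_zero, ← add_nsmul]
    have : m + 1 + m = p := by omega
    rw [this, hT]
  rw [hneg, xc_neg, hcx₀] at hcx₁
  have ht0 : (xc T)⁻¹ ≠ 0 := inv_ne_zero hxT
  have hpeq : (p : K) = (xc T)⁻¹ * (c₀ - c₁) := by
    apply mul_left_cancel₀ ht0
    rw [hm]
    push_cast at hcx₁ ⊢
    linear_combination -hcx₁
  apply hpA
  rw [hpeq]
  exact mul_mem_nonunits_right A htm (sub_mem hc₀ hc₁)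

/-- `ℤ`-scalar version of `xc_mem_of_prime_nsmul_eq_zero` (the shape of `Submodule.torsionBy ℤ _ p`). -/
theorem xc_mem_of_prime_zsmul_eq_zero (ha₂ : a₂ ∈ A) (ha₄ : a₄ ∈ A) (h2 : (2 : K) ≠ 0)
    {p : ℕ} (hp : p.Prime) (hp2 : p ≠ 2) (hpA : (p : K) ∉ A.nonunits)
    {T : (shortW a₂ a₄).toAffine.Point} (hT : (p : ℤ) • T = 0) : xc T ∈ A :=
  xc_mem_of_prime_nsmul_eq_zero A ha₂ ha₄ h2 hp hp2 hpA (by rwa [natCast_zsmul] at hT)

/-- A `p`-torsion point which is `0` or has non-integral `x` is `0`. -/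
theorem eq_zero_of_xc_not_mem (ha₂ : a₂ ∈ A) (ha₄ : a₄ ∈ A) (h2 : (2 : K) ≠ 0)
    {p : ℕ} (hp : p.Prime) (hp2 : p ≠ 2) (hpA : (p : K) ∉ A.nonunits)
    {T : (shortW a₂ a₄).toAffine.Point} (hT : p • T = 0) (h : T = 0 ∨ xc T ∉ A) : T = 0 := by
  rcases h with h | h
  · exact h
  · exact absurd (xc_mem_of_prime_nsmul_eq_zero A ha₂ ha₄ h2 hp hp2 hpA hT) h

end points

end Fermat.Agent.S05.NoTorsionE1
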