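import Mathlib.RingTheory.Valuation.Integers
import Mathlib.GroupTheory.OrderOfElement
import Fermat.Agent.S05.XOnly

/-!
# S05 helper: torsion points of odd prime order `p` (with `v p = 1`) on the short model
`y² = x³ + a₂x² + a₄x` with integral coefficients have integral coordinates.

No formal groups: we use the quasi-parallelogram law for `ξ = 1/x`.
-/

set_option autoImplicit false

namespace Fermat.Agent.S05.NoTorsionE1V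

open WeierstrassCurve WeierstrassCurve.Affine Fermat.Agent.S05

variable {K : Type*} [Field K] {Γ₀ : Type*} [LinearOrderedCommGroupWithZero Γ₀]
  (v : Valuation K Γ₀)

lemma le_add {c : Γ₀} {a b : K} (ha : v a ≤ c) (hb : v b ≤ c) : v (a + b) ≤ c :=
  (v.map_add a b).trans (max_le ha hb)

lemma le_sub {c : Γ₀} {a b : K} (ha : v a ≤ c) (hb : v b ≤ c) : v (a - b) ≤ c :=
  (v.map_sub a b).trans (max_le ha hb)

lemma le_int_mul {c : Γ₀} {a e : K} (he : v e ≤ 1) (ha : v a ≤ c) : v (e * a) ≤ c := by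
  rw [map_mul]
  calc v e * v a ≤ 1 * c := mul_le_mul' he ha
    _ = c := one_mul c

lemma natCast_le_one (n : ℕ) : v (n : K) ≤ 1 :=
  (v.mem_integer_iff _).mp (natCast_mem _ n)

lemma sq_lt_one {c : Γ₀} (hc : c < 1) : c * c < 1 :=
  lt_of_le_of_lt (by simpa using mul_le_mul' (le_refl c) hc.le) hc

/-- The step of the quasi-parallelogram law. -/
theorem step_val {a₂ a₄ : K} (ha₂ : v a₂ ≤ 1) (ha₄ : v a₄ ≤ 1) {c : Γ₀} (hc : c < 1)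
    {x₁ x₂ xp xm : K} (hx₁ : x₁ ≠ 0) (hx₂ : x₂ ≠ 0) (h₁ : v x₁⁻¹ ≤ c) (h₂ : v x₂⁻¹ ≤ c)
    (hne : x₁ ≠ x₂)
    (hS : (xp + xm) * (x₁ - x₂) ^ 2 = 2 * ((x₁ + x₂) * (x₁ * x₂ + a₄) + 2 * a₂ * x₁ * x₂))
    (hP : xp * xm * (x₁ - x₂) ^ 2 = (x₁ * x₂ - a₄) ^ 2) :
    xp ≠ 0 ∧ xm ≠ 0 ∧ v (xp⁻¹ + xm⁻¹ - 2 * (x₁⁻¹ + x₂⁻¹)) ≤ c * c := by
  have hc1 : c ≤ 1 := hc.le
  have hξ₁ : v x₁⁻¹ ≤ 1 := h₁.trans hc1
  have hξ₂ : v x₂⁻¹ ≤ 1 := h₂.trans hc1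
  have hξξ : v (x₁⁻¹ * x₂⁻¹) ≤ c * c := by rw [map_mul]; exact mul_le_mul' h₁ h₂
  have ht : v (a₄ * (x₁⁻¹ * x₂⁻¹)) < 1 :=
    lt_of_le_of_lt (le_int_mul v ha₄ hξξ) (sq_lt_one hc)
  have hD : v (1 - a₄ * (x₁⁻¹ * x₂⁻¹)) = 1 := v.map_one_sub_of_lt ht
  have hD0 : 1 - a₄ * (x₁⁻¹ * x₂⁻¹) ≠ 0 := by
    intro h0; rw [h0, map_zero] at hD; exact zero_ne_one hD
  have hB : x₁ * x₂ - a₄ ≠ 0 := by
    have : x₁ * x₂ - a₄ = x₁ * x₂ * (1 - a₄ * (x₁⁻¹ * x₂⁻¹)) := by field_simp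
    rw [this]
    exact mul_ne_zero (mul_ne_zero hx₁ hx₂) hD0
  have hd : x₁ - x₂ ≠ 0 := sub_ne_zero.mpr hne
  have hpm : xp * xm ≠ 0 := by
    intro h0
    rw [h0, zero_mul] at hP
    exact hB ((pow_eq_zero_iff two_ne_zero).mp hP.symm)
  have hxp : xp ≠ 0 := left_ne_zero_of_mul hpm
  have hxm : xm ≠ 0 := right_ne_zero_of_mul hpm
  refine ⟨hxp, hxm, ?_⟩
  have e1 : xp⁻¹ + xm⁻¹ =
      2 * ((x₁ + x₂) * (x₁ * x₂ + a₄) + 2 * a₂ * x₁ * x₂) / (x₁ * x₂ - a₄) ^ 2 := by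
    rw [← hS, ← hP]
    field_simp
    ring
  have key : (xp⁻¹ + xm⁻¹ - 2 * (x₁⁻¹ + x₂⁻¹)) * (1 - a₄ * (x₁⁻¹ * x₂⁻¹)) ^ 2 =
      x₁⁻¹ * x₂⁻¹ *
        (2 * (x₁⁻¹ + x₂⁻¹) * (3 * a₄ - a₄ ^ 2 * (x₁⁻¹ * x₂⁻¹)) + 4 * a₂) := by
    rw [e1]
    field_simp
    ring
  have hE : v (2 * (x₁⁻¹ + x₂⁻¹) * (3 * a₄ - a₄ ^ 2 * (x₁⁻¹ * x₂⁻¹)) + 4 * a₂) ≤ 1 := by
    rw [← Valuation.mem_integer_iff] at ha₂ ha₄ hξ₁ hξ₂ ⊢
    aesop
  have hv := congrArg v key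
  rw [map_mul, map_pow, hD, one_pow, mul_one, map_mul] at hv
  rw [hv]
  calc v (x₁⁻¹ * x₂⁻¹) * v (2 * (x₁⁻¹ + x₂⁻¹) * (3 * a₄ - a₄ ^ 2 * (x₁⁻¹ * x₂⁻¹)) + 4 * a₂)
      ≤ (c * c) * 1 := mul_le_mul' hξξ hE
    _ = c * c := mul_one _


/-- If `1/x` is small then `y ≠ 0` on `y² = x³ + a₂x² + a₄x`. -/
theorem y_ne_zero_val {a₂ a₄ : K} (ha₂ : v a₂ ≤ 1) (ha₄ : v a₄ ≤ 1) {c : Γ₀} (hc : c < 1)
    {x y : K} (hx : x ≠ 0) (h₁ : v x⁻¹ ≤ c)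
    (hE : y ^ 2 = x ^ 3 + a₂ * x ^ 2 + a₄ * x) : y ≠ 0 := by
  have hξ : v x⁻¹ ≤ 1 := h₁.trans hc.le
  have ht : v (a₂ * x⁻¹ + a₄ * (x⁻¹ * x⁻¹)) < 1 := by
    refine lt_of_le_of_lt (le_add v (le_int_mul v ha₂ h₁) (le_int_mul v ha₄ ?_)) hc
    exact le_int_mul v hξ h₁
  have hD : v (1 + (a₂ * x⁻¹ + a₄ * (x⁻¹ * x⁻¹))) = 1 := v.map_one_add_of_lt ht
  have hD0 : 1 + (a₂ * x⁻¹ + a₄ * (x⁻¹ * x⁻¹)) ≠ 0 := by
    intro h0; rw [h0, map_zero] at hD; exact zero_ne_one hD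
  have : y ^ 2 = x ^ 3 * (1 + (a₂ * x⁻¹ + a₄ * (x⁻¹ * x⁻¹))) := by
    rw [hE]; field_simp; ring
  intro hy
  rw [hy] at this
  have h3 : x ^ 3 * (1 + (a₂ * x⁻¹ + a₄ * (x⁻¹ * x⁻¹))) ≠ 0 :=
    mul_ne_zero (pow_ne_zero 3 hx) hD0
  exact h3 (by rw [← this]; ring)

/-- The duplication step of the quasi-parallelogram law. -/
theorem dup_val {a₂ a₄ : K} (ha₂ : v a₂ ≤ 1) (ha₄ : v a₄ ≤ 1) {c : Γ₀} (hc : c < 1)
    {x y x' : K} (hx : x ≠ 0) (h₁ : v x⁻¹ ≤ c)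
    (hE : y ^ 2 = x ^ 3 + a₂ * x ^ 2 + a₄ * x)
    (hD : x' * (4 * y ^ 2) = (x ^ 2 - a₄) ^ 2) :
    x' ≠ 0 ∧ v (x'⁻¹ - 4 * x⁻¹) ≤ c * c := by
  have hξ : v x⁻¹ ≤ 1 := h₁.trans hc.le
  have hξξ : v (x⁻¹ * x⁻¹) ≤ c * c := by rw [map_mul]; exact mul_le_mul' h₁ h₁
  have ht : v (a₄ * (x⁻¹ * x⁻¹)) < 1 :=
    lt_of_le_of_lt (le_int_mul v ha₄ hξξ) (sq_lt_one hc)
  have hD1 : v (1 - a₄ * (x⁻¹ * x⁻¹)) = 1 := v.map_one_sub_of_lt ht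
  have hD0 : 1 - a₄ * (x⁻¹ * x⁻¹) ≠ 0 := by
    intro h0; rw [h0, map_zero] at hD1; exact zero_ne_one hD1
  have hB : x ^ 2 - a₄ ≠ 0 := by
    have : x ^ 2 - a₄ = x ^ 2 * (1 - a₄ * (x⁻¹ * x⁻¹)) := by field_simp
    rw [this]
    exact mul_ne_zero (pow_ne_zero 2 hx) hD0
  have hprod : x' * (4 * y ^ 2) ≠ 0 := by rw [hD]; exact pow_ne_zero 2 hB
  have hx' : x' ≠ 0 := left_ne_zero_of_mul hprod
  have h4y : 4 * y ^ 2 ≠ 0 := right_ne_zero_of_mul hprod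
  refine ⟨hx', ?_⟩
  have e1 : x'⁻¹ = 4 * (x ^ 3 + a₂ * x ^ 2 + a₄ * x) / (x ^ 2 - a₄) ^ 2 := by
    have h4 : (4 : K) ≠ 0 := left_ne_zero_of_mul h4y
    have hy : y ≠ 0 := fun h0 => right_ne_zero_of_mul h4y (by rw [h0]; ring)
    rw [← hD, ← hE]
    field_simp
  have key : (x'⁻¹ - 4 * x⁻¹) * (1 - a₄ * (x⁻¹ * x⁻¹)) ^ 2 =
      x⁻¹ * x⁻¹ * (4 * a₂ + 12 * a₄ * x⁻¹ - 4 * a₄ ^ 2 * (x⁻¹ * x⁻¹ * x⁻¹)) := by
    rw [e1]
    field_simp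
    ring
  have hE' : v (4 * a₂ + 12 * a₄ * x⁻¹ - 4 * a₄ ^ 2 * (x⁻¹ * x⁻¹ * x⁻¹)) ≤ 1 := by
    rw [← Valuation.mem_integer_iff] at ha₂ ha₄ hξ ⊢
    aesop
  have hv := congrArg v key
  rw [map_mul, map_pow, hD1, one_pow, mul_one, map_mul] at hv
  rw [hv]
  calc v (x⁻¹ * x⁻¹) * v (4 * a₂ + 12 * a₄ * x⁻¹ - 4 * a₄ ^ 2 * (x⁻¹ * x⁻¹ * x⁻¹))
      ≤ (c * c) * 1 := mul_le_mul' hξξ hE'
    _ = c * c := mul_one _


section Points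

variable [DecidableEq K]

omit [DecidableEq K] in
lemma eq_or_eq_neg_of_xc_eq {a₂ a₄ : K} {P Q : (shortW a₂ a₄).toAffine.Point}
    (hP : P ≠ 0) (hQ : Q ≠ 0) (h : xc P = xc Q) : P = Q ∨ P = -Q := by
  cases P with
  | zero => exact absurd rfl hP
  | some x₁ y₁ h₁ =>
    cases Q with
    | zero => exact absurd rfl hQ
    | some x₂ y₂ h₂ => exact Point.X_eq_iff.mp h

/-- A point of exact prime order `p`: `n • T ≠ ± T` for `2 ≤ n ≤ p - 2`. -/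
lemma nsmul_ne_self_and_neg {a₂ a₄ : K} {p : ℕ} (hp : p.Prime)
    {T : (shortW a₂ a₄).toAffine.Point} (hT : T ≠ 0) (hpT : p • T = 0) (k : ℕ)
    (hk : k + 3 < p) : (k + 2) • T ≠ T ∧ (k + 2) • T ≠ -T := by
  have : Fact p.Prime := ⟨hp⟩
  have hord : addOrderOf T = p := addOrderOf_eq_prime hpT hT
  constructor
  · intro h
    have h1 : (k + 1) • T = 0 := by
      have : (k + 1) • T + T = T := by rw [← succ_nsmul]; exact h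
      exact add_eq_right.mp this
    have hdvd : p ∣ k + 1 := by
      rw [← hord]; exact addOrderOf_dvd_iff_nsmul_eq_zero.mpr h1
    have := Nat.le_of_dvd (Nat.succ_pos k) hdvd
    omega
  · intro h
    have h1 : (k + 3) • T = 0 := by
      rw [succ_nsmul, h]; exact neg_add_cancel T
    have hdvd : p ∣ k + 3 := by
      rw [← hord]; exact addOrderOf_dvd_iff_nsmul_eq_zero.mpr h1
    have := Nat.le_of_dvd (Nat.succ_pos _) hdvd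
    omega

theorem xc_integral {a₂ a₄ : K} (h2 : (2 : K) ≠ 0) (ha₂ : v a₂ ≤ 1) (ha₄ : v a₄ ≤ 1) {p : ℕ}
    (hp : p.Prime) (hp2 : p ≠ 2) (hpv : v (p : K) = 1)
    {T : (shortW a₂ a₄).toAffine.Point} (hT : T ≠ 0) (hpT : p • T = 0) : v (xc T) ≤ 1 := by
  by_contra hcon
  have hx1 : 1 < v (xc T) := not_le.mp hcon
  have hx0 : xc T ≠ 0 := by
    intro h0; rw [h0, map_zero] at hx1; exact not_lt.mpr zero_le_one hx1
  have hvx0 : v (xc T) ≠ 0 := (Valuation.ne_zero_iff v).mpr hx0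
  set ξ : K := (xc T)⁻¹ with hξdef
  set c : Γ₀ := v ξ with hcdef
  have hc : c < 1 := by
    rw [hcdef, hξdef, map_inv₀]
    exact inv_lt_one_of_one_lt₀ hx1
  have hc0 : c ≠ 0 := by
    rw [hcdef, hξdef, map_inv₀]; exact inv_ne_zero hvx0
  have hcc : c * c ≤ c := by simpa using mul_le_mul' (le_refl c) hc.le
  -- the invariant
  let Good : ℕ → Prop := fun j =>
    j • T ≠ 0 ∧ xc (j • T) ≠ 0 ∧ v ((xc (j • T))⁻¹ - (j : K) ^ 2 * ξ) ≤ c * c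
  have hbound : ∀ j, Good j → v (xc (j • T))⁻¹ ≤ c := by
    intro j hj
    have : (xc (j • T))⁻¹ = ((xc (j • T))⁻¹ - (j : K) ^ 2 * ξ) + (j : K) ^ 2 * ξ := by ring
    rw [this]
    refine le_add v (hj.2.2.trans hcc) (le_int_mul v ?_ le_rfl)
    rw [map_pow]
    exact pow_le_one' (natCast_le_one v j) 2
  have hG1 : Good 1 := by
    refine ⟨by rwa [one_nsmul], by rwa [one_nsmul], ?_⟩
    rw [one_nsmul]
    have : (xc T)⁻¹ - ((1 : ℕ) : K) ^ 2 * ξ = 0 := by rw [hξdef]; push_cast; ring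
    rw [this, map_zero]
    exact zero_le
  have hG2 : Good 2 := by
    have hE := equation_xc_yc hT
    have hy : yc T ≠ 0 := y_ne_zero_val v ha₂ ha₄ hc hx0 le_rfl hE
    obtain ⟨hTT, hdup⟩ := xc_add_self h2 hT hy
    obtain ⟨hx', hval⟩ := dup_val v ha₂ ha₄ hc hx0 le_rfl hE hdup
    show 2 • T ≠ 0 ∧ xc (2 • T) ≠ 0 ∧ v ((xc (2 • T))⁻¹ - ((2 : ℕ) : K) ^ 2 * ξ) ≤ c * c
    rw [two_nsmul]
    refine ⟨hTT, hx', ?_⟩
    have : (xc (T + T))⁻¹ - ((2 : ℕ) : K) ^ 2 * ξ = (xc (T + T))⁻¹ - 4 * (xc T)⁻¹ := by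
      rw [hξdef]; push_cast; ring
    rw [this]
    exact hval
  have hstep : ∀ j, j + 3 < p → Good (j + 1) → Good (j + 2) → Good (j + 3) := by
    intro j hj hA hB
    obtain ⟨hne1, hne2⟩ := nsmul_ne_self_and_neg hp hT hpT j hj
    have hPQ : xc ((j + 2) • T) ≠ xc T := by
      intro h
      rcases eq_or_eq_neg_of_xc_eq hB.1 hT h with h | h
      · exact hne1 h
      · exact hne2 h
    obtain ⟨hadd0, hsub0, hS, hP⟩ := xc_add_sub hB.1 hT hPQ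
    have hadd : (j + 2) • T + T = (j + 3) • T := (succ_nsmul T (j + 2)).symm
    have hsub : (j + 2) • T - T = (j + 1) • T := by
      rw [succ_nsmul T (j + 1)]; exact add_sub_cancel_right _ _
    rw [hadd, hsub] at hS hP
    rw [hadd] at hadd0
    obtain ⟨hxp, hxm, hval⟩ :=
      step_val v ha₂ ha₄ hc hB.2.1 hx0 (hbound _ hB) le_rfl hPQ hS hP
    refine ⟨hadd0, hxp, ?_⟩
    have : (xc ((j + 3) • T))⁻¹ - ((j + 3 : ℕ) : K) ^ 2 * ξ =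
        ((xc ((j + 3) • T))⁻¹ + (xc ((j + 1) • T))⁻¹ - 2 * ((xc ((j + 2) • T))⁻¹ + (xc T)⁻¹))
        - ((xc ((j + 1) • T))⁻¹ - ((j + 1 : ℕ) : K) ^ 2 * ξ)
        + 2 * ((xc ((j + 2) • T))⁻¹ - ((j + 2 : ℕ) : K) ^ 2 * ξ) := by
      rw [hξdef]; push_cast; ring
    rw [this]
    refine le_add v (le_sub v hval hA.2.2) (le_int_mul v ?_ hB.2.2)
    exact_mod_cast natCast_le_one v 2
  have hall : ∀ j, j + 2 < p → Good (j + 1) ∧ Good (j + 2) := by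
    intro j
    induction j with
    | zero => intro _; exact ⟨hG1, hG2⟩
    | succ j ih =>
      intro hj
      obtain ⟨hA, hB⟩ := ih (by omega)
      exact ⟨hB, hstep j (by omega) hA hB⟩
  -- p = 2 m + 3
  obtain ⟨m, hm⟩ : ∃ m, p = 2 * m + 3 := by
    rcases hp.eq_two_or_odd' with h | ⟨k, hk⟩
    · exact absurd h hp2
    · have := hp.two_le
      exact ⟨k - 1, by omega⟩
  obtain ⟨hA, hB⟩ := hall m (by omega)
  have hneg : (m + 2) • T = -((m + 1) • T) := by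
    apply eq_neg_of_add_eq_zero_left
    rw [← add_nsmul]
    have : m + 2 + (m + 1) = p := by omega
    rw [this, hpT]
  have hxeq : xc ((m + 2) • T) = xc ((m + 1) • T) := by rw [hneg, xc_neg]
  have h1 := hA.2.2
  have h2' := hB.2.2
  rw [hxeq] at h2'
  have hdiff : (p : K) * ξ = ((xc ((m + 1) • T))⁻¹ - ((m + 1 : ℕ) : K) ^ 2 * ξ)
      - ((xc ((m + 1) • T))⁻¹ - ((m + 2 : ℕ) : K) ^ 2 * ξ) := by
    rw [hm]; push_cast; ring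
  have hfin : v ((p : K) * ξ) ≤ c * c := by
    rw [hdiff]; exact le_sub v h1 h2'
  rw [map_mul, hpv, one_mul] at hfin
  have hlt : c * c < c := by
    have := mul_lt_mul_of_pos_left hc (zero_lt_iff.mpr hc0)
    simpa using this
  exact absurd hfin (not_le.mpr hlt)

theorem yc_integral {a₂ a₄ : K} (h2 : (2 : K) ≠ 0) (ha₂ : v a₂ ≤ 1) (ha₄ : v a₄ ≤ 1) {p : ℕ}
    (hp : p.Prime) (hp2 : p ≠ 2) (hpv : v (p : K) = 1)
    {T : (shortW a₂ a₄).toAffine.Point} (hT : T ≠ 0) (hpT : p • T = 0) : v (yc T) ≤ 1 := by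
  have hx := xc_integral v h2 ha₂ ha₄ hp hp2 hpv hT hpT
  have hE := equation_xc_yc hT
  have hy2 : v (yc T ^ 2) ≤ 1 := by
    rw [hE]
    rw [← Valuation.mem_integer_iff] at ha₂ ha₄ hx ⊢
    aesop
  by_contra hcon
  have h1 : 1 < v (yc T) := not_le.mp hcon
  have : 1 < v (yc T ^ 2) := by
    rw [map_pow, pow_two]; exact Right.one_lt_mul' h1 h1
  exact absurd hy2 (not_le.mpr this)

end Points

end Fermat.Agent.S05.NoTorsionE1V
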