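import Mathlib.RingTheory.Valuation.Basic

/-!
# S05: shared definition for the raw valuation law (owner: helper40)

`clamp m g = max m (min 1 g)`: the value `g` clamped to the interval `[m, 1]`
(multiplicative notation for valuations).
-/

set_option autoImplicit false

namespace Fermat.Agent.S05.VLawRaw

variable {Γ₀ : Type*} [LinearOrderedCommGroupWithZero Γ₀]

/-- clamp of a value to `[m, 1]` (multiplicative notation). -/
def clamp (m g : Γ₀) : Γ₀ := max m (min 1 g)

lemma clamp_def (m g : Γ₀) : clamp m g = max m (min 1 g) := rfl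

/-- if `g ≤ m` then the clamp is `m`. -/
lemma clamp_of_le {m g : Γ₀} (hm : m ≤ 1) (h : g ≤ m) : clamp m g = m := by
  unfold clamp
  rw [min_eq_right (h.trans hm), max_eq_left h]

/-- if `1 ≤ g` (and `m ≤ 1`) then the clamp is `1`. -/
lemma clamp_of_one_le {m g : Γ₀} (hm : m ≤ 1) (h : 1 ≤ g) : clamp m g = 1 := by
  unfold clamp
  rw [min_eq_left h, max_eq_right hm]

/-- if `m ≤ g ≤ 1` then the clamp is `g`. -/
lemma clamp_of_mem {m g : Γ₀} (h₁ : m ≤ g) (h₂ : g ≤ 1) : clamp m g = g := by
  unfold clamp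
  rw [min_eq_right h₂, max_eq_right h₁]

lemma le_clamp (m g : Γ₀) : m ≤ clamp m g := le_max_left _ _

lemma clamp_le_one {m : Γ₀} (hm : m ≤ 1) (g : Γ₀) : clamp m g ≤ 1 :=
  max_le hm (min_le_left _ _)

end Fermat.Agent.S05.VLawRaw
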