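/-
S05, raw valuation law, case "both points reduce to the node, equal valuations".
Pure valuation computation.  Owner: helper25.
-/
import Mathlib.RingTheory.Valuation.Basic
import Fermat.Agent.S05.VLawRawDefs

set_option autoImplicit false

namespace Fermat.Agent.S05.VLawRaw

variable {K : Type*} [Field K] {Γ₀ : Type*} [LinearOrderedCommGroupWithZero Γ₀] (v : Valuation K Γ₀)

/-- local Vieta lemma (strict case), kept private to this file. -/
theorem eq_aux_vieta_strict {r₁ r₂ : K} (h : v (r₁ * r₂) < v (r₁ + r₂) ^ 2) :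
    (v r₁ = v (r₁ + r₂) ∧ v r₂ * v (r₁ + r₂) = v (r₁ * r₂)) ∨
    (v r₂ = v (r₁ + r₂) ∧ v r₁ * v (r₁ + r₂) = v (r₁ * r₂)) := by
  rcases lt_trichotomy (v r₁) (v r₂) with h12 | h12 | h12
  · right
    have hs : v (r₁ + r₂) = v r₂ := v.map_add_eq_of_lt_right h12
    refine ⟨hs.symm, ?_⟩
    rw [hs, map_mul]
  · exfalso
    have hs : v (r₁ + r₂) ≤ v r₁ := by
      have := v.map_add r₁ r₂
      rwa [← h12, max_self] at this
    have : v (r₁ + r₂) ^ 2 ≤ v (r₁ * r₂) := by
      rw [map_mul, ← h12, ← sq]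
      exact pow_le_pow_left₀ zero_le hs 2
    exact absurd h (not_lt.mpr this)
  · left
    have hs : v (r₁ + r₂) = v r₁ := v.map_add_eq_of_lt_left h12
    refine ⟨hs.symm, ?_⟩
    rw [hs, map_mul, mul_comm]

end Fermat.Agent.S05.VLawRaw

namespace Fermat.Agent.S05.VLawRaw

variable {K : Type*} [Field K] {Γ₀ : Type*} [LinearOrderedCommGroupWithZero Γ₀] (v : Valuation K Γ₀)

/-- `clamp m g = 1` as soon as `1 ≤ g` and `m ≤ 1`. -/
lemma eq_aux_clamp_eq_one {m g : Γ₀} (hm : m ≤ 1) (hg : 1 ≤ g) : clamp m g = 1 := by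
  unfold clamp
  rw [min_eq_left hg, max_eq_right hm]

/-- if `s * d^2 = n`, `d ≠ 0` and `d^2 ≤ n` then `1 ≤ s`. -/
lemma eq_aux_one_le {s d n : Γ₀} (hd : d ≠ 0) (h : s * d ^ 2 = n) (hdn : d ^ 2 ≤ n) : 1 ≤ s := by
  by_contra hlt
  rw [not_le] at hlt
  have hd2 : 0 < d ^ 2 := pow_pos (zero_lt_iff.mpr hd) 2
  have : s * d ^ 2 < 1 * d ^ 2 := mul_lt_mul_of_pos_right hlt hd2
  rw [one_mul, h] at this
  exact absurd hdn (not_le.mpr this)

theorem case_eq {α β x₁ x₂ xp xm : K} (hα0 : α ≠ 0) (hα : v α < 1) (hβ : v β = 1)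
    (h2 : v (2 : K) = 1) (hx : x₁ ≠ x₂) (h₁ : v x₁ < 1) (h₁₂ : v x₂ = v x₁) (hx₂ : x₂ ≠ 0)
    (hS : (xp + xm) * (x₁ - x₂) ^ 2 =
      2 * ((x₁ + x₂) * (x₁ * x₂ + -(α * β)) + 2 * (β - α) * x₁ * x₂))
    (hP : xp * xm * (x₁ - x₂) ^ 2 = (x₁ * x₂ - -(α * β)) ^ 2) :
    let c₁ := clamp (v α) (v x₁)
    (clamp (v α) (v xp) = max (c₁ * c₁) (v α ^ 2 / (c₁ * c₁)) ∧ clamp (v α) (v xm) = 1) ∨
    (clamp (v α) (v xp) = 1 ∧ clamp (v α) (v xm) = max (c₁ * c₁) (v α ^ 2 / (c₁ * c₁))) := by
  intro c₁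
  -- basic quantities
  set a : Γ₀ := v α with ha_def
  set g : Γ₀ := v x₁ with hg_def
  set d : Γ₀ := v (x₁ - x₂) with hd_def
  have ha0 : a ≠ 0 := (v.ne_zero_iff).mpr hα0
  have hapos : 0 < a := zero_lt_iff.mpr ha0
  have hg0 : g ≠ 0 := by
    rw [← h₁₂]; exact (v.ne_zero_iff).mpr hx₂
  have hgpos : 0 < g := zero_lt_iff.mpr hg0
  have hd0 : d ≠ 0 := (v.ne_zero_iff).mpr (sub_ne_zero.mpr hx)
  have hdpos : 0 < d := zero_lt_iff.mpr hd0
  have hdg : d ≤ g := by
    have := v.map_sub x₁ x₂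
    rwa [h₁₂, max_self] at this
  have hd2pos : 0 < d ^ 2 := pow_pos hdpos 2
  have hale1 : a ≤ 1 := le_of_lt hα
  -- the unit u
  have hsum_le : v (x₁ + x₂) ≤ g := by
    have := v.map_add x₁ x₂
    rwa [h₁₂, max_self] at this
  have h2β : v (2 * β) = 1 := by rw [map_mul, h2, hβ, one_mul]
  have h2α : v (2 * α) < 1 := by rw [map_mul, h2, one_mul]; exact hα
  have hu : v (x₁ + x₂ + 2 * β - 2 * α) = 1 := by
    have e : x₁ + x₂ + 2 * β - 2 * α = 2 * β + (x₁ + x₂ - 2 * α) := by ring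
    rw [e]
    have hlt : v (x₁ + x₂ - 2 * α) < v (2 * β) := by
      rw [h2β]
      exact v.map_sub_lt (lt_of_le_of_lt hsum_le h₁) h2α
    rw [v.map_add_eq_of_lt_left hlt, h2β]
  -- N
  have hN : 2 * ((x₁ + x₂) * (x₁ * x₂ + -(α * β)) + 2 * (β - α) * x₁ * x₂) =
      2 * (x₁ * x₂ * (x₁ + x₂ + 2 * β - 2 * α) - α * β * (x₁ + x₂)) := by ring
  have hfirst : v (x₁ * x₂ * (x₁ + x₂ + 2 * β - 2 * α)) = g ^ 2 := by
    rw [map_mul, map_mul, hu, h₁₂, mul_one, sq]
  have hsecond : v (α * β * (x₁ + x₂)) ≤ a * g := by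
    rw [map_mul, map_mul, hβ, mul_one]
    exact mul_le_mul_right hsum_le a
  have hSv : v (xp + xm) * d ^ 2 =
      v (x₁ * x₂ * (x₁ + x₂ + 2 * β - 2 * α) - α * β * (x₁ + x₂)) := by
    have := congrArg v hS
    rw [hN, map_mul, map_mul, v.map_pow, h2, one_mul] at this
    exact this
  have hPv : v (xp * xm) * d ^ 2 = v (x₁ * x₂ + α * β) ^ 2 := by
    have := congrArg v hP
    rw [map_mul, v.map_pow, v.map_pow, sub_neg_eq_add] at this
    exact this
  have hx12 : v (x₁ * x₂) = g ^ 2 := by rw [map_mul, h₁₂, sq]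
  have hαβ : v (α * β) = a := by rw [map_mul, hβ, mul_one]
  rcases lt_or_ge a g with hag | hga
  · -- Case A : a < g
    have hc₁ : c₁ = g := by
      show clamp a g = g
      unfold clamp
      rw [min_eq_right (le_of_lt h₁), max_eq_right (le_of_lt hag)]
    have hNv : v (x₁ * x₂ * (x₁ + x₂ + 2 * β - 2 * α) - α * β * (x₁ + x₂)) = g ^ 2 := by
      have hlt : v (α * β * (x₁ + x₂)) < v (x₁ * x₂ * (x₁ + x₂ + 2 * β - 2 * α)) := by
        rw [hfirst, sq]
        exact lt_of_le_of_lt hsecond (mul_lt_mul_of_pos_right hag hgpos)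
      rw [v.map_sub_eq_of_lt_left hlt, hfirst]
    rw [hNv] at hSv
    set k : Γ₀ := v (x₁ * x₂ + α * β) with hk_def
    have hg2g : g ^ 2 < g := by
      rw [sq]; calc g * g < 1 * g := mul_lt_mul_of_pos_right h₁ hgpos
        _ = g := one_mul g
    have hkg : k < g := by
      have := v.map_add (x₁ * x₂) (α * β)
      rw [hx12, hαβ] at this
      exact lt_of_le_of_lt this (max_lt hg2g hag)
    -- strict Vieta hypothesis
    have hstrict : v (xp * xm) < v (xp + xm) ^ 2 := by
      have h1 : v (xp * xm) * (d ^ 2 * d ^ 2) < v (xp + xm) ^ 2 * (d ^ 2 * d ^ 2) := by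
        have e1 : v (xp * xm) * (d ^ 2 * d ^ 2) = (k * d) ^ 2 := by
          rw [← mul_assoc, hPv, mul_pow]
        have e2 : v (xp + xm) ^ 2 * (d ^ 2 * d ^ 2) = (g * g) ^ 2 := by
          have : v (xp + xm) ^ 2 * (d ^ 2 * d ^ 2) = (v (xp + xm) * d ^ 2) ^ 2 := by
            rw [mul_pow, ← sq (d ^ 2)]
          rw [this, hSv, sq g]
        rw [e1, e2]
        have hkd : k * d < g * g :=
          lt_of_le_of_lt (mul_le_mul_right hdg k) (mul_lt_mul_of_pos_right hkg hgpos)
        exact pow_lt_pow_left₀ hkd zero_le (by norm_num)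
      exact lt_of_mul_lt_mul_right h1 zero_le
    have hSge : 1 ≤ v (xp + xm) := by
      refine eq_aux_one_le hd0 hSv ?_
      exact pow_le_pow_left₀ zero_le hdg 2
    -- the value of the other root
    have hother : ∀ y : Γ₀, y * v (xp + xm) = v (xp * xm) →
        clamp a y = max (c₁ * c₁) (a ^ 2 / (c₁ * c₁)) := by
      intro y hy
      have hyk : y * g ^ 2 = k ^ 2 := by
        have : y * v (xp + xm) * d ^ 2 = k ^ 2 := by rw [hy, hPv]
        rw [mul_assoc, hSv] at this
        exact this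
      rw [hc₁]
      have hg2pos : 0 < g ^ 2 := pow_pos hgpos 2
      have hgg0 : g * g ≠ 0 := mul_ne_zero hg0 hg0
      rcases lt_trichotomy (g ^ 2) a with hlt | heq | hgt
      · -- g^2 < a : k = a, y = a^2/g^2
        have hk : k = a := by
          rw [hk_def]
          have : v (x₁ * x₂) < v (α * β) := by rw [hx12, hαβ]; exact hlt
          rw [v.map_add_eq_of_lt_right this, hαβ]
        rw [hk] at hyk
        have hy' : y = a ^ 2 / (g * g) := by
          rw [eq_div_iff hgg0, ← sq]; exact hyk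
        have hyle1 : y ≤ 1 := by
          rw [hy', div_le_one₀ (mul_pos hgpos hgpos), sq]
          exact mul_le_mul' (le_of_lt hag) (le_of_lt hag)
        have hay : a ≤ y := by
          rw [hy', le_div_iff₀ (mul_pos hgpos hgpos), sq, ← sq g]
          exact mul_le_mul_right (le_of_lt hlt) a
        have hggy : g * g ≤ y := by
          rw [← sq]
          exact le_trans (le_of_lt hlt) hay
        unfold clamp
        rw [min_eq_right hyle1, max_eq_right hay, ← hy', max_eq_right hggy]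
      · -- g^2 = a
        have hk : k ≤ a := by
          have := v.map_add (x₁ * x₂) (α * β)
          rwa [hx12, hαβ, heq, max_self] at this
        have hya : y ≤ a := by
          have h1 : y * g ^ 2 ≤ a * g ^ 2 := by
            rw [hyk]
            calc k ^ 2 ≤ a ^ 2 := pow_le_pow_left₀ zero_le hk 2
              _ = a * g ^ 2 := by rw [heq, sq]
          exact le_of_mul_le_mul_right h1 hg2pos
        have hT : max (g * g) (a ^ 2 / (g * g)) = a := by
          rw [← sq g, heq, sq a, mul_div_assoc, div_self ha0, mul_one, max_self]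
        rw [hT]
        unfold clamp
        exact max_eq_left (le_trans (min_le_right _ _) hya)
      · -- a < g^2 : k = g^2, y = g^2
        have hk : k = g ^ 2 := by
          rw [hk_def]
          have : v (α * β) < v (x₁ * x₂) := by rw [hx12, hαβ]; exact hgt
          rw [v.map_add_eq_of_lt_left this, hx12]
        rw [hk] at hyk
        have hy' : y = g * g := by
          have : y * g ^ 2 = (g * g) * g ^ 2 := by rw [hyk, sq (g ^ 2), sq g]
          exact mul_right_cancel₀ (ne_of_gt hg2pos) this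
        have hyle1 : y ≤ 1 := by
          rw [hy']; exact le_trans (le_of_lt (by rw [← sq]; exact hg2g)) (le_of_lt h₁)
        have hay : a ≤ y := by rw [hy', ← sq]; exact le_of_lt hgt
        have hle : a ^ 2 / (g * g) ≤ g * g := by
          rw [div_le_iff₀ (mul_pos hgpos hgpos), sq, ← sq g]
          exact mul_le_mul' (le_of_lt hgt) (le_of_lt hgt)
        unfold clamp
        rw [min_eq_right hyle1, max_eq_right hay, hy', max_eq_left hle]
    rcases eq_aux_vieta_strict v hstrict with ⟨hp, hm⟩ | ⟨hm, hp⟩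
    · right
      refine ⟨?_, hother _ hm⟩
      rw [hp]; exact eq_aux_clamp_eq_one hale1 hSge
    · left
      refine ⟨hother _ hp, ?_⟩
      rw [hm]; exact eq_aux_clamp_eq_one hale1 hSge
  · -- Case B : g ≤ a
    have hc₁ : c₁ = a := by
      show clamp a g = a
      unfold clamp
      rw [min_eq_right (le_of_lt h₁), max_eq_left hga]
    have hT : max (c₁ * c₁) (a ^ 2 / (c₁ * c₁)) = 1 := by
      rw [hc₁, ← sq, div_self (pow_ne_zero 2 ha0)]
      exact max_eq_right (pow_le_one₀ zero_le hale1)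
    rw [hT]
    have hk : v (x₁ * x₂ + α * β) = a := by
      have : v (x₁ * x₂) < v (α * β) := by
        rw [hx12, hαβ, sq]
        calc g * g ≤ a * g := mul_le_mul_left hga g
          _ < a * 1 := mul_lt_mul_of_pos_left h₁ hapos
          _ = a := mul_one a
      rw [v.map_add_eq_of_lt_right this, hαβ]
    rw [hk] at hPv
    have hda : d ^ 2 ≤ a ^ 2 := pow_le_pow_left₀ zero_le (le_trans hdg hga) 2
    have hPge : 1 ≤ v (xp * xm) := eq_aux_one_le hd0 hPv hda
    have hSP : v (xp + xm) ≤ v (xp * xm) := by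
      have h1 : v (xp + xm) * d ^ 2 ≤ v (xp * xm) * d ^ 2 := by
        rw [hSv, hPv]
        refine v.map_sub_le ?_ ?_
        · rw [hfirst]; exact pow_le_pow_left₀ zero_le hga 2
        · refine le_trans hsecond ?_
          rw [sq]; exact mul_le_mul_right hga a
      exact le_of_mul_le_mul_right h1 hd2pos
    have hPne : v (xp * xm) ≠ 0 := ne_of_gt (lt_of_lt_of_le one_pos hPge)
    rw [map_mul] at hPne
    have hxp0 : v xp ≠ 0 := left_ne_zero_of_mul hPne
    have hxm0 : v xm ≠ 0 := right_ne_zero_of_mul hPne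
    -- both roots have valuation ≥ 1
    have key : ∀ r s : K, v r ≠ 0 → v s ≠ 0 → 1 ≤ v (r * s) → v (r + s) ≤ v (r * s) → 1 ≤ v r := by
      intro r s hr0 hs0 hge hle
      by_contra hlt
      rw [not_le] at hlt
      have h1 : v (r * s) < v s := by
        rw [map_mul]
        calc v r * v s < 1 * v s := mul_lt_mul_of_pos_right hlt (zero_lt_iff.mpr hs0)
          _ = v s := one_mul _
      have h2' : v r < v s := lt_trans hlt (lt_of_le_of_lt hge h1)
      have h3 : v (r + s) = v s := v.map_add_eq_of_lt_right h2'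
      rw [h3] at hle
      exact absurd hle (not_le.mpr h1)
    have hxp1 : 1 ≤ v xp := key xp xm hxp0 hxm0 hPge hSP
    have hxm1 : 1 ≤ v xm := by
      refine key xm xp hxm0 hxp0 ?_ ?_
      · rwa [mul_comm]
      · rwa [add_comm, mul_comm]
    left
    exact ⟨eq_aux_clamp_eq_one hale1 hxp1, eq_aux_clamp_eq_one hale1 hxm1⟩

end Fermat.Agent.S05.VLawRaw
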