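import Mathlib.RingTheory.Valuation.Basic
import Fermat.Agent.S05.VLawRawDefs

set_option autoImplicit false

namespace Fermat.Agent.S05.VLawRaw

namespace NeAux

section Order

variable {Γ₀ : Type*} [LinearOrderedCommGroupWithZero Γ₀]

theorem clamp_mid {m g : Γ₀} (h1 : m ≤ g) (h2 : g ≤ 1) : clamp m g = g := by
  unfold clamp
  rw [min_eq_right h2, max_eq_right h1]

theorem clamp_low {m g : Γ₀} (h : g ≤ m) : clamp m g = m := by
  unfold clamp
  exact max_eq_left ((min_le_right _ _).trans h)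

theorem clamp_high {m g : Γ₀} (h : 1 ≤ g) (hm : m ≤ 1) : clamp m g = 1 := by
  unfold clamp
  rw [min_eq_left h, max_eq_right hm]

end Order

section Vieta

variable {K : Type*} [Field K] {Γ₀ : Type*} [LinearOrderedCommGroupWithZero Γ₀] (v : Valuation K Γ₀)

theorem vieta_strict {r₁ r₂ : K} (h : v (r₁ * r₂) < v (r₁ + r₂) ^ 2) :
    (v r₁ = v (r₁ + r₂) ∧ v r₂ * v (r₁ + r₂) = v (r₁ * r₂)) ∨
    (v r₂ = v (r₁ + r₂) ∧ v r₁ * v (r₁ + r₂) = v (r₁ * r₂)) := by
  rcases lt_trichotomy (v r₁) (v r₂) with hlt | heq | hgt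
  · right
    have hs : v (r₁ + r₂) = v r₂ := Valuation.map_add_eq_of_lt_right v hlt
    exact ⟨hs.symm, by rw [hs, map_mul]⟩
  · exfalso
    have hs : v (r₁ + r₂) ≤ v r₁ := Valuation.map_add_le v le_rfl heq.ge
    have : v (r₁ + r₂) ^ 2 ≤ v (r₁ * r₂) := by
      rw [map_mul, ← heq, ← sq]
      exact pow_le_pow_left₀ zero_le hs 2
    exact absurd h (not_lt.mpr this)
  · left
    have hs : v (r₁ + r₂) = v r₁ := Valuation.map_add_eq_of_lt_left v hgt
    exact ⟨hs.symm, by rw [hs, map_mul, mul_comm]⟩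

theorem vieta_nonstrict {r₁ r₂ : K} (h : v (r₁ + r₂) ^ 2 ≤ v (r₁ * r₂)) :
    v r₁ = v r₂ ∧ v r₁ ^ 2 = v (r₁ * r₂) := by
  rcases lt_trichotomy (v r₁) (v r₂) with hlt | heq | hgt
  · exfalso
    have hs : v (r₁ + r₂) = v r₂ := Valuation.map_add_eq_of_lt_right v hlt
    have hpos : 0 < v r₂ := lt_of_le_of_lt zero_le hlt
    have : v (r₁ * r₂) < v (r₁ + r₂) ^ 2 := by
      rw [hs, map_mul, sq]
      exact mul_lt_mul_of_pos_right hlt hpos
    exact absurd h (not_le.mpr this)
  · exact ⟨heq, by rw [map_mul, ← heq, sq]⟩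
  · exfalso
    have hs : v (r₁ + r₂) = v r₁ := Valuation.map_add_eq_of_lt_left v hgt
    have hpos : 0 < v r₁ := lt_of_le_of_lt zero_le hgt
    have : v (r₁ * r₂) < v (r₁ + r₂) ^ 2 := by
      rw [hs, map_mul, sq]
      exact mul_lt_mul_of_pos_left hgt hpos
    exact absurd h (not_le.mpr this)

end Vieta

end NeAux

section Main

variable {K : Type*} [Field K] {Γ₀ : Type*} [LinearOrderedCommGroupWithZero Γ₀] (v : Valuation K Γ₀)

theorem case_ne {α β x₁ x₂ xp xm : K} (hα0 : α ≠ 0) (hα : v α < 1) (hβ : v β = 1)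
    (h2 : v (2 : K) = 1) (h₁ : v x₁ < 1) (h₁₂ : v x₂ < v x₁) (hx₂ : x₂ ≠ 0)
    (hS : (xp + xm) * (x₁ - x₂) ^ 2 =
      2 * ((x₁ + x₂) * (x₁ * x₂ + -(α * β)) + 2 * (β - α) * x₁ * x₂))
    (hP : xp * xm * (x₁ - x₂) ^ 2 = (x₁ * x₂ - -(α * β)) ^ 2) :
    let c₁ := clamp (v α) (v x₁); let c₂ := clamp (v α) (v x₂)
    (clamp (v α) (v xp) = max (c₁ * c₂) (v α ^ 2 / (c₁ * c₂)) ∧
        clamp (v α) (v xm) = min (c₁ / c₂) (c₂ / c₁)) ∨
    (clamp (v α) (v xp) = min (c₁ / c₂) (c₂ / c₁) ∧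
        clamp (v α) (v xm) = max (c₁ * c₂) (v α ^ 2 / (c₁ * c₂))) := by
  intro c₁ c₂
  -- abbreviations
  set a := v α with ha
  set g₁ := v x₁ with hg₁
  set g₂ := v x₂ with hg₂
  have ha0 : 0 < a := (Valuation.pos_iff v).mpr hα0
  have hg2pos : 0 < g₂ := (Valuation.pos_iff v).mpr hx₂
  have hg1pos : 0 < g₁ := lt_trans hg2pos h₁₂
  have hg1ne : g₁ ≠ 0 := hg1pos.ne'
  have hg2ne : g₂ ≠ 0 := hg2pos.ne'
  have ha_ne : a ≠ 0 := ha0.ne'
  have hg2lt1 : g₂ < 1 := lt_trans h₁₂ h₁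
  -- valuations of basic combinations
  have hd : v (x₁ - x₂) = g₁ := Valuation.map_sub_eq_of_lt_left v h₁₂
  have hsum : v (x₁ + x₂) = g₁ := Valuation.map_add_eq_of_lt_left v h₁₂
  have h2β : v (2 * β) = 1 := by rw [map_mul, h2, hβ, one_mul]
  have h2α : v (2 * α) = a := by rw [map_mul, h2, one_mul]
  have hu : v (x₁ + x₂ + 2 * β - 2 * α) = 1 := by
    have e : x₁ + x₂ + 2 * β - 2 * α = (x₁ + x₂ - 2 * α) + 2 * β := by ring
    rw [e]
    have hlt : v (x₁ + x₂ - 2 * α) < v (2 * β) := by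
      rw [h2β]
      exact Valuation.map_sub_lt v (by rw [hsum]; exact h₁) (by rw [h2α]; exact hα)
    rw [Valuation.map_add_eq_of_lt_right v hlt, h2β]
  have hx12 : v (x₁ * x₂) = g₁ * g₂ := map_mul v x₁ x₂
  have hαβ : v (α * β) = a := by rw [map_mul, hβ, mul_one]
  -- the two auxiliary quantities
  have hA : v (x₁ * x₂ * (x₁ + x₂ + 2 * β - 2 * α)) = g₁ * g₂ := by
    rw [map_mul, hu, mul_one, hx12]
  have hB : v (α * β * (x₁ + x₂)) = a * g₁ := by rw [map_mul, hαβ, hsum]
  have hNeq : (x₁ + x₂) * (x₁ * x₂ + -(α * β)) + 2 * (β - α) * x₁ * x₂ =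
      x₁ * x₂ * (x₁ + x₂ + 2 * β - 2 * α) - α * β * (x₁ + x₂) := by ring
  have hWeq : x₁ * x₂ - -(α * β) = x₁ * x₂ + α * β := by ring
  -- the Vieta relations in the value group
  have hS' : v (xp + xm) * g₁ ^ 2 =
      v (x₁ * x₂ * (x₁ + x₂ + 2 * β - 2 * α) - α * β * (x₁ + x₂)) := by
    have := congrArg v hS
    rw [map_mul, map_pow, hd, map_mul, h2, one_mul, hNeq] at this
    exact this
  have hP' : v (xp * xm) * g₁ ^ 2 = v (x₁ * x₂ + α * β) ^ 2 := by
    have := congrArg v hP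
    rw [map_mul, map_pow, hd, hWeq, map_pow] at this
    exact this
  have hg1sq_pos : 0 < g₁ ^ 2 := pow_pos hg1pos 2
  have hg1sq_ne : g₁ ^ 2 ≠ 0 := hg1sq_pos.ne'
  have hale1 : a ≤ 1 := hα.le
  rcases lt_or_ge a g₂ with hag2 | hag2
  · -- Case A : a < g₂ < g₁
    have hag1 : a < g₁ := lt_trans hag2 h₁₂
    have hc₁ : c₁ = g₁ := NeAux.clamp_mid hag1.le h₁.le
    have hc₂ : c₂ = g₂ := NeAux.clamp_mid hag2.le hg2lt1.le
    have hN : v (x₁ * x₂ * (x₁ + x₂ + 2 * β - 2 * α) - α * β * (x₁ + x₂)) = g₁ * g₂ := by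
      have hlt : v (α * β * (x₁ + x₂)) < v (x₁ * x₂ * (x₁ + x₂ + 2 * β - 2 * α)) := by
        rw [hA, hB, mul_comm g₁ g₂]
        exact mul_lt_mul_of_pos_right hag2 hg1pos
      rw [Valuation.map_sub_eq_of_lt_left v hlt, hA]
    -- v Σ = g₂ / g₁
    have hs : v (xp + xm) = g₂ / g₁ := by
      rw [hN] at hS'
      rw [eq_div_iff hg1ne]
      apply mul_right_cancel₀ hg1ne
      rw [mul_assoc, ← sq, hS', mul_comm]
    have hT2 : min (c₁ / c₂) (c₂ / c₁) = g₂ / g₁ := by
      rw [hc₁, hc₂]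
      apply min_eq_right
      have h1 : g₂ / g₁ ≤ 1 := (div_le_one₀ hg1pos).mpr h₁₂.le
      have h2 : 1 ≤ g₁ / g₂ := (one_le_div₀ hg2pos).mpr h₁₂.le
      exact h1.trans h2
    have hs_clamp : clamp a (g₂ / g₁) = g₂ / g₁ := by
      apply NeAux.clamp_mid
      · rw [le_div_iff₀ hg1pos]
        exact (mul_le_of_le_one_right ha0.le h₁.le).trans hag2.le
      · exact (div_le_one₀ hg1pos).mpr h₁₂.le
    have hsne : g₂ / g₁ ≠ 0 := div_ne_zero hg2ne hg1ne
    -- relation for the other root: r' * (g₂ / g₁) = v Π  ⇒  r' * (g₁ * g₂) = w ^ 2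
    have hother : ∀ r' : Γ₀, r' * v (xp + xm) = v (xp * xm) →
        r' * (g₁ * g₂) = v (x₁ * x₂ + α * β) ^ 2 := by
      intro r' hr'
      rw [← hP', ← hr', hs, mul_assoc r', sq, ← mul_assoc (g₂ / g₁), div_mul_cancel₀ _ hg1ne,
        mul_comm g₂ g₁]
    -- the value of T1 and of the clamp of the other root
    have hkey : ∀ r' : Γ₀, r' * v (xp + xm) = v (xp * xm) →
        clamp a r' = max (c₁ * c₂) (a ^ 2 / (c₁ * c₂)) := by
      intro r' hr'
      have hr := hother r' hr'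
      rw [hc₁, hc₂]
      have htpos : 0 < g₁ * g₂ := mul_pos hg1pos hg2pos
      rcases lt_trichotomy a (g₁ * g₂) with hlt | heq | hgt
      · -- (i)
        have hw : v (x₁ * x₂ + α * β) = g₁ * g₂ := by
          rw [Valuation.map_add_eq_of_lt_left v (by rw [hx12, hαβ]; exact hlt), hx12]
        rw [hw, sq] at hr
        have hr'' : r' = g₁ * g₂ := mul_right_cancel₀ htpos.ne' hr
        have hT1 : max (g₁ * g₂) (a ^ 2 / (g₁ * g₂)) = g₁ * g₂ := by
          apply max_eq_left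
          rw [div_le_iff₀ htpos, ← sq]
          exact pow_le_pow_left₀ ha0.le hlt.le 2
        rw [hT1, hr'']
        exact NeAux.clamp_mid hlt.le
          (mul_le_one₀ h₁.le hg2pos.le hg2lt1.le)
      · -- (ii)
        have hw : v (x₁ * x₂ + α * β) ≤ a :=
          Valuation.map_add_le v (by rw [hx12, ← heq]) (by rw [hαβ])
        have hr'' : r' ≤ a := by
          have : r' * a ≤ a * a := by
            rw [heq, hr, ← sq, ← heq]
            exact pow_le_pow_left₀ zero_le hw 2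
          exact le_of_mul_le_mul_right this ha0
        have hT1 : max (g₁ * g₂) (a ^ 2 / (g₁ * g₂)) = a := by
          rw [← heq, sq, mul_div_assoc, div_self ha_ne, mul_one, max_self]
        rw [hT1]
        exact NeAux.clamp_low hr''
      · -- (iii)
        have hw : v (x₁ * x₂ + α * β) = a := by
          rw [Valuation.map_add_eq_of_lt_right v (by rw [hx12, hαβ]; exact hgt), hαβ]
        rw [hw] at hr
        have hr'' : r' = a ^ 2 / (g₁ * g₂) := by
          rw [eq_div_iff htpos.ne', hr]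
        have hT1 : max (g₁ * g₂) (a ^ 2 / (g₁ * g₂)) = a ^ 2 / (g₁ * g₂) := by
          apply max_eq_right
          rw [le_div_iff₀ htpos, ← sq]
          exact pow_le_pow_left₀ htpos.le hgt.le 2
        rw [hT1, hr'']
        apply NeAux.clamp_mid
        · rw [le_div_iff₀ htpos, sq]
          exact mul_le_mul_right hgt.le a
        · rw [div_le_one₀ htpos, sq]
          exact mul_le_mul' hag1.le hag2.le
    -- strictness
    have hstrict : v (xp * xm) < v (xp + xm) ^ 2 := by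
      have hw_le : v (x₁ * x₂ + α * β) ≤ max (g₁ * g₂) a := by
        have := Valuation.map_add v (x₁ * x₂) (α * β)
        rwa [hx12, hαβ] at this
      have hw_lt : v (x₁ * x₂ + α * β) < g₂ := by
        refine lt_of_le_of_lt hw_le (max_lt ?_ hag2)
        exact mul_lt_of_lt_one_left hg2pos h₁
      have : v (xp * xm) * g₁ ^ 2 < v (xp + xm) ^ 2 * g₁ ^ 2 := by
        rw [hP', hs, div_pow, div_mul_cancel₀ _ hg1sq_ne]
        exact pow_lt_pow_left₀ hw_lt zero_le (by norm_num)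
      exact lt_of_mul_lt_mul_right this hg1sq_pos.le
    rcases NeAux.vieta_strict v hstrict with ⟨hp, hm⟩ | ⟨hm, hp⟩
    · right
      refine ⟨?_, hkey _ hm⟩
      rw [hp, hs, hs_clamp, hT2]
    · left
      refine ⟨hkey _ hp, ?_⟩
      rw [hm, hs, hs_clamp, hT2]
  · rcases lt_or_ge a g₁ with hag1 | hag1
    · -- Case B : g₂ ≤ a < g₁
      have hc₁ : c₁ = g₁ := NeAux.clamp_mid hag1.le h₁.le
      have hc₂ : c₂ = a := NeAux.clamp_low hag2
      have hw : v (x₁ * x₂ + α * β) = a := by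
        have hlt : v (x₁ * x₂) < v (α * β) := by
          rw [hx12, hαβ]
          exact lt_of_lt_of_le (mul_lt_of_lt_one_left hg2pos h₁) hag2
        rw [Valuation.map_add_eq_of_lt_right v hlt, hαβ]
      have hNle : v (x₁ * x₂ * (x₁ + x₂ + 2 * β - 2 * α) - α * β * (x₁ + x₂)) ≤ a * g₁ := by
        apply Valuation.map_sub_le v
        · rw [hA, mul_comm]; exact mul_le_mul_left hag2 g₁
        · rw [hB]
      have hval : (a / g₁) ^ 2 = v (xp * xm) := by
        rw [div_pow, div_eq_iff hg1sq_ne, hP', hw]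
      have hsle : v (xp + xm) ≤ a / g₁ := by
        rw [le_div_iff₀ hg1pos]
        have : v (xp + xm) * g₁ * g₁ ≤ a * g₁ := by
          rw [mul_assoc, ← sq, hS']; exact hNle
        exact le_of_mul_le_mul_right this hg1pos
      have hnon : v (xp + xm) ^ 2 ≤ v (xp * xm) := by
        rw [← hval]
        exact pow_le_pow_left₀ zero_le hsle 2
      obtain ⟨hpm, hp2⟩ := NeAux.vieta_nonstrict v hnon
      have hp : v xp = a / g₁ := by
        rw [← hval] at hp2
        exact (pow_left_inj₀ zero_le zero_le (by norm_num)).mp hp2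
      have hclamp : clamp a (a / g₁) = a / g₁ := by
        apply NeAux.clamp_mid
        · rw [le_div_iff₀ hg1pos]; exact mul_le_of_le_one_right ha0.le h₁.le
        · exact (div_le_one₀ hg1pos).mpr hag1.le
      have hT1 : max (c₁ * c₂) (a ^ 2 / (c₁ * c₂)) = a / g₁ := by
        rw [hc₁, hc₂]
        have e : a ^ 2 / (g₁ * a) = a / g₁ := by
          rw [sq, mul_comm g₁ a, mul_div_mul_left _ _ ha_ne]
        rw [e]
        apply max_eq_right
        rw [le_div_iff₀ hg1pos]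
        calc g₁ * a * g₁ = a * (g₁ * g₁) := by rw [mul_comm g₁ a, mul_assoc]
          _ ≤ a * 1 := mul_le_mul_right (mul_le_one₀ h₁.le hg1pos.le h₁.le) a
          _ = a := mul_one a
      have hT2 : min (c₁ / c₂) (c₂ / c₁) = a / g₁ := by
        rw [hc₁, hc₂]
        apply min_eq_right
        have h1 : a / g₁ ≤ 1 := (div_le_one₀ hg1pos).mpr hag1.le
        have h2 : 1 ≤ g₁ / a := (one_le_div₀ ha0).mpr hag1.le
        exact h1.trans h2
      left
      rw [hT1, hT2, ← hpm, hp, hclamp]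
      exact ⟨rfl, rfl⟩
    · -- Case C : g₂ < g₁ ≤ a
      have hc₁ : c₁ = a := NeAux.clamp_low hag1
      have hc₂ : c₂ = a := NeAux.clamp_low hag2
      have hT1 : max (c₁ * c₂) (a ^ 2 / (c₁ * c₂)) = 1 := by
        rw [hc₁, hc₂, sq, div_self (mul_ne_zero ha_ne ha_ne)]
        exact max_eq_right (mul_le_one₀ hale1 ha0.le hale1)
      have hT2 : min (c₁ / c₂) (c₂ / c₁) = 1 := by
        rw [hc₁, hc₂, div_self ha_ne, min_self]
      have hw : v (x₁ * x₂ + α * β) = a := by
        have hlt : v (x₁ * x₂) < v (α * β) := by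
          rw [hx12, hαβ]
          exact lt_of_lt_of_le (mul_lt_of_lt_one_right hg1pos hg2lt1) hag1
        rw [Valuation.map_add_eq_of_lt_right v hlt, hαβ]
      rw [hw] at hP'
      have hNle : v (x₁ * x₂ * (x₁ + x₂ + 2 * β - 2 * α) - α * β * (x₁ + x₂)) ≤ a ^ 2 := by
        apply Valuation.map_sub_le v
        · rw [hA, sq]; exact mul_le_mul' hag1 hag2
        · rw [hB, sq]; exact mul_le_mul_right hag1 a
      have hπ1 : 1 ≤ v (xp * xm) := by
        have : 1 * g₁ ^ 2 ≤ v (xp * xm) * g₁ ^ 2 := by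
          rw [hP', one_mul]
          exact pow_le_pow_left₀ zero_le hag1 2
        exact le_of_mul_le_mul_right this hg1sq_pos
      have hsπ : v (xp + xm) ≤ v (xp * xm) := by
        have : v (xp + xm) * g₁ ^ 2 ≤ v (xp * xm) * g₁ ^ 2 := by
          rw [hS', hP']; exact hNle
        exact le_of_mul_le_mul_right this hg1sq_pos
      have hπpos : 0 < v (xp * xm) := lt_of_lt_of_le one_pos hπ1
      rw [map_mul] at hπ1 hsπ hπpos
      have hp1 : 1 ≤ v xp := by
        by_contra hlt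
        push Not at hlt
        have hmpos : 0 < v xm := by
          rcases eq_or_lt_of_le (zero_le (a := v xm)) with h0 | h0
          · rw [← h0, mul_zero] at hπpos; exact absurd hπpos (lt_irrefl _)
          · exact h0
        have hlt2 : v xp * v xm < v xm := mul_lt_of_lt_one_left hmpos hlt
        have hm1 : 1 < v xm := lt_of_le_of_lt hπ1 hlt2
        have hpm : v xp < v xm := lt_trans hlt hm1
        rw [Valuation.map_add_eq_of_lt_right v hpm] at hsπ
        exact absurd hlt2 (not_lt.mpr hsπ)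
      have hm1 : 1 ≤ v xm := by
        by_contra hlt
        push Not at hlt
        have hppos : 0 < v xp := lt_of_lt_of_le one_pos hp1
        have hlt2 : v xp * v xm < v xp := mul_lt_of_lt_one_right hppos hlt
        have hpm : v xm < v xp := lt_of_lt_of_le hlt hp1
        rw [Valuation.map_add_eq_of_lt_left v hpm] at hsπ
        exact absurd hlt2 (not_lt.mpr hsπ)
      left
      rw [hT1, hT2, NeAux.clamp_high hp1 hale1, NeAux.clamp_high hm1 hale1]
      exact ⟨rfl, rfl⟩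

end Main

end Fermat.Agent.S05.VLawRaw
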