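import Mathlib.RingTheory.Valuation.Basic
import Mathlib.Tactic
import Fermat.Agent.S05.VLawRawDefs

/-!
# S05: raw valuation law, case "first point integral unit", and duplication (owner: helper40)

Pure valuation computations on field elements (no curves).
-/

set_option autoImplicit false
set_option linter.unusedVariables false

namespace Fermat.Agent.S05.VLawRaw

variable {K : Type*} [Field K] {Γ₀ : Type*} [LinearOrderedCommGroupWithZero Γ₀] (v : Valuation K Γ₀)

/-- squaring is injective on a linearly ordered group with zero. -/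
theorem sq_inj_aux {a b : Γ₀} (h : a ^ 2 = b ^ 2) : a = b := by
  rcases lt_trichotomy a b with hlt | heq | hgt
  · exfalso
    have hb : 0 < b := lt_of_le_of_lt zero_le hlt
    have h1 : a * a < b * b :=
      lt_of_le_of_lt (mul_le_mul_right hlt.le a) (mul_lt_mul_of_pos_right hlt hb)
    rw [sq, sq] at h
    exact h1.ne h
  · exact heq
  · exfalso
    have ha : 0 < a := lt_of_le_of_lt zero_le hgt
    have h1 : b * b < a * a :=
      lt_of_le_of_lt (mul_le_mul_right hgt.le b) (mul_lt_mul_of_pos_right hgt ha)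
    rw [sq, sq] at h
    exact h1.ne' h

/-- local copy of `VietaVal.nonstrict`. -/
theorem vieta_nonstrict_aux {r₁ r₂ : K} (h : v (r₁ + r₂) ^ 2 ≤ v (r₁ * r₂)) :
    v r₁ = v r₂ ∧ v r₁ ^ 2 = v (r₁ * r₂) := by
  rcases lt_trichotomy (v r₁) (v r₂) with hlt | heq | hgt
  · exfalso
    have hs : v (r₁ + r₂) = v r₂ := Valuation.map_add_eq_of_lt_right v hlt
    have hpos : 0 < v r₂ := lt_of_le_of_lt zero_le hlt
    rw [hs, map_mul, sq] at h
    exact absurd h (not_le.mpr (mul_lt_mul_of_pos_right hlt hpos))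
  · exact ⟨heq, by rw [map_mul, sq, ← heq]⟩
  · exfalso
    have hs : v (r₁ + r₂) = v r₁ := Valuation.map_add_eq_of_lt_left v hgt
    have hpos : 0 < v r₁ := lt_of_le_of_lt zero_le hgt
    rw [hs, map_mul, sq] at h
    exact absurd h (not_le.mpr (mul_lt_mul_of_pos_left hgt hpos))

/-- if sum and product are small then both numbers are small. -/
theorem both_le_aux {r₁ r₂ : K} {a : Γ₀} (hSm : v (r₁ + r₂) ≤ a) (hPr : v (r₁ * r₂) ≤ a ^ 2) :
    v r₁ ≤ a ∧ v r₂ ≤ a := by
  have key : ∀ s₁ s₂ : K, v (s₁ + s₂) ≤ a → v (s₁ * s₂) ≤ a ^ 2 → v s₁ ≤ a := by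
    intro s₁ s₂ h1 h2
    by_contra hcon
    rw [not_le] at hcon
    have hpos : 0 < v s₁ := lt_of_le_of_lt zero_le hcon
    rcases lt_or_ge (v s₂) (v s₁) with hlt | hge
    · have hs : v (s₁ + s₂) = v s₁ := Valuation.map_add_eq_of_lt_left v hlt
      rw [hs] at h1
      exact absurd h1 (not_le.mpr hcon)
    · have h3 : a * a < v s₁ * v s₂ :=
        lt_of_le_of_lt (mul_le_mul_right hcon.le a)
          (lt_of_lt_of_le (mul_lt_mul_of_pos_right hcon hpos) (mul_le_mul_right hge (v s₁)))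
      rw [map_mul, sq] at h2
      exact absurd h2 (not_le.mpr h3)
  refine ⟨key r₁ r₂ hSm hPr, key r₂ r₁ ?_ ?_⟩
  · rwa [add_comm]
  · rwa [mul_comm]

theorem case_one {α β x₁ x₂ xp xm : K} (hα0 : α ≠ 0) (hα : v α < 1) (hβ : v β = 1)
    (h2 : v (2 : K) = 1) (hx : x₁ ≠ x₂) (h₁ : 1 ≤ v x₁) (h₂ : v x₂ < 1) (hx₂ : x₂ ≠ 0)
    (hS : (xp + xm) * (x₁ - x₂) ^ 2 =
      2 * ((x₁ + x₂) * (x₁ * x₂ + -(α * β)) + 2 * (β - α) * x₁ * x₂))
    (hP : xp * xm * (x₁ - x₂) ^ 2 = (x₁ * x₂ - -(α * β)) ^ 2) :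
    clamp (v α) (v xp) = clamp (v α) (v x₂) ∧ clamp (v α) (v xm) = clamp (v α) (v x₂) := by
  -- notation
  set a := v α with ha
  set g₁ := v x₁ with hg₁
  set g₂ := v x₂ with hg₂
  have ha1 : a ≤ 1 := hα.le
  have hg₁pos : 0 < g₁ := lt_of_lt_of_le zero_lt_one h₁
  have hg₁sq : 0 < g₁ ^ 2 := pow_pos hg₁pos 2
  have h21 : g₂ < g₁ := lt_of_lt_of_le h₂ h₁
  have hd : v (x₁ - x₂) = g₁ := Valuation.map_sub_eq_of_lt_left v h21
  have hd2 : v ((x₁ - x₂) ^ 2) = g₁ ^ 2 := by rw [map_pow, hd]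
  have hαβ : v (α * β) = a := by rw [map_mul, hβ, mul_one]
  have hx12 : v (x₁ * x₂) = g₁ * g₂ := map_mul v x₁ x₂
  have hsum : v (x₁ + x₂) ≤ g₁ := Valuation.map_add_le v le_rfl h21.le
  have hβα : v (β - α) ≤ 1 := Valuation.map_sub_le v hβ.le ha1
  -- valuations of the two sides
  have hSv : v (xp + xm) * g₁ ^ 2 =
      v ((x₁ + x₂) * (x₁ * x₂ + -(α * β)) + 2 * (β - α) * x₁ * x₂) := by
    have := congrArg v hS
    rwa [map_mul, hd2, map_mul, h2, one_mul] at this
  have hPv : v (xp * xm) * g₁ ^ 2 = v (x₁ * x₂ + α * β) ^ 2 := by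
    have := congrArg v hP
    rwa [map_mul, hd2, map_pow, sub_neg_eq_add] at this
  have hterm2 : v (2 * (β - α) * x₁ * x₂) ≤ g₁ * g₂ := by
    rw [map_mul, map_mul, map_mul, h2, one_mul, mul_assoc]
    exact mul_le_of_le_one_left' hβα
  rcases lt_or_ge a (g₁ * g₂) with hcase | hcase
  · -- case (i): `v (x₁ x₂) > v α`
    have hq : v (x₁ * x₂ + α * β) = g₁ * g₂ := by
      rw [← hx12]
      exact Valuation.map_add_eq_of_lt_left v (by rw [hαβ, hx12]; exact hcase)
    have hq' : v (x₁ * x₂ + -(α * β)) ≤ g₁ * g₂ := by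
      refine Valuation.map_add_le v hx12.le ?_
      rw [Valuation.map_neg, hαβ]
      exact hcase.le
    have hPr : v (xp * xm) = g₂ ^ 2 := by
      rw [hq, mul_pow, mul_comm] at hPv
      exact mul_left_cancel₀ hg₁sq.ne' hPv
    have hN : v ((x₁ + x₂) * (x₁ * x₂ + -(α * β)) + 2 * (β - α) * x₁ * x₂) ≤ g₁ ^ 2 * g₂ := by
      refine Valuation.map_add_le v ?_ ?_
      · rw [map_mul, sq, mul_assoc]
        exact mul_le_mul' hsum hq'
      · refine hterm2.trans ?_
        rw [sq, mul_assoc]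
        exact le_mul_of_one_le_left' h₁
    have hSm : v (xp + xm) ≤ g₂ := by
      rw [← hSv, mul_comm] at hN
      exact le_of_mul_le_mul_left hN hg₁sq
    have hV := vieta_nonstrict_aux v (r₁ := xp) (r₂ := xm)
      (by rw [hPr]; exact pow_le_pow_left' hSm 2)
    have hxp : v xp = g₂ := sq_inj_aux (by rw [hV.2, hPr])
    have hxm : v xm = g₂ := by rw [← hV.1, hxp]
    rw [hxp, hxm]
    exact ⟨rfl, rfl⟩
  · -- case (ii): `v (x₁ x₂) ≤ v α`
    have hg₂a : g₂ ≤ a := (le_mul_of_one_le_left' h₁).trans hcase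
    have hq : v (x₁ * x₂ + α * β) ≤ a :=
      Valuation.map_add_le v (hx12.le.trans hcase) hαβ.le
    have hq' : v (x₁ * x₂ + -(α * β)) ≤ a := by
      refine Valuation.map_add_le v (hx12.le.trans hcase) ?_
      rw [Valuation.map_neg, hαβ]
    have hPr : v (xp * xm) ≤ a ^ 2 := by
      calc v (xp * xm) ≤ v (xp * xm) * g₁ ^ 2 := le_mul_of_one_le_right' (one_le_pow_of_one_le' h₁ 2)
        _ = v (x₁ * x₂ + α * β) ^ 2 := hPv
        _ ≤ a ^ 2 := pow_le_pow_left' hq 2
    have hN : v ((x₁ + x₂) * (x₁ * x₂ + -(α * β)) + 2 * (β - α) * x₁ * x₂) ≤ a * g₁ := by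
      refine Valuation.map_add_le v ?_ ?_
      · rw [map_mul, mul_comm]
        exact mul_le_mul' hq' hsum
      · exact (hterm2.trans hcase).trans (le_mul_of_one_le_right' h₁)
    have hSm : v (xp + xm) ≤ a := by
      have h3 : v (xp + xm) * g₁ * g₁ ≤ a * g₁ := by
        rw [mul_assoc, ← sq, hSv]
        exact hN
      have h4 : v (xp + xm) * g₁ ≤ a := le_of_mul_le_mul_right h3 hg₁pos
      exact (le_mul_of_one_le_right' h₁).trans h4
    obtain ⟨hp, hm⟩ := both_le_aux v hSm hPr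
    rw [clamp_of_le ha1 hp, clamp_of_le ha1 hm, clamp_of_le ha1 hg₂a]
    exact ⟨rfl, rfl⟩

theorem dbl {α β x y x' : K} (hα0 : α ≠ 0) (hα : v α < 1) (hβ : v β = 1) (h2 : v (2 : K) = 1)
    (h₁ : v x < 1) (hx0 : x ≠ 0) (hy0 : y ≠ 0)
    (hE : y ^ 2 = x * (x - α) * (x + β)) (hD : x' * (4 * y ^ 2) = (x ^ 2 - -(α * β)) ^ 2) :
    let c := clamp (v α) (v x); clamp (v α) (v x') = max (c ^ 2) (v α ^ 2 / c ^ 2) := by
  intro c
  set a := v α with ha
  set e := v x with he
  have ha1 : a ≤ 1 := hα.le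
  have hapos : 0 < a := zero_lt_iff.mpr ((Valuation.ne_zero_iff v).mpr hα0)
  have hepos : 0 < e := zero_lt_iff.mpr ((Valuation.ne_zero_iff v).mpr hx0)
  have hαβ : v (α * β) = a := by rw [map_mul, hβ, mul_one]
  have hxβ : v (x + β) = 1 := by
    rw [← hβ]
    exact Valuation.map_add_eq_of_lt_right v (by rw [hβ]; exact h₁)
  have h4 : v (4 : K) = 1 := by
    have : (4 : K) = 2 * 2 := by norm_num
    rw [this, map_mul, h2, one_mul]
  have hy : v (y ^ 2) = e * v (x - α) := by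
    rw [hE, map_mul, map_mul, hxβ, mul_one]
  have hDv : v x' * v (y ^ 2) = v (x ^ 2 + α * β) ^ 2 := by
    have := congrArg v hD
    rwa [map_mul, map_mul, h4, one_mul, map_pow v (x ^ 2 - -(α * β)), sub_neg_eq_add] at this
  have hx2 : v (x ^ 2) = e ^ 2 := map_pow v x 2
  have he2pos : 0 < e ^ 2 := pow_pos hepos 2
  rcases lt_or_ge a e with hcase | hcase
  · -- case A: `v α < v x`
    have hc : c = e := clamp_of_mem hcase.le h₁.le
    have hxα : v (x - α) = e := Valuation.map_sub_eq_of_lt_left v hcase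
    rw [hxα, ← sq] at hy
    rw [hy] at hDv
    rw [hc]
    rcases lt_trichotomy a (e ^ 2) with hlt | heq | hgt
    · -- A1
      have hq : v (x ^ 2 + α * β) = e ^ 2 := by
        rw [← hx2]
        exact Valuation.map_add_eq_of_lt_left v (by rw [hαβ, hx2]; exact hlt)
      have hx' : v x' = e ^ 2 := by
        rw [hq, sq (e ^ 2)] at hDv
        exact mul_right_cancel₀ he2pos.ne' hDv
      have he21 : e ^ 2 ≤ 1 := pow_le_one' h₁.le 2
      rw [hx', clamp_of_mem hlt.le he21]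
      symm
      apply max_eq_left
      rw [div_le_iff₀ he2pos, sq a]
      exact mul_le_mul' hlt.le hlt.le
    · -- A3 : `a = e ^ 2`
      have hq : v (x ^ 2 + α * β) ≤ a := Valuation.map_add_le v (by rw [hx2, heq]) hαβ.le
      have hx' : v x' ≤ a := by
        have h5 : v x' * e ^ 2 ≤ a * e ^ 2 := by
          rw [hDv]
          calc v (x ^ 2 + α * β) ^ 2 ≤ a ^ 2 := pow_le_pow_left' hq 2
            _ = a * e ^ 2 := by rw [sq a, ← heq]
        exact le_of_mul_le_mul_right h5 he2pos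
      rw [clamp_of_le ha1 hx', ← heq]
      symm
      have : a ^ 2 / a = a := by rw [sq, mul_div_assoc, div_self hapos.ne', mul_one]
      rw [this, max_self]
    · -- A2 : `e ^ 2 < a`
      have hq : v (x ^ 2 + α * β) = a := by
        rw [← hαβ]
        exact Valuation.map_add_eq_of_lt_right v (by rw [hαβ, hx2]; exact hgt)
      have hx' : v x' = a ^ 2 / e ^ 2 := by
        rw [hq] at hDv
        rw [eq_div_iff he2pos.ne']
        exact hDv
      have hle1 : a ≤ a ^ 2 / e ^ 2 := by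
        rw [le_div_iff₀ he2pos, sq a]
        exact mul_le_mul' le_rfl hgt.le
      have hle2 : a ^ 2 / e ^ 2 ≤ 1 := by
        rw [div_le_iff₀ he2pos, one_mul]
        exact pow_le_pow_left' hcase.le 2
      rw [hx', clamp_of_mem hle1 hle2]
      symm
      apply max_eq_right
      rw [le_div_iff₀ he2pos, sq a]
      exact mul_le_mul' hgt.le hgt.le
  · -- case B: `v x ≤ v α`
    have hc : c = a := clamp_of_le ha1 hcase
    rw [hc]
    have ha2pos : 0 < a ^ 2 := pow_pos hapos 2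
    have hrhs : max (a ^ 2) (a ^ 2 / a ^ 2) = 1 := by
      rw [div_self ha2pos.ne']
      exact max_eq_right (pow_le_one' ha1 2)
    rw [hrhs]
    have hx2lt : v (x ^ 2) < a := by
      rw [hx2, sq]
      calc e * e ≤ a * e := mul_le_mul' hcase le_rfl
        _ < a := mul_lt_of_lt_one_right hapos h₁
    have hq : v (x ^ 2 + α * β) = a := by
      rw [← hαβ]
      exact Valuation.map_add_eq_of_lt_right v (by rw [hαβ]; exact hx2lt)
    have hxα : v (x - α) ≤ a := Valuation.map_sub_le v hcase le_rfl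
    have hyle : v (y ^ 2) ≤ a ^ 2 := by
      rw [hy, sq]
      exact mul_le_mul' hcase hxα
    rw [hq] at hDv
    have hx' : 1 ≤ v x' := by
      by_contra hcon
      rw [not_le] at hcon
      have h5 : v x' * v (y ^ 2) < a ^ 2 :=
        lt_of_le_of_lt (mul_le_mul' le_rfl hyle) (mul_lt_of_lt_one_left ha2pos hcon)
      exact h5.ne hDv
    exact clamp_of_one_le ha1 hx'

end Fermat.Agent.S05.VLawRaw
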