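import Fermat.Agent.S05.XOnly
import Fermat.Agent.S05.VLawRawOne
import Fermat.Agent.S05.VLawRawNe
import Fermat.Agent.S05.VLawRawEq

/-!
# S05 helper: the folding law for the clamped valuation of the x-coordinate (point level)
-/

set_option autoImplicit false

namespace Fermat.Agent.S05.VLaw

open WeierstrassCurve WeierstrassCurve.Affine Fermat.Agent.S05.VLawRaw

variable {K : Type*} [Field K]
  {Γ₀ : Type*} [LinearOrderedCommGroupWithZero Γ₀] (v : Valuation K Γ₀)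

/-- clamped valuation of the x-coordinate, multiplicative notation: values in `[v α, 1]`. -/
def Vc (α : K) {a₂ a₄ : K} : (shortW a₂ a₄).toAffine.Point → Γ₀
  | .zero => 1
  | .some x _ _ => clamp (v α) (v x)

lemma Vc_zero (α : K) {a₂ a₄ : K} : Vc v α (0 : (shortW a₂ a₄).toAffine.Point) = 1 := rfl

lemma Vc_of_ne_zero (α : K) {a₂ a₄ : K} {P : (shortW a₂ a₄).toAffine.Point} (hP : P ≠ 0) :
    Vc v α P = clamp (v α) (v (xc P)) := by
  cases P with
  | zero => exact absurd rfl hP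
  | some x y h => rfl

lemma clamp_le_one {m g : Γ₀} (hm : m ≤ 1) : clamp m g ≤ 1 :=
  max_le hm (min_le_left _ _)

lemma le_clamp (m g : Γ₀) : m ≤ clamp m g := le_max_left _ _

lemma Vc_range {α : K} (hα : v α ≤ 1) {a₂ a₄ : K} (P : (shortW a₂ a₄).toAffine.Point) :
    v α ≤ Vc v α P ∧ Vc v α P ≤ 1 := by
  cases P with
  | zero => exact ⟨hα, le_refl _⟩
  | some x y h => exact ⟨le_clamp _ _, clamp_le_one hα⟩

lemma Vc_neg (α : K) {a₂ a₄ : K} (P : (shortW a₂ a₄).toAffine.Point) :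
    Vc v α (-P) = Vc v α P := by
  cases P with
  | zero => rfl
  | some x y h => rfl

lemma clamp_of_one_le {m g : Γ₀} (hm : m ≤ 1) (hg : 1 ≤ g) : clamp m g = 1 := by
  unfold clamp
  rw [min_eq_left hg, max_eq_right hm]

lemma clamp_of_lt_one {m g : Γ₀} (hg : g ≤ 1) : clamp m g = max m g := by
  unfold clamp
  rw [min_eq_right hg]

variable [DecidableEq K]

theorem add_sub {α β : K} (hα0 : α ≠ 0) (hα : v α < 1) (hβ : v β = 1) (h2 : v (2 : K) = 1)
    {P Q : (shortW (β - α) (-(α * β))).toAffine.Point} (hP : P ≠ 0) (hQ : Q ≠ 0)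
    (hxP : xc P ≠ 0) (hxQ : xc Q ≠ 0) (hx : xc P ≠ xc Q) (hQ1 : v (xc Q) < 1) :
    (Vc v α (P + Q) = max (Vc v α P * Vc v α Q) (v α ^ 2 / (Vc v α P * Vc v α Q)) ∧
      Vc v α (P - Q) = min (Vc v α P / Vc v α Q) (Vc v α Q / Vc v α P)) ∨
    (Vc v α (P + Q) = min (Vc v α P / Vc v α Q) (Vc v α Q / Vc v α P) ∧
      Vc v α (P - Q) = max (Vc v α P * Vc v α Q) (v α ^ 2 / (Vc v α P * Vc v α Q))) := by
  obtain ⟨hpq, hmq, hS, hPr⟩ := xc_add_sub hP hQ hx
  rw [Vc_of_ne_zero v α hpq, Vc_of_ne_zero v α hmq, Vc_of_ne_zero v α hP, Vc_of_ne_zero v α hQ]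
  have hvα0 : v α ≠ 0 := (Valuation.ne_zero_iff v).mpr hα0
  have hc₂pos : clamp (v α) (v (xc Q)) ≠ 0 :=
    ne_of_gt (lt_of_lt_of_le (zero_lt_iff.mpr hvα0) (le_clamp _ _))
  rcases le_or_gt 1 (v (xc P)) with h₁ | h₁
  · -- P has nonsingular reduction
    obtain ⟨e1, e2⟩ := case_one v hα0 hα hβ h2 hx h₁ hQ1 hxQ hS hPr
    left
    rw [e1, e2, clamp_of_one_le hα.le h₁, one_mul, one_div, div_one]
    have hc1 : clamp (v α) (v (xc Q)) ≤ 1 := clamp_le_one hα.le
    have hcα : v α ≤ clamp (v α) (v (xc Q)) := le_clamp _ _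
    constructor
    · symm
      apply max_eq_left
      rw [div_le_iff₀ (zero_lt_iff.mpr hc₂pos), sq]
      exact mul_le_mul' hcα hcα
    · symm
      apply min_eq_right
      calc clamp (v α) (v (xc Q)) ≤ 1 := hc1
        _ ≤ (clamp (v α) (v (xc Q)))⁻¹ := (one_le_inv₀ (zero_lt_iff.mpr hc₂pos)).mpr hc1
  · rcases lt_trichotomy (v (xc Q)) (v (xc P)) with h12 | h12 | h12
    · exact case_ne v hα0 hα hβ h2 h₁ h12 hxQ hS hPr
    · rcases case_eq v hα0 hα hβ h2 hx h₁ h12 hxQ hS hPr with ⟨e1, e2⟩ | ⟨e1, e2⟩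
      · left
        rw [e1, e2, h12, div_self (by rw [← h12]; exact hc₂pos), min_self]
        exact ⟨rfl, rfl⟩
      · right
        rw [e1, e2, h12, div_self (by rw [← h12]; exact hc₂pos), min_self]
        exact ⟨rfl, rfl⟩
    · have hS' : (xc (P + Q) + xc (P - Q)) * (xc Q - xc P) ^ 2 =
          2 * ((xc Q + xc P) * (xc Q * xc P + -(α * β)) + 2 * (β - α) * xc Q * xc P) := by
        linear_combination hS
      have hP' : xc (P + Q) * xc (P - Q) * (xc Q - xc P) ^ 2 = (xc Q * xc P - -(α * β)) ^ 2 := by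
        linear_combination hPr
      have := case_ne v hα0 hα hβ h2 hQ1 h12 hxP hS' hP'
      simp only at this
      rw [mul_comm (clamp (v α) (v (xc Q))) (clamp (v α) (v (xc P))),
        min_comm (clamp (v α) (v (xc Q)) / clamp (v α) (v (xc P)))] at this
      exact this

theorem add_self {α β : K} (hα0 : α ≠ 0) (hα : v α < 1) (hβ : v β = 1) (h2 : v (2 : K) = 1)
    {Q : (shortW (β - α) (-(α * β))).toAffine.Point} (hQ : Q ≠ 0)
    (hxQ : xc Q ≠ 0) (hyQ : yc Q ≠ 0) (hQ1 : v (xc Q) < 1) :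
    Vc v α (Q + Q) = max (Vc v α Q ^ 2) (v α ^ 2 / Vc v α Q ^ 2) := by
  have h2K : (2 : K) ≠ 0 := by
    intro h
    rw [h, map_zero] at h2
    exact zero_ne_one h2
  obtain ⟨hqq, hD⟩ := xc_add_self h2K hQ hyQ
  rw [Vc_of_ne_zero v α hqq, Vc_of_ne_zero v α hQ]
  have hE : yc Q ^ 2 = xc Q * (xc Q - α) * (xc Q + β) := by
    rw [equation_xc_yc hQ]; ring
  exact dbl v hα0 hα hβ h2 hQ1 hxQ hyQ hE hD

end Fermat.Agent.S05.VLaw
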