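/-
S05 (`lemmas` id 59): valuations of two numbers from the valuations of their sum and product.
Pure valuation theory.  Owner: helper77.
-/
import Mathlib.RingTheory.Valuation.Basic

set_option autoImplicit false

namespace Fermat.Agent.S05.VietaVal

variable {K : Type*} [Field K] {Γ₀ : Type*} [LinearOrderedCommGroupWithZero Γ₀]
  (v : Valuation K Γ₀)

/-- If `v r₁ < v r₂` then `v (r₁ * r₂) < v (r₁ + r₂) ^ 2`. -/
theorem mul_lt_add_sq_of_lt {r₁ r₂ : K} (h : v r₁ < v r₂) :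
    v (r₁ * r₂) < v (r₁ + r₂) ^ 2 := by
  have hs : v (r₁ + r₂) = v r₂ := Valuation.map_add_eq_of_lt_right v h
  have hpos : 0 < v r₂ := lt_of_le_of_lt zero_le h
  rw [hs, map_mul, sq]
  exact mul_lt_mul_of_pos_right h hpos

/-- If `v r₁ = v r₂` then `v (r₁ + r₂) ^ 2 ≤ v (r₁ * r₂)`. -/
theorem add_sq_le_mul_of_eq {r₁ r₂ : K} (h : v r₁ = v r₂) :
    v (r₁ + r₂) ^ 2 ≤ v (r₁ * r₂) := by
  have hs : v (r₁ + r₂) ≤ v r₁ := by
    have := Valuation.map_add v r₁ r₂
    rwa [← h, max_self] at this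
  calc v (r₁ + r₂) ^ 2 ≤ v r₁ ^ 2 := pow_le_pow_left₀ zero_le hs 2
    _ = v (r₁ * r₂) := by rw [map_mul, ← h, sq]

/-- Additive reading: `ord Π > 2 ord Σ`.  Then exactly one of the two numbers has the valuation
of the sum, and the other one has valuation `v Π / v Σ`. -/
theorem strict {r₁ r₂ : K} (h : v (r₁ * r₂) < v (r₁ + r₂) ^ 2) :
    (v r₁ = v (r₁ + r₂) ∧ v r₂ * v (r₁ + r₂) = v (r₁ * r₂)) ∨
    (v r₂ = v (r₁ + r₂) ∧ v r₁ * v (r₁ + r₂) = v (r₁ * r₂)) := by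
  rcases lt_trichotomy (v r₁) (v r₂) with h12 | h12 | h12
  · right
    have hs : v (r₁ + r₂) = v r₂ := Valuation.map_add_eq_of_lt_right v h12
    exact ⟨hs.symm, by rw [hs, map_mul]⟩
  · exact absurd (add_sq_le_mul_of_eq v h12) (not_le.mpr h)
  · left
    have hs : v (r₁ + r₂) = v r₁ := Valuation.map_add_eq_of_lt_left v h12
    exact ⟨hs.symm, by rw [hs, map_mul, mul_comm]⟩

/-- Additive reading: `ord Π ≤ 2 ord Σ`.  Then the two numbers have the same valuation, which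
is the square root of `v Π`. -/
theorem nonstrict {r₁ r₂ : K} (h : v (r₁ + r₂) ^ 2 ≤ v (r₁ * r₂)) :
    v r₁ = v r₂ ∧ v r₁ ^ 2 = v (r₁ * r₂) := by
  rcases lt_trichotomy (v r₁) (v r₂) with h12 | h12 | h12
  · exact absurd h (not_le.mpr (mul_lt_add_sq_of_lt v h12))
  · exact ⟨h12, by rw [map_mul, ← h12, sq]⟩
  · have := mul_lt_add_sq_of_lt v h12
    rw [mul_comm, add_comm] at this
    exact absurd h (not_le.mpr this)

end Fermat.Agent.S05.VietaVal
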